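import Fermat.Agent.Igusa.Base

/-!
# The coefficient ring contains roots of unity and inverses of integers prime to `ℓ`
-/

set_option autoImplicit false

noncomputable section

namespace Fermat.Agent.Igusa

theorem mem_coeffRing_of_pow_eq_one (ℓ : ℕ) {n : ℕ} [NeZero n] {z : ℂ} (hz : z ^ n = 1) :
    z ∈ (coeffRing ℓ).toSubring :=
  IsIntegral.of_pow (NeZero.pos n) (hz ▸ isIntegral_one)

theorem inv_natCast_mem_coeffRing (ℓ : ℕ) [Fact ℓ.Prime] {N : ℕ} (hℓN : ¬ ℓ ∣ N) :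
    ((N : ℂ))⁻¹ ∈ (coeffRing ℓ).toSubring := by
  have h : (1 / N : ℚ) ∈ GaloisRep.ratLocalizedAt ℓ := by
    show Nat.Coprime (1 / N : ℚ).den ℓ
    rw [one_div, Rat.inv_natCast_den]
    split_ifs with h0
    · exact Nat.coprime_one_left ℓ
    · exact ((Fact.out : ℓ.Prime).coprime_iff_not_dvd.mpr hℓN).symm
  have := isIntegral_algebraMap (R := ↥(GaloisRep.ratLocalizedAt ℓ)) (A := ℂ) (x := ⟨_, h⟩)
  have he : algebraMap ↥(GaloisRep.ratLocalizedAt ℓ) ℂ ⟨_, h⟩ = ((N : ℂ))⁻¹ := by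
    change (((1 / N : ℚ)) : ℂ) = _
    simp
  rwa [he] at this

end Fermat.Agent.Igusa
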