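import Mathlib.RingTheory.LaurentSeries
import Fermat.Prelude.Def_ModularCurve_X0
import Fermat.Prelude.Def_ModularCurve_LaurentCoeff
import Fermat.Prelude.Def_ModularCurve_JqCoeff

/-!
# Laurent series with a prescribed lowest coefficient

`HasLead x m c` says that the series `x` has no term below degree `m` and coefficient `c` in
degree `m`.  When `c` is a unit, so is `x`.  `twist c` is the substitution `q ↦ c q`, and
`affineSeries e c x` is the substitution `q ↦ c q ^ e`.
-/

set_option autoImplicit false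

noncomputable section

namespace Fermat.Agent.Igusa

open ModularCurve

variable {R S : Type*} [CommRing R] [CommRing S]

/-- `x` has no term below `m`, and coefficient `c` at `m`. -/
structure HasLead (x : LaurentSeries R) (m : ℤ) (c : R) : Prop where
  below : ∀ k < m, x.coeff k = 0
  coeff_eq : x.coeff m = c

namespace HasLead

variable {x y : LaurentSeries R} {m n : ℤ} {c d : R}

theorem single (m : ℤ) (c : R) : HasLead (HahnSeries.single m c) m c :=
  ⟨fun _ hk => HahnSeries.coeff_single_of_ne hk.ne, HahnSeries.coeff_single_same m c⟩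

protected theorem one : HasLead (1 : LaurentSeries R) 0 1 :=
  single 0 1

protected theorem neg (hx : HasLead x m c) : HasLead (-x) m (-c) :=
  ⟨fun k hk => by simp [hx.below k hk], by simp [hx.coeff_eq]⟩

theorem of_le (hx : HasLead x m c) (h : n < m) : HasLead x n 0 :=
  ⟨fun k hk => hx.below k (hk.trans h), hx.below n h⟩

theorem mul (hx : HasLead x m c) (hy : HasLead y n d) : HasLead (x * y) (m + n) (c * d) := by
  refine ⟨fun k hk => ?_, ?_⟩
  · rw [HahnSeries.coeff_mul]
    refine Finset.sum_eq_zero fun ij hij => ?_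
    obtain ⟨-, -, hk'⟩ := Finset.mem_antidiagonal.1 hij
    rcases lt_or_ge ij.1 m with h | h
    · rw [hx.below _ h, zero_mul]
    · rw [hy.below _ (by omega), mul_zero]
  · rw [HahnSeries.coeff_mul, Finset.sum_eq_single (m, n), hx.coeff_eq, hy.coeff_eq]
    · intro ij hij hne
      obtain ⟨-, -, hk'⟩ := Finset.mem_antidiagonal.1 hij
      rcases lt_or_ge ij.1 m with h | h
      · rw [hx.below _ h, zero_mul]
      · rcases h.lt_or_eq with h | h
        · rw [hy.below _ (by omega), mul_zero]
        · exact absurd (Prod.ext h.symm (by omega)) hne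
    · intro hmn
      simp only [Finset.mem_antidiagonal, HahnSeries.mem_support, and_true, not_and,
        not_not] at hmn
      by_cases h : x.coeff m = 0
      · rw [h, zero_mul]
      · rw [hmn h, mul_zero]

theorem mul' (hx : HasLead x m c) (hy : HasLead y n d) {k : ℤ} {e : R} (hk : m + n = k)
    (he : c * d = e) : HasLead (x * y) k e := hk ▸ he ▸ hx.mul hy

theorem pow (hx : HasLead x m c) (k : ℕ) : HasLead (x ^ k) (k * m) (c ^ k) := by
  induction k with
  | zero => simpa using HasLead.one
  | succ k ih =>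
    rw [pow_succ, pow_succ]
    exact ih.mul' hx (by push_cast; ring) rfl

theorem prod {ι : Type*} (s : Finset ι) {x : ι → LaurentSeries R} {m : ι → ℤ} {c : ι → R}
    (hx : ∀ i ∈ s, HasLead (x i) (m i) (c i)) :
    HasLead (∏ i ∈ s, x i) (∑ i ∈ s, m i) (∏ i ∈ s, c i) := by
  classical
  induction s using Finset.induction with
  | empty => simpa using HasLead.one
  | insert a s ha ih =>
    rw [Finset.prod_insert ha, Finset.sum_insert ha, Finset.prod_insert ha]
    exact (hx a (Finset.mem_insert_self a s)).mul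
      (ih fun i hi => hx i (Finset.mem_insert_of_mem hi))

theorem map (hx : HasLead x m c) (f : R →+* S) : HasLead (coeffMap f x) m (f c) :=
  ⟨fun k hk => by rw [coeffMap_coeff, hx.below k hk, map_zero],
    by rw [coeffMap_coeff, hx.coeff_eq]⟩

theorem eq_coeff (hx : HasLead x m c) (hy : HasLead x m d) : c = d :=
  hx.coeff_eq.symm.trans hy.coeff_eq

theorem index_unique (hx : HasLead x m c) (hc : c ≠ 0) (hy : HasLead x n d) (hd : d ≠ 0) :
    m = n := by
  rcases lt_trichotomy m n with h | h | h
  · exact absurd (hy.below m h) (hx.coeff_eq.symm ▸ hc)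
  · exact h
  · exact absurd (hx.below n h) (hy.coeff_eq.symm ▸ hd)

theorem ne_zero (hx : HasLead x m c) (hc : c ≠ 0) : x ≠ 0 := fun h => by
  apply hc
  rw [← hx.coeff_eq, h, HahnSeries.coeff_zero]

theorem order_eq (hx : HasLead x m c) (hc : c ≠ 0) : x.order = m := by
  refine le_antisymm (HahnSeries.order_le_of_coeff_ne_zero (hx.coeff_eq.symm ▸ hc)) ?_
  by_contra h
  exact HahnSeries.coeff_order_eq_zero.not.2 (hx.ne_zero hc) (hx.below _ (not_le.1 h))

theorem leadingCoeff_eq (hx : HasLead x m c) (hc : c ≠ 0) : x.leadingCoeff = c := by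
  rw [HahnSeries.leadingCoeff_eq, hx.order_eq hc, hx.coeff_eq]

/-- A series whose lowest coefficient is a unit is a unit. -/
theorem isUnit (hx : HasLead x m c) (hc : IsUnit c) : IsUnit x := by
  nontriviality R
  refine HahnSeries.isUnit_of_isUnit_leadingCoeff_AddUnitOrder ?_ (AddGroup.isAddUnit _)
  rwa [hx.leadingCoeff_eq hc.ne_zero]

theorem inv_unit {u : (LaurentSeries R)ˣ} {c : Rˣ} (hu : HasLead (u : LaurentSeries R) m c) :
    HasLead (↑u⁻¹ : LaurentSeries R) (-m) (↑c⁻¹ : R) := by
  rcases subsingleton_or_nontrivial R with h | h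
  · exact ⟨fun _ _ => Subsingleton.elim _ _, Subsingleton.elim _ _⟩
  set v : LaurentSeries R := ↑u⁻¹ with hv
  have huv : (u : LaurentSeries R) * v = 1 := u.mul_inv
  have hv0 : v ≠ 0 := fun h => by simp [h] at huv
  have hl : HasLead v v.order (v.coeff v.order) :=
    ⟨fun k hk => HahnSeries.coeff_eq_zero_of_lt_order hk, rfl⟩
  have hne : (c : R) * v.coeff v.order ≠ 0 := fun h =>
    HahnSeries.coeff_order_eq_zero.not.2 hv0 (c.isUnit.mul_right_eq_zero.1 h)
  have h1 := hu.mul hl
  rw [huv] at h1
  have he := HasLead.one.index_unique one_ne_zero h1 hne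
  have ho : v.order = -m := by omega
  rw [← he] at h1
  have hcv : v.coeff v.order = ↑c⁻¹ :=
    (Units.mul_eq_one_iff_inv_eq.1 (h1.eq_coeff HasLead.one)).symm
  rw [ho] at hl hcv
  exact ⟨hl.below, hcv⟩

theorem zpow_unit {u : (LaurentSeries R)ˣ} {c : Rˣ} (hu : HasLead (u : LaurentSeries R) m c)
    (k : ℤ) : HasLead (↑(u ^ k) : LaurentSeries R) (k * m) (↑(c ^ k) : R) := by
  obtain ⟨n, rfl | rfl⟩ := k.eq_nat_or_neg
  · simp only [zpow_natCast, Units.val_pow_eq_pow_val]
    exact hu.pow n
  · simp only [zpow_neg, zpow_natCast, ← inv_pow, Units.val_pow_eq_pow_val]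
    simpa [neg_mul, mul_neg] using hu.inv_unit.pow n

theorem qExpand (hx : HasLead x m c) (e : ℕ) [NeZero e] :
    HasLead (ModularCurve.qExpand R e x) (e * m) c := by
  refine ⟨fun k hk => ?_, by rw [qExpand_coeff_mul, hx.coeff_eq]⟩
  by_cases hd : (e : ℤ) ∣ k
  · obtain ⟨i, rfl⟩ := hd
    rw [qExpand_coeff_mul]
    refine hx.below i (lt_of_mul_lt_mul_left hk (Int.natCast_nonneg e))
  · exact qExpand_coeff_of_not_dvd e x hd

end HasLead

/-- The substitution `q ↦ c q`: the coefficient at `k` is multiplied by `c ^ k`. -/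
def twist (c : Rˣ) : LaurentSeries R →+* LaurentSeries R where
  toFun x := ⟨fun k => ((c ^ k : Rˣ) : R) * x.coeff k,
    x.isPWO_support.mono fun k hk => by
      simp only [Function.mem_support] at hk
      exact right_ne_zero_of_mul hk⟩
  map_one' := by
    ext k
    rcases eq_or_ne k 0 with rfl | hk <;> simp [HahnSeries.coeff_one, *]
  map_zero' := by ext k; simp
  map_add' x y := by ext k; simp [mul_add]
  map_mul' x y := by
    ext k
    simp only [HahnSeries.coeff_mul, Finset.mul_sum]
    refine Finset.sum_congr ?_ fun ij hij => ?_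
    · ext ij
      simp only [Finset.mem_antidiagonal, HahnSeries.mem_support, ne_eq, Units.mul_right_eq_zero]
    · obtain ⟨-, -, hk⟩ := Finset.mem_antidiagonal.1 hij
      rw [← hk, zpow_add, Units.val_mul]
      ring

@[simp]
theorem twist_coeff (c : Rˣ) (x : LaurentSeries R) (k : ℤ) :
    (twist c x).coeff k = ((c ^ k : Rˣ) : R) * x.coeff k := rfl

theorem twist_one (x : LaurentSeries R) : twist (1 : Rˣ) x = x := by
  ext k; simp

theorem coeffMap_twist (f : R →+* S) (c : Rˣ) (x : LaurentSeries R) :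
    coeffMap f (twist c x) = twist (Units.map f.toMonoidHom c) (coeffMap f x) := by
  ext k
  rw [coeffMap_coeff, twist_coeff, twist_coeff, map_mul, coeffMap_coeff, ← map_zpow]
  rfl

theorem HasLead.twist {x : LaurentSeries R} {m : ℤ} {d : R} (hx : HasLead x m d) (c : Rˣ) :
    HasLead (Igusa.twist c x) m (((c ^ m : Rˣ) : R) * d) :=
  ⟨fun k hk => by rw [twist_coeff, hx.below k hk, mul_zero], by rw [twist_coeff, hx.coeff_eq]⟩

/-- The substitution `q ↦ c q ^ e`. -/
def affineSeries (e : ℕ) [NeZero e] (c : Rˣ) : LaurentSeries R →+* LaurentSeries R :=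
  (qExpand R e).comp (twist c)

theorem affineSeries_apply (e : ℕ) [NeZero e] (c : Rˣ) (x : LaurentSeries R) :
    affineSeries e c x = qExpand R e (twist c x) := rfl

theorem affineSeries_coeff_mul (e : ℕ) [NeZero e] (c : Rˣ) (x : LaurentSeries R) (k : ℤ) :
    (affineSeries e c x).coeff (e * k) = ((c ^ k : Rˣ) : R) * x.coeff k := by
  rw [affineSeries_apply, qExpand_coeff_mul, twist_coeff]

theorem affineSeries_coeff_of_not_dvd (e : ℕ) [NeZero e] (c : Rˣ) (x : LaurentSeries R) {k : ℤ}
    (hk : ¬ (e : ℤ) ∣ k) : (affineSeries e c x).coeff k = 0 :=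
  qExpand_coeff_of_not_dvd e _ hk

theorem coeffMap_affineSeries (f : R →+* S) (e : ℕ) [NeZero e] (c : Rˣ) (x : LaurentSeries R) :
    coeffMap f (affineSeries e c x) =
      affineSeries e (Units.map f.toMonoidHom c) (coeffMap f x) := by
  ext k
  by_cases hk : (e : ℤ) ∣ k
  · obtain ⟨i, rfl⟩ := hk
    rw [coeffMap_coeff, affineSeries_coeff_mul, affineSeries_coeff_mul, map_mul, coeffMap_coeff,
      ← map_zpow]
    rfl
  · rw [coeffMap_coeff, affineSeries_coeff_of_not_dvd _ _ _ hk,
      affineSeries_coeff_of_not_dvd _ _ _ hk, map_zero]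

theorem HasLead.affineSeries {x : LaurentSeries R} {m : ℤ} {d : R} (hx : HasLead x m d)
    (e : ℕ) [NeZero e] (c : Rˣ) :
    HasLead (Igusa.affineSeries e c x) (e * m) (((c ^ m : Rˣ) : R) * d) :=
  (hx.twist c).qExpand e

variable (R) in
/-- The expansion `q ∏ (1 - qⁿ) ^ 24` of the discriminant, over any ring. -/
def deltaSeries : LaurentSeries R :=
  HahnSeries.single (1 : ℤ) 1 *
    HahnSeries.ofPowerSeries ℤ R (dedekindEtaUnit.map (Int.castRingHom R))

theorem hasLead_ofPowerSeries (p : PowerSeries R) :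
    HasLead (HahnSeries.ofPowerSeries ℤ R p) 0 (PowerSeries.constantCoeff p) := by
  refine ⟨fun k hk => ofPowerSeries_coeff_of_neg _ hk, ?_⟩
  rw [show (0 : ℤ) = ((0 : ℕ) : ℤ) from rfl, HahnSeries.ofPowerSeries_apply_coeff,
    PowerSeries.coeff_zero_eq_constantCoeff]

theorem hasLead_deltaSeries : HasLead (deltaSeries R) 1 1 :=
  (HasLead.single 1 1).mul' (hasLead_ofPowerSeries _) (add_zero 1) (by
    rw [← PowerSeries.coeff_zero_eq_constantCoeff, PowerSeries.coeff_map,
      PowerSeries.coeff_zero_eq_constantCoeff, constantCoeff_dedekindEtaUnit, map_one, one_mul])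

theorem hasLead_jqModC : HasLead (jqModC R) (-1) 1 :=
  (HasLead.single (-1) 1).mul' (hasLead_ofPowerSeries _) (add_zero _) (by
    rw [← PowerSeries.coeff_zero_eq_constantCoeff, PowerSeries.coeff_map,
      PowerSeries.coeff_zero_eq_constantCoeff, constantCoeff_jNum, map_one, one_mul])

theorem coeffMap_deltaSeries (f : R →+* S) : coeffMap f (deltaSeries R) = deltaSeries S := by
  ext k
  rw [deltaSeries, deltaSeries, coeffMap_coeff, HahnSeries.coeff_single_mul,
    HahnSeries.coeff_single_mul, map_mul, map_one]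
  congr 1
  rcases le_or_gt 0 (k - 1) with h | h
  · obtain ⟨i, hi⟩ := Int.eq_ofNat_of_zero_le h
    rw [hi, HahnSeries.ofPowerSeries_apply_coeff, HahnSeries.ofPowerSeries_apply_coeff,
      PowerSeries.coeff_map, PowerSeries.coeff_map, ← RingHom.comp_apply,
      RingHom.ext_int (f.comp (Int.castRingHom R)) (Int.castRingHom S)]
  · rw [ofPowerSeries_coeff_of_neg _ h, ofPowerSeries_coeff_of_neg _ h, map_zero]

theorem hasLead_affineSeries_deltaSeries (e : ℕ) [NeZero e] (c : Rˣ) :
    HasLead (affineSeries e c (deltaSeries R)) e (c : R) := by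
  simpa using hasLead_deltaSeries.affineSeries e c

theorem hasLead_affineSeries_jqModC (e : ℕ) [NeZero e] (c : Rˣ) :
    HasLead (affineSeries e c (jqModC R)) (-(e : ℤ)) (↑c⁻¹ : R) := by
  simpa using hasLead_jqModC.affineSeries e c

theorem isUnit_affineSeries_deltaSeries (e : ℕ) [NeZero e] (c : Rˣ) :
    IsUnit (affineSeries e c (deltaSeries R)) :=
  (hasLead_affineSeries_deltaSeries e c).isUnit c.isUnit

theorem isUnit_affineSeries_jqModC (e : ℕ) [NeZero e] (c : Rˣ) :
    IsUnit (affineSeries e c (jqModC R)) :=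
  (hasLead_affineSeries_jqModC e c).isUnit c⁻¹.isUnit

/-- The discriminant series at `q ↦ c q ^ e`, as a unit. -/
def deltaUnit (e : ℕ) [NeZero e] (c : Rˣ) : (LaurentSeries R)ˣ :=
  (isUnit_affineSeries_deltaSeries e c).unit

@[simp]
theorem val_deltaUnit (e : ℕ) [NeZero e] (c : Rˣ) :
    (deltaUnit e c : LaurentSeries R) = affineSeries e c (deltaSeries R) :=
  (isUnit_affineSeries_deltaSeries e c).unit_spec

theorem hasLead_deltaUnit_zpow (e : ℕ) [NeZero e] (c : Rˣ) (k : ℤ) :
    HasLead (↑(deltaUnit e c ^ k) : LaurentSeries R) (k * e) (↑(c ^ k) : R) :=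
  HasLead.zpow_unit (by rw [val_deltaUnit]; exact hasLead_affineSeries_deltaSeries e c) k

end Fermat.Agent.Igusa
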