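import Mathlib.NumberTheory.ModularForms.Discriminant
import Mathlib.RingTheory.RootsOfUnity.PrimitiveRoots
import Fermat.Agent.Modular.JFun
import Fermat.Agent.Igusa.LaurentLead

/-!
# Expansions at `(a τ + b) / d`

For a function with an expansion at period one over a subring `S` of `ℂ`, its composite with
`τ ↦ (a τ + b) / d` has an expansion at period `N`, over `S`, as soon as `d e = N a` and the root
of unity `exp (2πib/d)` is a unit of `S`.
-/

set_option autoImplicit false

noncomputable section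

open Complex
open UpperHalfPlane hiding I
open scoped Real

namespace Fermat.Agent.Igusa

open Fermat.Agent.Modular ModularCurve

local notation "𝕢" => Function.Periodic.qParam

theorem twistSeries_eq_twist (c : ℂˣ) (x : LaurentSeries ℂ) : twistSeries c x = twist c x := by
  ext k; simp

theorem qParam_natCast_intCast_pow (d : ℕ) [NeZero d] (b : ℤ) : 𝕢 (d : ℝ) (b : ℂ) ^ d = 1 := by
  rw [Function.Periodic.qParam, ← Complex.exp_nat_mul, Complex.exp_eq_one_iff]
  exact ⟨b, by
    have hd : (d : ℂ) ≠ 0 := Nat.cast_ne_zero.2 (NeZero.ne d)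
    push_cast
    field_simp⟩

theorem qParam_natCast_intCast_mul_neg (d : ℕ) (b : ℤ) :
    𝕢 (d : ℝ) (b : ℂ) * 𝕢 (d : ℝ) ((-b : ℤ) : ℂ) = 1 := by
  rw [Function.Periodic.qParam, Function.Periodic.qParam, ← Complex.exp_add]
  push_cast
  ring_nf
  exact Complex.exp_zero

/-- The unit `exp (2πib/d)` of a subring containing the `d`-th roots of unity. -/
def rootUnit (S : Subring ℂ) (d : ℕ) [NeZero d] (hS : ∀ z : ℂ, z ^ d = 1 → z ∈ S) (b : ℤ) : Sˣ where
  val := ⟨𝕢 (d : ℝ) (b : ℂ), hS _ (qParam_natCast_intCast_pow d b)⟩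
  inv := ⟨𝕢 (d : ℝ) ((-b : ℤ) : ℂ), hS _ (qParam_natCast_intCast_pow d (-b))⟩
  val_inv := Subtype.ext (qParam_natCast_intCast_mul_neg d b)
  inv_val := Subtype.ext ((mul_comm _ _).trans (qParam_natCast_intCast_mul_neg d b))

@[simp]
theorem val_rootUnit (S : Subring ℂ) (d : ℕ) [NeZero d] (hS : ∀ z : ℂ, z ^ d = 1 → z ∈ S) (b : ℤ) :
    ((rootUnit S d hS b : S) : ℂ) = 𝕢 (d : ℝ) (b : ℂ) := rfl

/-- A subring containing a primitive `N`-th root of unity contains all `d`-th ones, for `d ∣ N`. -/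
theorem mem_of_pow_eq_one_of_dvd {S : Subring ℂ} {N d : ℕ} [NeZero N] {ζ : ℂ}
    (hζ : IsPrimitiveRoot ζ N) (hζS : ζ ∈ S) (hd : d ∣ N) {z : ℂ} (hz : z ^ d = 1) : z ∈ S := by
  obtain ⟨k, rfl⟩ := hd
  obtain ⟨i, -, rfl⟩ := hζ.eq_pow_of_pow_eq_one (ξ := z) (by rw [pow_mul, hz, one_pow])
  exact pow_mem hζS i

variable {S : Subring ℂ} {f : ℍ → ℂ} {x : LaurentSeries S}

/-- The expansion at `(a τ + b) / d`, at period `N`. -/
theorem hasQExp_comp_affineH (hf : HasQExp 1 f (coeffMap S.subtype x)) {N a d e : ℕ} [NeZero N]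
    [NeZero a] [NeZero d] [NeZero e] (b : ℤ) (he : d * e = N * a) (c : Sˣ)
    (hc : ((c : S) : ℂ) = 𝕢 (d : ℝ) (b : ℂ)) :
    HasQExp (N : ℝ) (fun τ => f (affineH a b d τ))
      (coeffMap S.subtype (affineSeries e c x)) := by
  have key := hf.comp_of_qParam_eq (h' := (N : ℝ)) (affineH a b d) e
    (Units.map S.subtype.toMonoidHom c) fun τ => by
      rw [Units.coe_map, RingHom.toMonoidHom_eq_coe, MonoidHom.coe_coe, Subring.coe_subtype, hc,
        coe_affineH, Function.Periodic.qParam, Function.Periodic.qParam,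
        Function.Periodic.qParam, ← Complex.exp_nat_mul, ← Complex.exp_add]
      congr 1
      have he' : (d : ℂ) * e = N * a := by exact_mod_cast he
      have hd : (d : ℂ) ≠ 0 := Nat.cast_ne_zero.2 (NeZero.ne d)
      have hN : (N : ℂ) ≠ 0 := Nat.cast_ne_zero.2 (NeZero.ne N)
      push_cast
      field_simp
      linear_combination (-(τ : ℂ)) * he'
  rw [twistSeries_eq_twist] at key
  rw [coeffMap_affineSeries]
  exact key

/-- The expansion of an integer power of a function whose series is a unit. -/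
theorem hasQExp_zpow_unit {h : ℝ} (hh : 0 < h) (hne : ∀ τ, f τ ≠ 0) {u : (LaurentSeries S)ˣ}
    (hf : HasQExp h f (coeffMap S.subtype (u : LaurentSeries S))) (k : ℤ) :
    HasQExp h (fun τ => f τ ^ k) (coeffMap S.subtype (↑(u ^ k) : LaurentSeries S)) := by
  obtain ⟨n, rfl | rfl⟩ := k.eq_nat_or_neg
  · simpa [Pi.pow_def] using hf.pow n
  · have hn : HasQExp h (f ^ n) (coeffMap S.subtype (↑(u ^ n) : LaurentSeries S)) := by
      simpa using hf.pow n
    have hd := (HasQExp.one h).div hn hh fun τ => by simpa using pow_ne_zero n (hne τ)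
    refine (?_ : coeffMap S.subtype (↑(u ^ (-(n : ℤ))) : LaurentSeries S) = _) ▸
      hd.congr fun _ => by simp
    refine eq_div_of_mul_eq ?_ ?_
    · exact ((u ^ n).isUnit.map (coeffMap S.subtype)).ne_zero
    · rw [← map_mul, zpow_neg, zpow_natCast, Units.inv_mul, map_one]

section Delta

variable (hΔ : HasQExp 1 ModularForm.discriminant (deltaSeries ℂ))
include hΔ

theorem hasQExp_discriminant_subring (S : Subring ℂ) :
    HasQExp 1 ModularForm.discriminant (coeffMap S.subtype (deltaSeries S)) := by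
  rwa [coeffMap_deltaSeries]

/-- `Δ((a τ + b) / d)` at period `N`, over a subring containing the relevant root of unity. -/
theorem hasQExp_discriminant_affineH_of {N a d e : ℕ} [NeZero N] [NeZero a] [NeZero d] [NeZero e]
    (b : ℤ) (he : d * e = N * a) (c : Sˣ) (hc : ((c : S) : ℂ) = 𝕢 (d : ℝ) (b : ℂ)) :
    HasQExp (N : ℝ) (fun τ => ModularForm.discriminant (affineH a b d τ))
      (coeffMap S.subtype (deltaUnit e c : LaurentSeries S)) := by
  rw [val_deltaUnit]
  exact hasQExp_comp_affineH (hasQExp_discriminant_subring hΔ S) b he c hc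

/-- `Δ((a τ + b) / d) ^ k` at period `N`. -/
theorem hasQExp_discriminant_affineH_zpow_of {N a d e : ℕ} [NeZero N] [NeZero a] [NeZero d]
    [NeZero e] (b : ℤ) (he : d * e = N * a) (c : Sˣ) (hc : ((c : S) : ℂ) = 𝕢 (d : ℝ) (b : ℂ))
    (k : ℤ) :
    HasQExp (N : ℝ) (fun τ => ModularForm.discriminant (affineH a b d τ) ^ k)
      (coeffMap S.subtype (↑(deltaUnit e c ^ k) : LaurentSeries S)) :=
  hasQExp_zpow_unit (Nat.cast_pos.2 (Nat.pos_of_ne_zero (NeZero.ne N)))
    (fun τ => ModularForm.discriminant_ne_zero _) (hasQExp_discriminant_affineH_of hΔ b he c hc) k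

end Delta

/-- A function with expansion `jqModC`, at `(a τ + b) / d` and period `N`. -/
theorem hasQExp_jqModC_affineH_of (hj : HasQExp 1 f (jqModC ℂ)) {N a d e : ℕ} [NeZero N]
    [NeZero a] [NeZero d] [NeZero e] (b : ℤ) (he : d * e = N * a) (c : Sˣ)
    (hc : ((c : S) : ℂ) = 𝕢 (d : ℝ) (b : ℂ)) :
    HasQExp (N : ℝ) (fun τ => f (affineH a b d τ))
      (coeffMap S.subtype (affineSeries e c (jqModC S))) := by
  refine hasQExp_comp_affineH ?_ b he c hc
  have : coeffMap S.subtype (jqModC S) = jqModC ℂ := map_jqModC S.subtype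
  rwa [this]

theorem hasQExp_discriminant_deltaSeries :
    HasQExp 1 ModularForm.discriminant (deltaSeries ℂ) :=
  hasQExp_discriminant

/-- `Δ((a τ + b) / d)` at period `N`. -/
theorem hasQExp_discriminant_affineH {N a d e : ℕ} [NeZero N] [NeZero a] [NeZero d] [NeZero e]
    (b : ℤ) (he : d * e = N * a) (c : Sˣ) (hc : ((c : S) : ℂ) = 𝕢 (d : ℝ) (b : ℂ)) :
    HasQExp (N : ℝ) (fun τ => ModularForm.discriminant (affineH a b d τ))
      (coeffMap S.subtype (deltaUnit e c : LaurentSeries S)) :=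
  hasQExp_discriminant_affineH_of hasQExp_discriminant_deltaSeries b he c hc

/-- `Δ((a τ + b) / d) ^ k` at period `N`. -/
theorem hasQExp_discriminant_affineH_zpow {N a d e : ℕ} [NeZero N] [NeZero a] [NeZero d]
    [NeZero e] (b : ℤ) (he : d * e = N * a) (c : Sˣ) (hc : ((c : S) : ℂ) = 𝕢 (d : ℝ) (b : ℂ))
    (k : ℤ) :
    HasQExp (N : ℝ) (fun τ => ModularForm.discriminant (affineH a b d τ) ^ k)
      (coeffMap S.subtype (↑(deltaUnit e c ^ k) : LaurentSeries S)) :=
  hasQExp_discriminant_affineH_zpow_of hasQExp_discriminant_deltaSeries b he c hc k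

/-- `j((a τ + b) / d)` at period `N`. -/
theorem hasQExp_kleinJ_affineH {N a d e : ℕ} [NeZero N] [NeZero a] [NeZero d] [NeZero e]
    (b : ℤ) (he : d * e = N * a) (c : Sˣ) (hc : ((c : S) : ℂ) = 𝕢 (d : ℝ) (b : ℂ)) :
    HasQExp (N : ℝ) (fun τ => kleinJ (affineH a b d τ))
      (coeffMap S.subtype (affineSeries e c (jqModC S))) :=
  hasQExp_jqModC_affineH_of hasQExp_kleinJ b he c hc

end Fermat.Agent.Igusa
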