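import Fermat.Agent.Igusa.EtaUnit
import Fermat.Agent.Igusa.Expansions
import Fermat.Agent.Modular.JFun
import Fermat.Prelude.Thm_ModularCurve_coeffMap_qExpand

/-!
# Expansions of the modular unit and of `j (d τ)` at all cusps

The coefficients lie in any subring of `ℂ` containing the `N`-th roots of unity and `1/N`; the
modular unit has order `-W` (in `q`) with unit leading coefficient off `Γ₀(N)`.
-/

set_option autoImplicit false

noncomputable section

open scoped MatrixGroups
open ModularCurve UpperHalfPlane Finset CongruenceSubgroup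
open Fermat.Agent.Modular (HasQExp affineH mulH kleinJ kleinJ_smul)

namespace Fermat.Agent.Igusa

/-- `Δ`'s series as a unit. -/
def deltaUnitOne (R : Type*) [CommRing R] : (LaurentSeries R)ˣ :=
  ((hasLead_deltaSeries (R := R)).isUnit isUnit_one).unit

@[simp]
theorem coe_deltaUnitOne (R : Type*) [CommRing R] :
    (deltaUnitOne R : LaurentSeries R) = deltaSeries R := IsUnit.unit_spec _

/-- `q`-expansion of `Δ(δ τ) / Δ(τ)`. -/
def ratioUnit (R : Type*) [CommRing R] (δ : ℕ) [NeZero δ] : (LaurentSeries R)ˣ :=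
  Units.map (qExpand R δ).toMonoidHom (deltaUnitOne R) / deltaUnitOne R

theorem hasQExp_deltaSeries : HasQExp 1 ModularForm.discriminant (deltaSeries ℂ) :=
  Fermat.Agent.Modular.hasQExp_discriminant

variable (N : ℕ) [NeZero N]

/-- The integral `q`-expansion at `∞` of the normalised modular unit. -/
def etaSeries (R : Type*) [CommRing R] : (LaurentSeries R)ˣ :=
  ∏ T ∈ N.primeFactors.powerset.attach, ratioUnit R (etaLevel N T) ^ etaExp N T

theorem coeffMap_etaSeries {R R' : Type*} [CommRing R] [CommRing R'] (f : R →+* R') :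
    coeffMap f (etaSeries N R : LaurentSeries R) = (etaSeries N R' : LaurentSeries R') := by
  have h : ∀ δ : ℕ, ∀ [NeZero δ],
      Units.map (coeffMap f).toMonoidHom (ratioUnit R δ) = ratioUnit R' δ := by
    intro δ _
    rw [ratioUnit, ratioUnit, map_div]
    congr 1 <;> ext1 <;> simp [coeffMap_qExpand, coeffMap_deltaSeries]
  show (Units.map (coeffMap f).toMonoidHom (etaSeries N R) : LaurentSeries R') = _
  simp only [etaSeries, map_prod, map_zpow, h]

/-- The constant `∏ δ_S ^ (12 r_S)`. -/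
def etaConst : ℂ :=
  ∏ T ∈ N.primeFactors.powerset.attach, ((etaLevel N T : ℂ) ^ 12) ^ etaExp N T

theorem etaConst_ne_zero : etaConst N ≠ 0 :=
  Finset.prod_ne_zero_iff.mpr fun _ _ => zpow_ne_zero _ (pow_ne_zero _ (NeZero.ne _))

/-- The modular unit, normalised to have an integral expansion at `∞`. -/
def etaFun (τ : ℍ) : ℂ := etaUnit N τ / etaConst N

theorem etaFun_ne_zero (τ : ℍ) : etaFun N τ ≠ 0 :=
  div_ne_zero (etaUnit_ne_zero N τ) (etaConst_ne_zero N)

theorem etaFun_smul_of_mem {g : SL(2, ℤ)} (hg : g ∈ Gamma0 N) (τ : ℍ) :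
    etaFun N (g • τ) = etaFun N τ := by
  rw [etaFun, etaFun, etaUnit_smul_of_mem N hg]

/-- The series at `∞` lies in the field generated by the quotients `Δ(q^d) / Δ(q)`. -/
theorem etaSeries_mem {k : Type*} [Field k] (K : IntermediateField k (LaurentSeries k))
    (h : ∀ (d : ℕ) [NeZero d], d ∣ N → qExpand k d (deltaSeries k) / deltaSeries k ∈ K) :
    (etaSeries N k : LaurentSeries k) ∈ K := by
  rw [etaSeries, Units.coe_prod]
  refine prod_mem fun T _ => ?_
  rw [Units.val_zpow_eq_zpow_val]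
  refine zpow_mem ?_ _
  rw [ratioUnit, Units.val_div_eq_div_val]
  simpa using h _ (etaLevel_dvd N (Finset.mem_powerset.mp T.2))

/-- The order at `∞` is nonnegative. -/
theorem sum_etaExp_mul_pred_nonneg :
    0 ≤ ∑ T ∈ N.primeFactors.powerset, etaExp N T * ((etaLevel N T : ℤ) - 1) := by
  set P := N.primeFactors with hP
  set M := N / ∏ p ∈ P, p with hM
  have hlev : ∀ T ∈ P.powerset, (etaLevel N T : ℤ) = M * ∏ p ∈ P \ T, (p : ℤ) := by
    intro T hT
    rw [Finset.mem_powerset] at hT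
    have h1 : M * (∏ p ∈ P, p) = N := Nat.div_mul_cancel (Nat.prod_primeFactors_dvd N)
    have h2 : (∏ p ∈ P \ T, p) * (∏ p ∈ T, p) = ∏ p ∈ P, p := Finset.prod_sdiff hT
    have h3 : etaLevel N T = M * ∏ p ∈ P \ T, p := by
      rw [etaLevel]
      refine Nat.div_eq_of_eq_mul_left (Nat.pos_of_dvd_of_pos (prod_dvd_of_subset N hT)
        (NeZero.pos N)) ?_
      rw [mul_assoc, h2, h1]
    rw [h3]
    push_cast
    ring
  have h := Finset.prod_add (fun _ : ℕ => (-1 : ℤ)) (fun p : ℕ => (p : ℤ) ^ 2) P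
  simp only [prod_const, Finset.prod_pow] at h
  have hsum : ∑ T ∈ P.powerset, etaExp N T * (etaLevel N T : ℤ)
      = M * ∏ p ∈ P, ((-1 : ℤ) + (p : ℤ) ^ 2) := by
    rw [h, Finset.mul_sum]
    refine Finset.sum_congr rfl fun T hT => ?_
    rw [hlev T hT, etaExp, ← hP]
    ring
  simp only [mul_sub, mul_one, Finset.sum_sub_distrib, hsum, hP, sum_etaExp]
  have hM0 : (1 : ℤ) ≤ M := by
    exact_mod_cast Nat.div_pos (Nat.le_of_dvd (NeZero.pos N) (Nat.prod_primeFactors_dvd N))
      (Finset.prod_pos fun p hp => (Nat.prime_of_mem_primeFactors hp).pos)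
  have hle : (etaWeight N : ℤ) ≤ ∏ p ∈ N.primeFactors, ((-1 : ℤ) + (p : ℤ) ^ 2) := by
    rw [etaWeight, Nat.cast_prod]
    refine Finset.prod_le_prod (fun p hp => Int.natCast_nonneg _) fun p hp => ?_
    have := (Nat.prime_of_mem_primeFactors hp).one_le
    rw [Nat.cast_sub this]
    push_cast
    nlinarith
  nlinarith [Int.natCast_nonneg (etaWeight N)]

/-- The series at `∞` has no terms of negative degree. -/
theorem etaSeries_coeff_eq_zero_of_neg (R : Type*) [CommRing R] {k : ℤ} (hk : k < 0) :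
    (etaSeries N R : LaurentSeries R).coeff k = 0 := by
  have h : ∀ T : {T // T ∈ N.primeFactors.powerset}, HasLead
      ((ratioUnit R (etaLevel N T) ^ etaExp N T : (LaurentSeries R)ˣ) : LaurentSeries R)
      (etaExp N T * ((etaLevel N T : ℤ) - 1)) (1 : R) := by
    intro T
    have h1 : HasLead (deltaUnitOne R : LaurentSeries R) 1 ((1 : Rˣ) : R) := by
      simpa using hasLead_deltaSeries (R := R)
    have h2 : HasLead ((Units.map (qExpand R (etaLevel N T)).toMonoidHom (deltaUnitOne R) :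
        (LaurentSeries R)ˣ) : LaurentSeries R) (etaLevel N T) ((1 : Rˣ) : R) := by
      simpa using (hasLead_deltaSeries (R := R)).qExpand (etaLevel N T)
    have h3 : HasLead (ratioUnit R (etaLevel N T) : LaurentSeries R)
        ((etaLevel N T : ℤ) - 1) ((1 : Rˣ) : R) := by
      rw [ratioUnit, div_eq_mul_inv, Units.val_mul]
      exact h2.mul' h1.inv_unit (sub_eq_add_neg _ _).symm (by simp)
    simpa using h3.zpow_unit (etaExp N T)
  have h4 := HasLead.prod N.primeFactors.powerset.attach fun T _ => h T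
  rw [Finset.sum_attach N.primeFactors.powerset
    (fun T => etaExp N T * ((etaLevel N T : ℤ) - 1))] at h4
  rw [etaSeries, Units.coe_prod]
  exact h4.below k (lt_of_lt_of_le hk (sum_etaExp_mul_pred_nonneg N))

section Functions

variable {h : ℝ} {f : ℍ → ℂ} {S : Type*} [CommRing S] (φ : S →+* ℂ)

theorem hasQExp_units_inv (hh : 0 < h) (hne : ∀ τ, f τ ≠ 0) (x : (LaurentSeries S)ˣ)
    (hf : HasQExp h f (coeffMap φ (x : LaurentSeries S))) :
    HasQExp h (fun τ => (f τ)⁻¹) (coeffMap φ ((x⁻¹ : (LaurentSeries S)ˣ) : LaurentSeries S)) := by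
  have h1 := (HasQExp.one h).div hf hh hne
  have hx : 1 / coeffMap φ (x : LaurentSeries S)
      = coeffMap φ ((x⁻¹ : (LaurentSeries S)ˣ) : LaurentSeries S) := by
    rw [eq_comm, eq_div_iff ((x.isUnit.map (coeffMap φ)).ne_zero), ← map_mul, Units.inv_mul, map_one]
  rw [hx] at h1
  exact h1.congr fun τ => by simp

theorem hasQExp_units_zpow (hh : 0 < h) (hne : ∀ τ, f τ ≠ 0) (x : (LaurentSeries S)ˣ)
    (hf : HasQExp h f (coeffMap φ (x : LaurentSeries S))) (k : ℤ) :
    HasQExp h (fun τ => f τ ^ k)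
      (coeffMap φ ((x ^ k : (LaurentSeries S)ˣ) : LaurentSeries S)) := by
  obtain ⟨n, rfl | rfl⟩ := k.eq_nat_or_neg
  · rw [zpow_natCast, Units.val_pow_eq_pow_val, map_pow]
    exact (hf.pow n).congr fun τ => by simp
  · rw [zpow_neg, zpow_natCast]
    refine (hasQExp_units_inv φ hh (f := fun τ => f τ ^ n)
      (fun τ => pow_ne_zero n (hne τ)) (x ^ n) ?_).congr fun τ => by simp
    rw [Units.val_pow_eq_pow_val, map_pow]
    exact (hf.pow n).congr fun τ => by simp

end Functions

section Cusps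

variable {S : Subring ℂ}

/-- A function with an expansion over `S` that is a unit with a given order. -/
def HasUnitExp (N : ℕ) (S : Subring ℂ) (f : ℍ → ℂ) (m : ℤ) : Prop :=
  ∃ (x : (LaurentSeries S)ˣ) (c : Sˣ),
    HasQExp N f (coeffMap S.subtype (x : LaurentSeries S)) ∧
      HasLead (x : LaurentSeries S) m (c : S)

theorem HasUnitExp.congr {N : ℕ} {f g : ℍ → ℂ} {m : ℤ} (hf : HasUnitExp N S f m)
    (e : ∀ τ, f τ = g τ) : HasUnitExp N S g m := by
  obtain ⟨x, c, h1, h2⟩ := hf
  exact ⟨x, c, h1.congr e, h2⟩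

theorem HasUnitExp.mul {N : ℕ} {f g : ℍ → ℂ} {m m' : ℤ} (hf : HasUnitExp N S f m)
    (hg : HasUnitExp N S g m') : HasUnitExp N S (f * g) (m + m') := by
  obtain ⟨x, c, hx, lx⟩ := hf
  obtain ⟨y, c', hy, ly⟩ := hg
  refine ⟨x * y, c * c', ?_, ?_⟩
  · rw [Units.val_mul, map_mul]; exact hx.mul hy
  · rw [Units.val_mul, Units.val_mul]; exact lx.mul ly

theorem hasUnitExp_const (N : ℕ) (c : Sˣ) : HasUnitExp N S (fun _ => ((c : S) : ℂ)) 0 := by
  refine ⟨Units.map (HahnSeries.C : S →+* LaurentSeries S).toMonoidHom c, c, ?_, ?_, ?_⟩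
  · have := coeffMap_single S.subtype 0 (c : S)
    simp only [HahnSeries.C_apply, Units.coe_map, RingHom.toMonoidHom_eq_coe,
      MonoidHom.coe_coe] at this ⊢
    rw [this]
    simpa using HasQExp.single (N : ℝ) 0 ((c : S) : ℂ)
  · intro k hk
    simp [HahnSeries.C_apply, HahnSeries.coeff_single_of_ne (ne_of_lt hk)]
  · simp [HahnSeries.C_apply]

theorem HasUnitExp.zpow {N : ℕ} [NeZero N] {f : ℍ → ℂ} {m : ℤ} (hf : HasUnitExp N S f m)
    (hne : ∀ τ, f τ ≠ 0) (k : ℤ) : HasUnitExp N S (fun τ => f τ ^ k) (k * m) := by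
  obtain ⟨x, c, hx, lx⟩ := hf
  exact ⟨x ^ k, c ^ k, hasQExp_units_zpow S.subtype (by exact_mod_cast NeZero.pos N) hne x hx k,
    lx.zpow_unit k⟩

theorem HasUnitExp.inv {N : ℕ} [NeZero N] {f : ℍ → ℂ} {m : ℤ} (hf : HasUnitExp N S f m)
    (hne : ∀ τ, f τ ≠ 0) : HasUnitExp N S (fun τ => (f τ)⁻¹) (-m) := by
  simpa using hf.zpow hne (-1)

theorem HasUnitExp.prod {N : ℕ} {ι : Type*} (s : Finset ι) {F : ι → ℍ → ℂ} {m : ι → ℤ}
    (hF : ∀ i ∈ s, HasUnitExp N S (F i) (m i)) :
    HasUnitExp N S (∏ i ∈ s, F i) (∑ i ∈ s, m i) := by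
  classical
  induction s using Finset.induction with
  | empty => simpa [Pi.one_def] using hasUnitExp_const N (1 : Sˣ)
  | insert a s ha ih =>
    rw [Finset.prod_insert ha, Finset.sum_insert ha]
    exact (hF a (Finset.mem_insert_self a s)).mul
      (ih fun i hi => hF i (Finset.mem_insert_of_mem hi))

variable {N}

omit [NeZero N] in
theorem roots_of_dvd (hroots : ∀ z : ℂ, z ^ N = 1 → z ∈ S) {d : ℕ} (hd : d ∣ N) (z : ℂ)
    (hz : z ^ d = 1) : z ∈ S := by
  obtain ⟨k, hk⟩ := hd
  exact hroots z (by rw [hk, pow_mul, hz, one_pow])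

theorem exists_natUnit (hinv : ((N : ℂ))⁻¹ ∈ S) {a : ℕ} (ha : a ∣ N) :
    ∃ c : Sˣ, ((c : S) : ℂ) = a := by
  obtain ⟨k, hk⟩ := ha
  have hN : (N : ℂ) ≠ 0 := NeZero.ne _
  have hN' : (N : ℂ) = a * k := by exact_mod_cast hk
  refine ⟨⟨(a : S), (k : S) * ⟨_, hinv⟩, Subtype.ext ?_, Subtype.ext ?_⟩, rfl⟩ <;>
    push_cast <;> field_simp <;> linear_combination -hN'

/-- Expansion of `δ¹² Δ(δ g τ) / Δ(g τ)`. -/
theorem hasUnitExp_discRatio (hroots : ∀ z : ℂ, z ^ N = 1 → z ∈ S) (hinv : ((N : ℂ))⁻¹ ∈ S)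
    (g : SL(2, ℤ)) (δ : ℕ) [NeZero δ] (hδ : δ ∣ N) :
    HasUnitExp N S (fun τ => discRatio δ (g • τ))
      (((N / δ : ℕ) : ℤ) * (Nat.gcd δ (g 1 0).natAbs : ℤ) ^ 2 - N) := by
  obtain ⟨a, d, b, ha, hd, hag, had, h⟩ := discRatio_smul_eq g δ
  have hdvd : d ∣ N := (Dvd.intro_left a had).trans hδ
  have hadvd : a ∣ N := (Dvd.intro d had).trans hδ
  haveI : NeZero (N / δ) := ⟨(Nat.div_pos (Nat.le_of_dvd (NeZero.pos N) hδ) (NeZero.pos δ)).ne'⟩
  have he : d * (N / δ * a * a) = N * a := by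
    calc d * (N / δ * a * a) = (a * d) * (N / δ) * a := by ring
      _ = N * a := by rw [had, Nat.mul_div_cancel' hδ]
  obtain ⟨c12, hc12⟩ := exists_natUnit hinv hadvd
  have hD : HasUnitExp N S (fun τ => ModularForm.discriminant (affineH a b d τ))
      ((N / δ * a * a : ℕ) : ℤ) :=
    haveI : NeZero (N / δ * a * a) := ⟨mul_ne_zero (mul_ne_zero (NeZero.ne _) (NeZero.ne _))
      (NeZero.ne _)⟩
    ⟨((hasLead_affineSeries_deltaSeries (N / δ * a * a) (rootUnit S d (roots_of_dvd hroots hdvd) b)).isUnit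
      (Units.isUnit _)).unit, rootUnit S d (roots_of_dvd hroots hdvd) b,
      hasQExp_comp_affineH (hasQExp_discriminant_subring hasQExp_deltaSeries S) b he _
        (val_rootUnit S d (roots_of_dvd hroots hdvd) b),
      hasLead_affineSeries_deltaSeries (N / δ * a * a) _⟩
  have h0 : HasUnitExp N S ModularForm.discriminant (N : ℤ) := by
    refine ⟨Units.map (qExpand S N).toMonoidHom (deltaUnitOne S), 1, ?_, ?_⟩
    · have hs : coeffMap S.subtype (deltaSeries S) = deltaSeries ℂ := coeffMap_deltaSeries _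
      simp only [RingHom.toMonoidHom_eq_coe, Units.coe_map, MonoidHom.coe_coe, coe_deltaUnitOne,
        coeffMap_qExpand, hs]
      have := Fermat.Agent.Modular.hasQExp_discriminant.dilate_period one_ne_zero N
      rw [one_mul] at this
      exact this
    · simpa using (hasLead_deltaSeries (R := S)).qExpand N
  have hall := ((hasUnitExp_const N (c12 ^ 12)).mul hD).mul
    (h0.inv ModularForm.discriminant_ne_zero)
  refine Eq.subst (motive := fun m => HasUnitExp N S _ m) ?_
    (hall.congr fun τ => ?_)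
  · rw [← hag]; push_cast; ring
  · simp only [Pi.mul_apply, h τ, div_eq_mul_inv, Units.val_pow_eq_pow_val,
      SubmonoidClass.coe_pow, hc12]

/-- The expansion of the modular unit at the cusp `g ∞`. -/
theorem hasUnitExp_etaFun (hroots : ∀ z : ℂ, z ^ N = 1 → z ∈ S) (hinv : ((N : ℂ))⁻¹ ∈ S)
    (g : SL(2, ℤ)) : ∃ m : ℤ, HasUnitExp N S (fun τ => etaFun N (g • τ)) m ∧
      (g ∉ Gamma0 N → m = -((N : ℤ) * etaWeight N)) := by
  set P := N.primeFactors.powerset.attach with hP
  have hδ : ∀ T : {T // T ∈ N.primeFactors.powerset}, etaLevel N T ∣ N := fun T =>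
    etaLevel_dvd N (Finset.mem_powerset.mp T.2)
  have hc : ∀ T : {T // T ∈ N.primeFactors.powerset},
      HasUnitExp N S (fun _ => (((etaLevel N T : ℂ) ^ 12) ^ etaExp N T)) 0 := by
    intro T
    obtain ⟨c, hc⟩ := exists_natUnit hinv (hδ T)
    have hu := ((hasUnitExp_const N (c ^ 12)).congr
      (g := fun _ => (etaLevel N T : ℂ) ^ 12) fun τ => by simp [hc]).zpow
        (fun _ => pow_ne_zero _ (NeZero.ne _)) (etaExp N T)
    rwa [mul_zero] at hu
  have hnum := HasUnitExp.prod P fun T _ => (hasUnitExp_discRatio hroots hinv g _ (hδ T)).zpow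
    (fun τ => div_ne_zero (mul_ne_zero (pow_ne_zero _ (NeZero.ne _))
      (ModularForm.discriminant_ne_zero _)) (ModularForm.discriminant_ne_zero _)) (etaExp N T)
  have hden := (HasUnitExp.prod P fun T _ => hc T).inv fun τ => by
    simpa [Finset.prod_apply, etaConst, hP] using etaConst_ne_zero N
  refine ⟨_, (hnum.mul hden).congr fun τ => ?_, fun hg => ?_⟩
  · simp [etaFun, etaUnit, etaConst, hP, div_eq_mul_inv]
  · have hN : ¬ N ∣ (g 1 0).natAbs := fun hd => hg (Gamma0_mem.mpr
      ((ZMod.intCast_zmod_eq_zero_iff_dvd _ _).mpr (Int.natCast_dvd.mpr hd)))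
    simp only [Finset.sum_const_zero, neg_zero, add_zero, mul_sub, Finset.sum_sub_distrib, hP]
    rw [Finset.sum_attach N.primeFactors.powerset (fun T => etaExp N T *
        (((N / etaLevel N T : ℕ) : ℤ) * (Nat.gcd (etaLevel N T) (g 1 0).natAbs : ℤ) ^ 2)),
      Finset.sum_attach N.primeFactors.powerset (fun T => etaExp N T * (N : ℤ)),
      ← Finset.sum_mul, sum_etaExp]
    rw [Finset.sum_congr rfl fun T hT => by
      rw [div_etaLevel N (Finset.mem_powerset.mp hT), ← mul_assoc], sum_gcd_sq_eq_zero N hN]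
    ring

/-- The expansion of the normalised unit at `∞`. -/
theorem hasQExp_etaFun :
    HasQExp 1 (etaFun N) (etaSeries N ℂ : LaurentSeries ℂ) := by
  have h1 : ∀ T : {T // T ∈ N.primeFactors.powerset}, HasQExp 1
      (fun τ => (ModularForm.discriminant (mulH (etaLevel N T) τ)
        / ModularForm.discriminant τ) ^ etaExp N T)
      ((ratioUnit ℂ (etaLevel N T) ^ etaExp N T : (LaurentSeries ℂ)ˣ) : LaurentSeries ℂ) := by
    intro T
    have hq := (Fermat.Agent.Modular.hasQExp_discriminant.comp_mulH (etaLevel N T)).div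
      Fermat.Agent.Modular.hasQExp_discriminant one_pos ModularForm.discriminant_ne_zero
    have := hasQExp_units_zpow (RingHom.id ℂ) (f := fun τ =>
      ModularForm.discriminant (mulH (etaLevel N T) τ) / ModularForm.discriminant τ)
      one_pos (fun τ => div_ne_zero
      (ModularForm.discriminant_ne_zero _) (ModularForm.discriminant_ne_zero _))
      (ratioUnit ℂ (etaLevel N T)) ?_ (etaExp N T)
    · simpa using this
    · have hq := hq.congr (g := fun τ => ModularForm.discriminant (mulH (etaLevel N T) τ)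
        / ModularForm.discriminant τ) fun τ => rfl
      simpa [ratioUnit, deltaSeries, Fermat.Agent.Modular.intSeriesC_apply,
        Units.val_div_eq_div_val] using hq
  have h2 := HasQExp.prod N.primeFactors.powerset.attach fun T _ => h1 T
  rw [etaSeries, Units.coe_prod]
  refine h2.congr fun τ => ?_
  simp only [Finset.prod_apply, etaFun, etaUnit, etaConst, ← Finset.prod_div_distrib, ← div_zpow]
  refine Finset.prod_congr rfl fun T _ => ?_
  congr 1
  have h0 : ((etaLevel N T : ℕ) : ℂ) ^ 12 ≠ 0 := pow_ne_zero _ (NeZero.ne _)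
  rw [discRatio, div_right_comm, mul_div_cancel_left₀ _ h0]

/-- On `Γ₀(N)` the expansion at period `N` is the dilate of the one at `∞`. -/
theorem hasQExp_etaFun_smul_of_mem {g : SL(2, ℤ)} (hg : g ∈ Gamma0 N) :
    HasQExp N (fun τ => etaFun N (g • τ))
      (coeffMap S.subtype (qExpand S N (etaSeries N S : LaurentSeries S))) := by
  rw [coeffMap_qExpand, coeffMap_etaSeries]
  have := (hasQExp_etaFun (N := N)).dilate_period one_ne_zero N
  rw [one_mul] at this
  exact this.congr fun τ => (etaFun_smul_of_mem N hg τ).symm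

/-- The expansion of `j (d g τ)`. -/
theorem exists_hasQExp_kleinJ_smul (hroots : ∀ z : ℂ, z ^ N = 1 → z ∈ S) (g : SL(2, ℤ))
    (d : ℕ) [NeZero d] (hd : d ∣ N) :
    ∃ (x : LaurentSeries S) (m : ℤ) (c : Sˣ),
      HasQExp N (fun τ => kleinJ (mulH d (g • τ))) (coeffMap S.subtype x) ∧
        HasLead x m (c : S) := by
  obtain ⟨a, d', b, g', ha, hd', hag, had, hpt, -⟩ := exists_decomposition g d
  have hNd : N / d ≠ 0 := (Nat.div_pos (Nat.le_of_dvd (NeZero.pos N) hd) (NeZero.pos d)).ne'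
  have he : d' * (N / d * a * a) = N * a := by
    calc d' * (N / d * a * a) = (a * d') * (N / d) * a := by ring
      _ = N * a := by rw [had, Nat.mul_div_cancel' hd]
  have : NeZero (N / d * a * a) :=
    ⟨mul_ne_zero (mul_ne_zero hNd (NeZero.ne _)) (NeZero.ne _)⟩
  have hroot := roots_of_dvd hroots ((Dvd.intro_left a had).trans hd)
  exact ⟨_, _, _, (hasQExp_jqModC_affineH_of (S := S) Fermat.Agent.Modular.hasQExp_kleinJ b he _
    (val_rootUnit S d' hroot b)).congr fun τ => by rw [hpt, kleinJ_smul],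
    hasLead_affineSeries_jqModC (N / d * a * a) (rootUnit S d' hroot b)⟩

end Cusps

end Fermat.Agent.Igusa
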