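import Fermat.Agent.Igusa.UnitPolyOfUnit
import Fermat.Agent.Igusa.EtaExpansions
import Fermat.Agent.Igusa.CoeffRingRoots

/-!
Existence of the modular unit data.
-/

set_option autoImplicit false

noncomputable section

open ModularCurve Finset

namespace Fermat.Agent.Igusa

theorem sum_etaExp_mul_etaLevel_pos (N : ℕ) [NeZero N] :
    0 < ∑ T ∈ N.primeFactors.powerset, etaExp N T * (etaLevel N T : ℤ) := by
  obtain ⟨k, hk⟩ := Nat.prod_primeFactors_dvd N
  have hk0 : 0 < k := Nat.pos_of_ne_zero fun h => NeZero.ne N (by rw [hk, h, mul_zero])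
  have hlev : ∀ T ∈ N.primeFactors.powerset, etaLevel N T = k * ∏ p ∈ N.primeFactors \ T, p := by
    intro T hT
    rw [Finset.mem_powerset] at hT
    refine Nat.div_eq_of_eq_mul_left (Finset.prod_pos fun p hp =>
      (Nat.prime_of_mem_primeFactors (hT hp)).pos) ?_
    conv_lhs => rw [hk, ← Finset.prod_sdiff hT]
    ring
  have h := Finset.prod_add (fun _ : ℕ => (-1 : ℤ)) (fun p : ℕ => ((p : ℤ)) ^ 2) N.primeFactors
  simp only [prod_const] at h
  rw [Finset.sum_congr rfl fun T hT => show etaExp N T * (etaLevel N T : ℤ) =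
    (k : ℤ) * ((-1) ^ T.card * ∏ p ∈ N.primeFactors \ T, (p : ℤ) ^ 2) by
      rw [hlev T hT, etaExp, Nat.cast_mul, Nat.cast_prod, Finset.prod_pow]
      ring]
  rw [← Finset.mul_sum, ← h]
  refine mul_pos (by exact_mod_cast hk0) (Finset.prod_pos fun p hp => ?_)
  have : (2 : ℤ) ≤ p := by exact_mod_cast (Nat.prime_of_mem_primeFactors hp).two_le
  nlinarith

theorem hasLead_ratioUnit (δ : ℕ) [NeZero δ] :
    HasLead (ratioUnit ℤ δ : LaurentSeries ℤ) ((δ : ℤ) - 1) ((1 : ℤˣ) : ℤ) := by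
  have h1 : HasLead (Units.map (qExpand ℤ δ).toMonoidHom (deltaUnitOne ℤ) : LaurentSeries ℤ)
      (δ : ℤ) 1 := by
    simpa using (hasLead_deltaSeries (R := ℤ)).qExpand δ
  have h2 : HasLead (deltaUnitOne ℤ : LaurentSeries ℤ) 1 ((1 : ℤˣ) : ℤ) := by
    simpa using hasLead_deltaSeries (R := ℤ)
  rw [ratioUnit, div_eq_mul_inv, Units.val_mul]
  exact h1.mul' h2.inv_unit (by ring) (by simp)

theorem exists_hasLead_etaSeries (N : ℕ) [NeZero N] :
    ∃ m : ℤ, -(etaWeight N : ℤ) < m ∧ HasLead (etaSeries N ℤ : LaurentSeries ℤ) m 1 := by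
  refine ⟨∑ T ∈ N.primeFactors.powerset.attach, etaExp N T * ((etaLevel N T : ℤ) - 1), ?_, ?_⟩
  · rw [Finset.sum_attach N.primeFactors.powerset
      (fun T => etaExp N T * ((etaLevel N T : ℤ) - 1))]
    simp only [mul_sub, mul_one, Finset.sum_sub_distrib, sum_etaExp]
    linarith [sum_etaExp_mul_etaLevel_pos N]
  · rw [etaSeries, Units.coe_prod]
    have h := HasLead.prod N.primeFactors.powerset.attach fun T _ =>
      (hasLead_ratioUnit (etaLevel N T)).zpow_unit (etaExp N T)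
    simpa using h

theorem nonempty_unitPolyData (N ℓ : ℕ) [NeZero N] [Fact ℓ.Prime] (hℓN : ¬ ℓ ∣ N) :
    Nonempty (UnitPolyData N ℓ) := by
  obtain ⟨m, hm, hlead⟩ := exists_hasLead_etaSeries N
  refine nonempty_unitPolyData_of_unit ℓ (etaWeight N) (etaWeight_pos N) (etaFun N)
    (etaFun_ne_zero N) (fun g hg τ => etaFun_smul_of_mem N hg τ) (etaSeries N ℤ : LaurentSeries ℤ)
    ?_ hm (c₀ := 1) (by simp) hlead ?_ fun g hg => ?_
  · rw [castSeries, coeffMap_etaSeries]
    exact hasQExp_etaFun (N := N)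
  · intro k _
    rw [castSeries, coeffMap_etaSeries]
    exact etaSeries_mem N _ fun d _ hd =>
      IntermediateField.subset_adjoin _ _ ⟨d, inferInstance, hd, rfl⟩
  · obtain ⟨m', ⟨x, c, hx, hl⟩, hm'⟩ := hasUnitExp_etaFun (N := N) (S := coeffSubring ℓ)
      (fun z hz => mem_coeffRing_of_pow_eq_one ℓ hz) (inv_natCast_mem_coeffRing ℓ hℓN) g
    exact ⟨x, c, c.isUnit, hx, hm' hg ▸ hl⟩

end Fermat.Agent.Igusa
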