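import Mathlib
import Fermat.Prelude.Def_GaloisRep_Flat

/-!
Basic facts on `ℤ_(ℓ) = GaloisRep.ratLocalizedAt ℓ`: it is a principal ideal domain with fraction
field `ℚ`, and `ℓ` is prime with residue field `ZMod ℓ`.
-/

set_option autoImplicit false

noncomputable section

namespace Fermat.Agent.Igusa

variable (ℓ : ℕ) [Fact ℓ.Prime]

set_option quotPrecheck false in
local notation "Zl" => ↥(GaloisRep.ratLocalizedAt ℓ)

theorem den_cast_ne_zero (q : Zl) : (((q : ℚ).den : ℕ) : ZMod ℓ) ≠ 0 := by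
  rw [ne_eq, ZMod.natCast_eq_zero_iff]
  exact fun h => (Fact.out : ℓ.Prime).not_dvd_one
    ((q.2 : (q : ℚ).den.Coprime ℓ) ▸ Nat.dvd_gcd h dvd_rfl)

/-- Reduction modulo `ℓ` on `ℤ_(ℓ)`. -/
def redMod : Zl →+* ZMod ℓ where
  toFun q := ((q : ℚ) : ZMod ℓ)
  map_one' := by simp
  map_mul' p q := by
    rw [Subring.coe_mul, Rat.cast_mul_of_ne_zero (den_cast_ne_zero ℓ p) (den_cast_ne_zero ℓ q)]
  map_zero' := by simp
  map_add' p q := by
    rw [Subring.coe_add, Rat.cast_add_of_ne_zero (den_cast_ne_zero ℓ p) (den_cast_ne_zero ℓ q)]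

theorem redMod_natCast_self : redMod ℓ (ℓ : Zl) = 0 := by simp

theorem redMod_eq_zero_iff (q : Zl) : redMod ℓ q = 0 ↔ (ℓ : Zl) ∣ q := by
  constructor
  · intro h
    change (((q : ℚ) : ZMod ℓ)) = 0 at h
    rw [Rat.cast_def, div_eq_zero_iff, or_iff_left (den_cast_ne_zero ℓ q),
      ZMod.intCast_zmod_eq_zero_iff_dvd] at h
    obtain ⟨m, hm⟩ := h
    have hmem : ((m : ℚ) / (q : ℚ).den) ∈ GaloisRep.ratLocalizedAt ℓ := by
      show (((m : ℚ) / (q : ℚ).den).den).Coprime ℓ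
      refine Nat.Coprime.coprime_dvd_left ?_ (q.2 : (q : ℚ).den.Coprime ℓ)
      have h := Rat.den_dvd m ((q : ℚ).den : ℤ)
      rw [Rat.divInt_eq_div, Int.cast_natCast] at h
      exact_mod_cast h
    refine ⟨⟨_, hmem⟩, Subtype.ext ?_⟩
    show (q : ℚ) = ((ℓ : Zl) : ℚ) * _
    conv_lhs => rw [← Rat.num_div_den (q : ℚ), hm]
    push_cast
    ring
  · rintro ⟨c, rfl⟩
    simp

omit [Fact ℓ.Prime] in
theorem isUnit_den (q : Zl) : IsUnit (((q : ℚ).den : Zl)) := by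
  have hmem : (((q : ℚ).den : ℚ))⁻¹ ∈ GaloisRep.ratLocalizedAt ℓ := by
    show ((((q : ℚ).den : ℚ))⁻¹).den.Coprime ℓ
    rw [Rat.inv_natCast_den, if_neg (q : ℚ).den_nz]
    exact q.2
  refine isUnit_iff_exists_inv.mpr ⟨⟨_, hmem⟩, Subtype.ext ?_⟩
  show ((((q : ℚ).den : Zl) : ℚ)) * (((q : ℚ).den : ℚ))⁻¹ = 1
  rw [Subring.coe_natCast]
  exact mul_inv_cancel₀ (Nat.cast_ne_zero.mpr (q : ℚ).den_nz)

instance isPrincipalIdealRing_ratLocalizedAt : IsPrincipalIdealRing Zl := by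
  refine ⟨fun I => ?_⟩
  obtain ⟨g, hg⟩ := (IsPrincipalIdealRing.principal (I.comap (Int.castRingHom Zl)))
  refine ⟨⟨(g : Zl), le_antisymm (fun q hq => ?_) ?_⟩⟩
  · rw [Ideal.submodule_span_eq, Ideal.mem_span_singleton]
    have hnum : q * ((q : ℚ).den : Zl) = ((q : ℚ).num : Zl) := Subtype.ext (by
      push_cast
      exact Rat.mul_den_eq_num (q : ℚ))
    have hmem : (q : ℚ).num ∈ I.comap (Int.castRingHom Zl) := by
      rw [Ideal.mem_comap, eq_intCast, ← hnum]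
      exact I.mul_mem_right _ hq
    rw [hg, Ideal.submodule_span_eq, Ideal.mem_span_singleton] at hmem
    have h := map_dvd (Int.castRingHom Zl) hmem
    rw [eq_intCast, eq_intCast, ← hnum] at h
    exact (isUnit_den ℓ q).dvd_mul_right.mp h
  · rw [Ideal.submodule_span_eq, Ideal.span_singleton_le_iff_mem]
    have : g ∈ I.comap (Int.castRingHom Zl) := by
      rw [hg]; exact Submodule.mem_span_singleton_self g
    simpa [Ideal.mem_comap] using this

instance isFractionRing_ratLocalizedAt : IsFractionRing Zl ℚ := by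
  refine (isLocalization_iff _ _).mpr ⟨?_, ?_, ?_⟩
  · rintro ⟨y, hy⟩
    exact isUnit_iff_ne_zero.mpr fun h =>
      nonZeroDivisors.ne_zero hy (Subtype.ext h)
  · intro z
    refine ⟨⟨(z.num : Zl), ⟨(z.den : Zl), mem_nonZeroDivisors_of_ne_zero
      (Nat.cast_ne_zero.mpr z.den_nz)⟩⟩, ?_⟩
    show z * (((z.den : Zl) : ℚ)) = (((z.num : Zl) : ℚ))
    push_cast
    exact Rat.mul_den_eq_num z
  · intro x y h
    exact ⟨1, by rw [Subtype.coe_injective h]⟩

theorem natCast_ne_zero_zl : (ℓ : Zl) ≠ 0 :=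
  Nat.cast_ne_zero.mpr (Fact.out : ℓ.Prime).ne_zero

theorem prime_natCast_zl : Prime (ℓ : Zl) := by
  refine ⟨natCast_ne_zero_zl ℓ, fun h => ?_, fun a b h => ?_⟩
  · have := (h.map (redMod ℓ)).ne_zero
    exact this (redMod_natCast_self ℓ)
  · simp only [← redMod_eq_zero_iff, map_mul, mul_eq_zero] at h ⊢
    exact h

end Fermat.Agent.Igusa
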