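import Fermat.Agent.Igusa.Base

/-!
The bundle of facts about the modular unit `u` of level `N` and its coset polynomial `P`
consumed by the algebraic part of the proof of S28.
-/

set_option autoImplicit false

noncomputable section

open ModularCurve Polynomial

namespace Fermat.Agent.Igusa

/-- The field generated over `k` by the quotients `Δ(q^d) / Δ(q)`, `d ∣ N`, inside `k((q))`
(`Δ = q ∏ (1 - q^n)^24`). -/
def discQuotientField (k : Type) [Field k] (N : ℕ) : IntermediateField k (LaurentSeries k) :=
  IntermediateField.adjoin k {x | ∃ (d : ℕ) (_ : NeZero d), d ∣ N ∧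
    x = qExpand k d (HahnSeries.single (1 : ℤ) 1 *
          HahnSeries.ofPowerSeries ℤ k (dedekindEtaUnit.map (Int.castRingHom k))) /
        (HahnSeries.single (1 : ℤ) 1 *
          HahnSeries.ofPowerSeries ℤ k (dedekindEtaUnit.map (Int.castRingHom k)))}

/-- The modular unit `u` (integral `q`-expansion at infinity) together with its monic polynomial
`P` over `A[j]`, `A = coeffRing ℓ`, of weighted degree `n * W` (weight one for `j`, `W` for `u`)
whose top form is `X * H` with `H(0)` a unit, and the interpolation identities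
`j_d * P'(u) = R_d(j, u)`. -/
structure UnitPolyData (N ℓ : ℕ) [NeZero N] : Type where
  u : LaurentSeries ℤ
  n : ℕ
  W : ℕ
  P : Polynomial (Polynomial (coeffRing ℓ))
  n_pos : 0 < n
  W_pos : 0 < W
  monic : P.Monic
  natDegree_eq : P.natDegree = n
  natDegree_coeff_le : ∀ i, (P.coeff i).natDegree ≤ (n - i) * W
  isUnit_coeff_zero : IsUnit (P.coeff 0)
  isUnit_coeff_one : 2 ≤ n → IsUnit ((P.coeff 1).coeff ((n - 1) * W))
  u_mem : ∀ (k : Type) [Field k], castSeries k u ∈ discQuotientField k N
  eval_eq_zero : evalJU (castSeries (coeffRing ℓ) u) P = 0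
  interpolation : ∀ (d : ℕ) [NeZero d], d ∣ N → ∃ R : Polynomial (Polynomial ℂ),
    qExpand ℂ d (jqModC ℂ) *
        evalJU (castSeries ℂ u)
          ((P.map (Polynomial.mapRingHom (algebraMap (coeffRing ℓ) ℂ))).derivative) =
      evalJU (castSeries ℂ u) R

end Fermat.Agent.Igusa
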