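import Mathlib.FieldTheory.Minpoly.IsIntegrallyClosed
import Mathlib.Algebra.Polynomial.Monic
import Mathlib.RingTheory.Polynomial.Basic

/-!
# Irreducibility by a weighted degree

Give the inner variable `j` weight `1` and the outer variable `x` weight `W`.  A monic polynomial
`P` of degree `n` in `x` whose coefficient of `x^i` has degree at most `(n - i) W` in `j`, whose
constant term is a nonzero constant and whose coefficient of `x` has the full degree `(n - 1) W`
is irreducible.  So a root of `P` in a domain in which `j` is transcendental satisfies no nonzero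
relation of degree `< n`.
-/

set_option autoImplicit false

noncomputable section

open Polynomial

namespace Fermat.Agent.Igusa

variable {k : Type*} [CommRing k]

/-- The substitution `j ↦ J`, `x ↦ x * J ^ W`; the top coefficient in `J` is the top form. -/
def weightSubst (W : ℕ) : k[X][X] →+* k[X][X] :=
  eval₂RingHom (mapRingHom (C : k →+* k[X])) (C X * X ^ W)

theorem coeff_weightSubst (W : ℕ) (P : k[X][X]) (D i : ℕ) :
    ((weightSubst W P).coeff D).coeff i =
      if i * W ≤ D then (P.coeff i).coeff (D - i * W) else 0 := by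
  induction P using Polynomial.induction_on' with
  | add p q hp hq =>
    rw [map_add, coeff_add, coeff_add, hp, hq]
    split_ifs <;> simp
  | monomial m a =>
    rw [weightSubst, coe_eval₂RingHom, eval₂_monomial, mul_pow, ← C_pow, ← pow_mul, ← mul_assoc,
      coeff_mul_X_pow']
    rw [coe_mapRingHom, coeff_monomial, mul_comm W m]
    by_cases him : m = i
    · subst him
      rw [if_pos rfl]
      split_ifs with h
      · rw [coeff_mul_C, coeff_map, coeff_C_mul_X_pow, if_pos rfl]
      · simp
    · rw [if_neg him, coeff_zero, ite_self]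
      split_ifs with h
      · rw [coeff_mul_C, coeff_map, coeff_C_mul_X_pow, if_neg (Ne.symm him)]
      · simp

variable [IsDomain k]

/-- Weighted-degree irreducibility criterion. -/
theorem irreducible_of_weightedDegree {P : k[X][X]} {W : ℕ} (hW : 0 < W) (hP : P.Monic)
    (hn : 0 < P.natDegree)
    (hdeg : ∀ i, i < P.natDegree → (P.coeff i).natDegree ≤ (P.natDegree - i) * W)
    (h0 : (P.coeff 0).natDegree = 0) (h0' : P.coeff 0 ≠ 0)
    (h1 : (P.coeff 1).coeff ((P.natDegree - 1) * W) ≠ 0) :
    Irreducible P := by
  set n := P.natDegree with hndef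
  have hP1 : P ≠ 1 := fun h => by simp [h] at hndef; omega
  rw [hP.irreducible_iff_natDegree]
  refine ⟨hP1, fun A B hA hB hAB => ?_⟩
  by_contra hcon
  rw [not_or] at hcon
  set a := A.natDegree with hadef
  set b := B.natDegree with hbdef
  have hab : a + b = n := by rw [hndef, ← hAB, hA.natDegree_mul hB]
  have ha : 0 < a := Nat.pos_of_ne_zero hcon.1
  have hb : 0 < b := Nat.pos_of_ne_zero hcon.2
  have hAB0 : A.coeff 0 * B.coeff 0 = P.coeff 0 := by rw [← mul_coeff_zero, hAB]
  have hA0 : A.coeff 0 ≠ 0 := fun h => h0' (by rw [← hAB0, h, zero_mul])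
  have hB0 : B.coeff 0 ≠ 0 := fun h => h0' (by rw [← hAB0, h, mul_zero])
  have hdeg0 : (A.coeff 0).natDegree = 0 ∧ (B.coeff 0).natDegree = 0 := by
    have h := natDegree_mul hA0 hB0
    rw [hAB0, h0] at h
    omega
  -- lower bounds for the weighted degrees of the factors
  have hlow : ∀ (Q : k[X][X]) (q : ℕ), Q.Monic → Q.natDegree = q →
      ((weightSubst W Q).coeff (q * W)).coeff q = 1 := by
    intro Q q hQ hq
    rw [coeff_weightSubst, if_pos le_rfl, Nat.sub_self, ← hq, hQ.coeff_natDegree, coeff_one_zero]
  have hlowA : a * W ≤ (weightSubst W A).natDegree :=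
    le_natDegree_of_ne_zero fun h => by simpa [h] using hlow A a hA hadef.symm
  have hlowB : b * W ≤ (weightSubst W B).natDegree :=
    le_natDegree_of_ne_zero fun h => by simpa [h] using hlow B b hB hbdef.symm
  -- upper bound for the weighted degree of `P`
  have hup : (weightSubst W P).natDegree ≤ n * W := by
    refine natDegree_le_iff_coeff_eq_zero.mpr fun D hD => ?_
    ext i
    rw [coeff_weightSubst, coeff_zero]
    split_ifs with h
    · rcases lt_trichotomy i n with hi | hi | hi
      · refine coeff_eq_zero_of_natDegree_lt (lt_of_le_of_lt (hdeg i hi) ?_)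
        rw [Nat.sub_mul]
        have := Nat.mul_le_mul_right W hi.le
        omega
      · subst hi
        rw [hP.coeff_natDegree, coeff_one, if_neg (by omega)]
      · rw [coeff_eq_zero_of_natDegree_lt (p := P) (n := i) (by omega), coeff_zero]
    · rfl
  have hmul : weightSubst W A * weightSubst W B = weightSubst W P := by rw [← map_mul, hAB]
  have hA' : weightSubst W A ≠ 0 := fun h => by simpa [h] using hlow A a hA hadef.symm
  have hB' : weightSubst W B ≠ 0 := fun h => by simpa [h] using hlow B b hB hbdef.symm
  have hsum := natDegree_mul hA' hB'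
  rw [hmul] at hsum
  have hnW : n * W = a * W + b * W := by rw [← hab, add_mul]
  have hdA : (weightSubst W A).natDegree = a * W := by omega
  have hdB : (weightSubst W B).natDegree = b * W := by omega
  -- top forms
  have htop : (weightSubst W P).coeff (n * W) =
      (weightSubst W A).coeff (a * W) * (weightSubst W B).coeff (b * W) := by
    rw [← hmul, hnW, ← hdA, ← hdB, coeff_mul_degree_add_degree]
    rfl
  have hzero : ∀ (Q : k[X][X]) (q : ℕ), 0 < q → (Q.coeff 0).natDegree = 0 →
      ((weightSubst W Q).coeff (q * W)).coeff 0 = 0 := by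
    intro Q q hq hQ
    rw [coeff_weightSubst, if_pos (by omega)]
    refine coeff_eq_zero_of_natDegree_lt ?_
    rw [hQ, zero_mul, Nat.sub_zero]
    exact Nat.mul_pos hq hW
  apply h1
  have h : ((weightSubst W P).coeff (n * W)).coeff 1 =
      ((weightSubst W A).coeff (a * W) * (weightSubst W B).coeff (b * W)).coeff 1 := by rw [htop]
  rw [mul_coeff_one, hzero A a ha hdeg0.1, hzero B b hb hdeg0.2, zero_mul, mul_zero, zero_add,
    coeff_weightSubst, if_pos (Nat.mul_le_mul_right W (by omega))] at h
  rw [Nat.sub_mul]
  exact h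

variable [IsIntegrallyClosed k[X]] {L : Type*} [CommRing L] [IsDomain L]

/-- A root of a weighted-degree irreducible polynomial satisfies no relation of lower degree. -/
theorem eq_zero_of_eval₂_of_weightedDegree {P : k[X][X]} {W : ℕ} (hW : 0 < W) (hP : P.Monic)
    (hn : 0 < P.natDegree)
    (hdeg : ∀ i, i < P.natDegree → (P.coeff i).natDegree ≤ (P.natDegree - i) * W)
    (h0 : (P.coeff 0).natDegree = 0) (h0' : P.coeff 0 ≠ 0)
    (h1 : (P.coeff 1).coeff ((P.natDegree - 1) * W) ≠ 0)
    {φ : k[X] →+* L} (hφ : Function.Injective φ) {u : L} (hu : P.eval₂ φ u = 0)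
    {Q : k[X][X]} (hQdeg : Q.natDegree < P.natDegree) (hQ : Q.eval₂ φ u = 0) : Q = 0 := by
  let _ : Algebra k[X] L := φ.toAlgebra
  have : Module.IsTorsionFree k[X] L := Module.IsTorsionFree.of_smul_eq_zero fun p x h => by
    rw [Algebra.smul_def] at h
    rcases mul_eq_zero.mp h with h | h
    · exact Or.inl (hφ (by rw [map_zero]; exact h))
    · exact Or.inr h
  have huint : IsIntegral k[X] u := ⟨P, hP, hu⟩
  have hdvdP : minpoly k[X] u ∣ P := minpoly.isIntegrallyClosed_dvd huint hu
  have hdvdQ : minpoly k[X] u ∣ Q := minpoly.isIntegrallyClosed_dvd huint hQ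
  obtain ⟨c, hc⟩ := hdvdP
  rcases (irreducible_of_weightedDegree hW hP hn hdeg h0 h0' h1).isUnit_or_isUnit hc with h | h
  · exact absurd h (minpoly.not_isUnit k[X] u)
  · refine eq_zero_of_dvd_of_natDegree_lt hdvdQ (lt_of_lt_of_eq hQdeg ?_)
    rw [hc, natDegree_mul (minpoly.ne_zero huint) h.ne_zero, natDegree_eq_zero_of_isUnit h,
      add_zero]

end Fermat.Agent.Igusa
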