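import Mathlib
import Fermat.Agent.Igusa.UnitPolyData
import Fermat.Agent.Igusa.WeightedDegree
import Fermat.Agent.Igusa.LocalRat

/-!
# Descent of `UnitPolyData` to `ℤ_(ℓ)`

The polynomial of the unit `u` has coefficients in `ℤ_(ℓ)[j]`, its reduction modulo `ℓ` shows that
`1, ū, …, ū^(n-1)` are independent over `𝔽_ℓ[j̄]`, and every element of the function field of level
`N` is a fraction-combination of `1, u, …, u^(n-1)`.
-/

set_option autoImplicit false
set_option linter.unusedSectionVars false

noncomputable section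

open ModularCurve Polynomial

namespace Fermat.Agent.Igusa

/-- The coefficient at the extreme exponent of a polynomial in `j`. -/
theorem coeff_eval₂_jqModC_neg_natDegree {R : Type*} [CommRing R] (p : R[X]) :
    (p.eval₂ HahnSeries.C (jqModC R)).coeff (-(p.natDegree : ℤ)) = p.leadingCoeff := by
  rw [eval₂_eq_sum_range, HahnSeries.coeff_sum, Finset.sum_eq_single p.natDegree]
  · rw [HahnSeries.C_apply, HahnSeries.coeff_single_zero_mul, coeff_jqModC_pow_self, mul_one]
    rfl
  · intro i hi him
    have : i < p.natDegree := by have := Finset.mem_range.mp hi; omega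
    rw [HahnSeries.C_apply, HahnSeries.coeff_single_zero_mul,
      coeff_jqModC_pow_of_lt R (by omega), mul_zero]
  · intro h; simp at h

/-- `j` is transcendental in Laurent series over any ring. -/
theorem eval₂_jqModC_injective (R : Type*) [CommRing R] :
    Function.Injective (eval₂RingHom (HahnSeries.C : R →+* LaurentSeries R) (jqModC R)) := by
  rw [injective_iff_map_eq_zero]
  intro p hp
  rw [coe_eval₂RingHom] at hp
  have h := coeff_eval₂_jqModC_neg_natDegree p
  rw [hp, HahnSeries.coeff_zero] at h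
  exact leadingCoeff_eq_zero.mp h.symm

theorem evalJU_monomial {R : Type*} [CommRing R] (u : LaurentSeries R) (i k : ℕ) (a : R) :
    evalJU u (monomial i (monomial k a)) = HahnSeries.C a * (jqModC R ^ k * u ^ i) := by
  simp only [evalJU, coe_eval₂RingHom, eval₂_monomial, mul_assoc]

/-- Coefficientwise application of a `ℚ`-linear functional. -/
def coeffFunctional (π : ℂ →ₗ[ℚ] ℚ) : LaurentSeries ℂ →+ LaurentSeries ℚ where
  toFun x := x.map π
  map_zero' := by ext k; simp
  map_add' x y := by ext k; simp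

theorem coeffFunctional_C_mul (π : ℂ →ₗ[ℚ] ℚ) (a : ℂ) (y : LaurentSeries ℚ) :
    coeffFunctional π (HahnSeries.C a * coeffEmb ℂ y) = HahnSeries.C (π a) * y := by
  ext k
  simp only [coeffFunctional, AddMonoidHom.coe_mk, ZeroHom.coe_mk, HahnSeries.map_coeff,
    HahnSeries.C_apply, HahnSeries.coeff_single_zero_mul, coeffEmb_coeff]
  rw [mul_comm a, ← Algebra.smul_def, map_smul, smul_eq_mul, mul_comm]

theorem coeffEmb_castSeries (u : LaurentSeries ℤ) :
    coeffEmb ℂ (castSeries ℚ u) = castSeries ℂ u :=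
  coeffMap_castSeries _ u

theorem coeffEmb_jqModC : coeffEmb ℂ (jqModC ℚ) = jqModC ℂ :=
  coeffMap_jqModC _

/-- Applying a functional to an evaluation at `(j, u)` gives an evaluation at `(j, u)`. -/
theorem exists_coeffFunctional_evalJU (π : ℂ →ₗ[ℚ] ℚ) (u : LaurentSeries ℤ) (A : ℂ[X][X]) :
    ∃ B : ℚ[X][X], (∀ i k, (B.coeff i).coeff k = π ((A.coeff i).coeff k)) ∧
      ∀ x : LaurentSeries ℚ, coeffFunctional π (coeffEmb ℂ x * evalJU (castSeries ℂ u) A) =
        x * evalJU (castSeries ℚ u) B := by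
  induction A using Polynomial.induction_on' with
  | add p q hp hq =>
    obtain ⟨B, hB, hBx⟩ := hp
    obtain ⟨B', hB', hBx'⟩ := hq
    refine ⟨B + B', fun i k => by simp [hB, hB'], fun x => ?_⟩
    simp only [map_add, mul_add, hBx, hBx']
  | monomial i c =>
    induction c using Polynomial.induction_on' with
    | add p q hp hq =>
      obtain ⟨B, hB, hBx⟩ := hp
      obtain ⟨B', hB', hBx'⟩ := hq
      refine ⟨B + B', fun i' k => ?_, fun x => ?_⟩
      · simp only [map_add, coeff_add, hB, hB']
      · simp only [map_add, mul_add, hBx, hBx']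
    | monomial k a =>
      refine ⟨monomial i (monomial k (π a)), fun i' k' => ?_, fun x => ?_⟩
      · by_cases h : i = i'
        · subst h
          by_cases h' : k = k'
          · subst h'; simp
          · simp [coeff_monomial_of_ne _ (Ne.symm h')]
        · simp [coeff_monomial_of_ne _ (Ne.symm h)]
      · rw [evalJU_monomial, evalJU_monomial, ← coeffEmb_castSeries, ← coeffEmb_jqModC, ← map_pow,
          ← map_pow, ← map_mul, mul_left_comm, ← map_mul, coeffFunctional_C_mul, mul_left_comm]

theorem exists_functional {z : ℂ} (hz : z ≠ 0) : ∃ π : ℂ →ₗ[ℚ] ℚ, π z = 1 := by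
  obtain ⟨g, hg⟩ := LinearMap.exists_leftInverse_of_injective (LinearMap.toSpanSingleton ℚ ℂ z)
    (LinearMap.ker_toSpanSingleton ℚ hz)
  exact ⟨g, by simpa using LinearMap.congr_fun hg 1⟩

namespace UnitPolyData

variable {N ℓ : ℕ} [NeZero N] (D : UnitPolyData N ℓ)

/-- The polynomial over `ℂ`. -/
abbrev polyC : ℂ[X][X] := D.P.map (mapRingHom (algebraMap (coeffRing ℓ) ℂ))

theorem polyC_monic : D.polyC.Monic := D.monic.map _

theorem natDegree_polyC : D.polyC.natDegree = D.n := by
  rw [polyC, D.monic.natDegree_map, D.natDegree_eq]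

theorem evalJU_polyC : evalJU (castSeries ℂ D.u) D.polyC = 0 := by
  have h := congrArg (coeffMap (algebraMap (coeffRing ℓ) ℂ)) D.eval_eq_zero
  rwa [coeffMap_evalJU, coeffMap_castSeries, map_zero] at h

/-- The coefficient of `x` has its extreme coefficient a unit, also for `n = 1`. -/
theorem isUnit_coeff_one' : IsUnit ((D.P.coeff 1).coeff ((D.n - 1) * D.W)) := by
  rcases Nat.lt_or_ge D.n 2 with h | h
  · have hn : D.n = 1 := by have := D.n_pos; omega
    rw [show D.P.coeff 1 = 1 by rw [← hn, ← D.natDegree_eq, D.monic.coeff_natDegree], hn]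
    simp
  · exact D.isUnit_coeff_one h

/-- Over any domain, a root of the reduced polynomial satisfies no relation of degree `< n`. -/
theorem eq_zero_of_evalJU_eq_zero {S k : Type*} [CommRing S] [CommRing k] [IsDomain k]
    [IsIntegrallyClosed k[X]] (f : S →+* k) {P : S[X][X]} (hmon : P.Monic)
    (hdeg : P.natDegree = D.n) (hcoeff : ∀ i, (P.coeff i).natDegree ≤ (D.n - i) * D.W)
    (h0 : IsUnit (P.coeff 0)) (h1 : IsUnit ((P.coeff 1).coeff ((D.n - 1) * D.W)))
    {u : LaurentSeries k} (hu : evalJU u (P.map (mapRingHom f)) = 0) {Q : k[X][X]}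
    (hQdeg : Q.natDegree < D.n) (hQ : evalJU u Q = 0) : Q = 0 := by
  have hd : (P.map (mapRingHom f)).natDegree = D.n := by rw [hmon.natDegree_map, hdeg]
  have h0' : IsUnit ((P.map (mapRingHom f)).coeff 0) := by
    rw [coeff_map]; exact h0.map _
  refine eq_zero_of_eval₂_of_weightedDegree D.W_pos (hmon.map _) (hd ▸ D.n_pos) (fun i _ => ?_)
    (natDegree_eq_zero_of_isUnit h0') h0'.ne_zero ?_ (eval₂_jqModC_injective k) hu
    (hd ▸ hQdeg) hQ
  · rw [hd, coeff_map, coe_mapRingHom]
    exact natDegree_map_le.trans (hcoeff i)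
  · rw [hd, coeff_map, coe_mapRingHom, coeff_map]
    exact (h1.map f).ne_zero

theorem eq_zero_of_evalJU_complex {Q : ℂ[X][X]} (hQdeg : Q.natDegree < D.n)
    (hQ : evalJU (castSeries ℂ D.u) Q = 0) : Q = 0 :=
  D.eq_zero_of_evalJU_eq_zero (algebraMap (coeffRing ℓ) ℂ) D.monic D.natDegree_eq
    D.natDegree_coeff_le D.isUnit_coeff_zero D.isUnit_coeff_one' D.evalJU_polyC hQdeg hQ

set_option quotPrecheck false in
local notation "Zl" => ↥(GaloisRep.ratLocalizedAt ℓ)

variable [Fact ℓ.Prime]

/-- The polynomial of `u` is rational, so has coefficients in `ℤ_(ℓ)`. -/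
theorem exists_rational : ∃ P0 : (Zl)[X][X],
    P0.map (mapRingHom (algebraMap Zl (coeffRing ℓ))) = D.P := by
  obtain ⟨π, hπ⟩ := exists_functional (one_ne_zero : (1 : ℂ) ≠ 0)
  obtain ⟨B, hB, hBx⟩ := exists_coeffFunctional_evalJU π D.u D.polyC
  have hB0 : evalJU (castSeries ℚ D.u) B = 0 := by
    have h := hBx 1
    rw [D.evalJU_polyC, map_one, one_mul, one_mul, map_zero] at h
    exact h.symm
  have hBC : B.map (mapRingHom (algebraMap ℚ ℂ)) = D.polyC := by
    set E := B.map (mapRingHom (algebraMap ℚ ℂ)) - D.polyC with hE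
    have hEc : ∀ i, D.n ≤ i → E.coeff i = 0 := by
      intro i hi
      ext k
      rw [hE, coeff_sub, coeff_sub, coeff_map, coe_mapRingHom, coeff_map, hB, coeff_zero]
      rcases hi.eq_or_lt with rfl | hlt
      · rw [← natDegree_polyC D, D.polyC_monic.coeff_natDegree, coeff_one]
        split_ifs <;> simp [hπ]
      · rw [coeff_eq_zero_of_natDegree_lt (p := D.polyC) (n := i) (by rwa [natDegree_polyC])]
        simp
    have hEdeg : E.natDegree < D.n := by
      rcases eq_or_ne E 0 with h | h
      · rw [h, natDegree_zero]; exact D.n_pos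
      · exact Nat.lt_of_not_le fun hle => leadingCoeff_ne_zero.mpr h (hEc _ hle)
    have hE0 : evalJU (castSeries ℂ D.u) E = 0 := by
      have h := congrArg (coeffEmb ℂ) hB0
      rw [coeffEmb, coeffMap_evalJU, coeffMap_castSeries, map_zero] at h
      rw [hE, map_sub, h, D.evalJU_polyC, sub_zero]
    exact sub_eq_zero.mp (D.eq_zero_of_evalJU_complex hEdeg hE0)
  have hlift : D.P ∈ lifts (mapRingHom (algebraMap Zl (coeffRing ℓ))) := by
    refine (lifts_iff_coeff_lifts _).mpr fun i => ?_
    have hi : D.P.coeff i ∈ lifts (algebraMap Zl (coeffRing ℓ)) := by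
      refine (lifts_iff_coeff_lifts _).mpr fun k => ?_
      set c := (D.P.coeff i).coeff k with hc
      have hq : algebraMap ℚ ℂ ((B.coeff i).coeff k) = (c : ℂ) := by
        have h := congrArg (fun A : ℂ[X][X] => (A.coeff i).coeff k) hBC
        simp only [polyC, coeff_map, coe_mapRingHom] at h
        rw [hc]
        exact h
      have hint : IsIntegral Zl ((B.coeff i).coeff k) := by
        have h : IsIntegral Zl (algebraMap ℚ ℂ ((B.coeff i).coeff k)) := by rw [hq]; exact c.2
        exact (isIntegral_algebraMap_iff (algebraMap ℚ ℂ).injective).mp h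
      obtain ⟨z, hz⟩ := IsIntegrallyClosed.isIntegral_iff.mp hint
      refine ⟨z, Subtype.ext ?_⟩
      rw [← hq, ← hz]
      exact IsScalarTower.algebraMap_apply Zl ℚ ℂ z
    exact (mem_lifts _).mp hi
  exact (mem_lifts _).mp hlift

/-- The polynomial of `u` over `ℤ_(ℓ)`. -/
def poly : (Zl)[X][X] := D.exists_rational.choose

theorem map_poly : D.poly.map (mapRingHom (algebraMap Zl (coeffRing ℓ))) = D.P :=
  D.exists_rational.choose_spec

theorem algebraMap_coeffRing_injective :
    Function.Injective (algebraMap Zl (coeffRing ℓ)) := by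
  intro a b h
  have h' : algebraMap Zl ℂ a = algebraMap Zl ℂ b := congrArg Subtype.val h
  exact (IsFractionRing.injective Zl ℚ) ((algebraMap ℚ ℂ).injective
    (by rwa [← IsScalarTower.algebraMap_apply, ← IsScalarTower.algebraMap_apply]))

theorem mapRingHom_coeffRing_injective :
    Function.Injective (mapRingHom (algebraMap Zl (coeffRing ℓ))) :=
  map_injective _ algebraMap_coeffRing_injective

theorem poly_monic : D.poly.Monic :=
  monic_of_injective mapRingHom_coeffRing_injective (D.map_poly ▸ D.monic)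

theorem natDegree_poly : D.poly.natDegree = D.n := by
  rw [← D.natDegree_eq, ← D.map_poly,
    natDegree_map_eq_of_injective mapRingHom_coeffRing_injective]

theorem natDegree_coeff_poly_le (i : ℕ) : (D.poly.coeff i).natDegree ≤ (D.n - i) * D.W := by
  have h := D.natDegree_coeff_le i
  rwa [← D.map_poly, coeff_map, coe_mapRingHom,
    natDegree_map_eq_of_injective algebraMap_coeffRing_injective] at h

theorem isUnit_of_isUnit_algebraMap {a : Zl} (h : IsUnit (algebraMap Zl (coeffRing ℓ) a)) :
    IsUnit a := by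
  have hint : (algebraMap Zl (coeffRing ℓ)).IsIntegral := fun z =>
    integralClosure.isIntegral z
  have : IsLocalHom (algebraMap Zl (coeffRing ℓ)) :=
    hint.isLocalHom algebraMap_coeffRing_injective
  exact isUnit_of_map_unit _ a h

theorem isUnit_coeff_zero_poly : IsUnit (D.poly.coeff 0) := by
  have h := D.isUnit_coeff_zero
  rw [← D.map_poly, coeff_map, coe_mapRingHom] at h
  obtain ⟨r, hr, hC⟩ := Polynomial.isUnit_iff.mp h
  have hdeg : (D.poly.coeff 0).natDegree = 0 := by
    rw [← natDegree_map_eq_of_injective algebraMap_coeffRing_injective, ← hC, natDegree_C]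
  rw [eq_C_of_natDegree_eq_zero hdeg] at hC ⊢
  rw [map_C] at hC
  exact isUnit_C.mpr (isUnit_of_isUnit_algebraMap (C_injective hC ▸ hr))

theorem isUnit_coeff_one_poly : IsUnit ((D.poly.coeff 1).coeff ((D.n - 1) * D.W)) := by
  have h := D.isUnit_coeff_one'
  rw [← D.map_poly, coeff_map, coe_mapRingHom, coeff_map] at h
  exact isUnit_of_isUnit_algebraMap h

theorem evalJU_poly : evalJU (castSeries Zl D.u) D.poly = 0 := by
  apply coeffMap_injective algebraMap_coeffRing_injective
  rw [coeffMap_evalJU, coeffMap_castSeries, map_zero, D.map_poly, D.eval_eq_zero]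

/-- Independence of the powers of `ū` modulo `ℓ`. -/
theorem eq_zero_of_evalJU_zmod {Q : (ZMod ℓ)[X][X]} (hQdeg : Q.natDegree < D.n)
    (hQ : evalJU (castSeries (ZMod ℓ) D.u) Q = 0) : Q = 0 := by
  refine D.eq_zero_of_evalJU_eq_zero (redMod ℓ) D.poly_monic D.natDegree_poly
    D.natDegree_coeff_poly_le D.isUnit_coeff_zero_poly D.isUnit_coeff_one_poly ?_ hQdeg hQ
  have h := congrArg (coeffMap (redMod ℓ)) D.evalJU_poly
  rwa [coeffMap_evalJU, coeffMap_castSeries, map_zero] at h

/-- The predicate "is a combination of powers of `u` with denominator in `ℤ_(ℓ)[j]`". -/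
def IsSpanned (x : LaurentSeries ℚ) : Prop :=
  ∃ (d : (Zl)[X]) (Q : (Zl)[X][X]), d ≠ 0 ∧
    coeffMap (algebraMap Zl ℚ) (evalJU (castSeries Zl D.u) (C d)) * x =
      coeffMap (algebraMap Zl ℚ) (evalJU (castSeries Zl D.u) Q)

theorem IsSpanned.add {x y : LaurentSeries ℚ} (hx : D.IsSpanned x) (hy : D.IsSpanned y) :
    D.IsSpanned (x + y) := by
  obtain ⟨d, Q, hd, h⟩ := hx
  obtain ⟨e, R, he, h'⟩ := hy
  refine ⟨d * e, C e * Q + C d * R, mul_ne_zero hd he, ?_⟩
  rw [C_mul, map_mul, map_mul, map_add, map_add, map_mul, map_mul, map_mul, map_mul, ← h, ← h']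
  ring

theorem exists_intPoly_of_mem_closure {y : LaurentSeries ℚ}
    (hy : y ∈ Subring.closure {jqModC ℚ}) :
    ∃ p : ℤ[X], y = p.eval₂ (Int.castRingHom _) (jqModC ℚ) := by
  induction hy using Subring.closure_induction with
  | mem z hz => exact ⟨X, by rw [eval₂_X]; exact hz⟩
  | zero => exact ⟨0, by simp⟩
  | one => exact ⟨1, by simp⟩
  | add z w _ _ hz hw =>
    obtain ⟨p, rfl⟩ := hz; obtain ⟨q, rfl⟩ := hw
    exact ⟨p + q, by rw [eval₂_add]⟩
  | neg z _ hz =>
    obtain ⟨p, rfl⟩ := hz
    exact ⟨-p, by rw [eval₂_neg]⟩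
  | mul z w _ _ hz hw =>
    obtain ⟨p, rfl⟩ := hz; obtain ⟨q, rfl⟩ := hw
    exact ⟨p * q, by rw [eval₂_mul]⟩

theorem coeffMap_evalJU_C_intPoly (p : ℤ[X]) :
    coeffMap (algebraMap Zl ℚ) (evalJU (castSeries Zl D.u) (C (p.map (Int.castRingHom Zl)))) =
      p.eval₂ (Int.castRingHom _) (jqModC ℚ) := by
  rw [evalJU_C, eval₂_map, hom_eval₂, coeffMap_jqModC]
  congr 1
  exact RingHom.ext_int _ _

theorem mul_pow_isSpanned {p q : ℤ[X]} (hq : q.eval₂ (Int.castRingHom _) (jqModC ℚ) ≠ 0)
    (i : ℕ) : D.IsSpanned (p.eval₂ (Int.castRingHom _) (jqModC ℚ) /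
      q.eval₂ (Int.castRingHom _) (jqModC ℚ) * castSeries ℚ D.u ^ i) := by
  refine ⟨q.map (Int.castRingHom Zl), C (p.map (Int.castRingHom Zl)) * X ^ i, fun h => hq ?_, ?_⟩
  · rw [← D.coeffMap_evalJU_C_intPoly q, h, map_zero, map_zero, map_zero]
  · rw [map_mul, map_mul, map_pow, evalJU_X, map_pow, coeffMap_castSeries,
      D.coeffMap_evalJU_C_intPoly, D.coeffMap_evalJU_C_intPoly, ← mul_assoc,
      mul_div_cancel₀ _ hq]

theorem evalJU_mem (L : Subfield (LaurentSeries ℚ)) {u : LaurentSeries ℚ} (hu : u ∈ L)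
    (hj : jqModC ℚ ∈ L) (hC : ∀ a : ℚ, HahnSeries.C a ∈ L) (B : ℚ[X][X]) : evalJU u B ∈ L := by
  induction B using Polynomial.induction_on' with
  | add p q hp hq => rw [map_add]; exact add_mem hp hq
  | monomial i c =>
    induction c using Polynomial.induction_on' with
    | add p q hp hq => rw [map_add, map_add]; exact add_mem hp hq
    | monomial k a =>
      rw [evalJU_monomial]; exact mul_mem (hC a) (mul_mem (pow_mem hj k) (pow_mem hu i))

/-- Every element of the function field of level `N` is spanned by the powers of `u`. -/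
theorem isSpanned_of_mem {x : LaurentSeries ℚ} (hx : x ∈ modularFunctionFieldFull N) :
    D.IsSpanned x := by
  let K1 : Subfield (LaurentSeries ℚ) := Subfield.closure {jqModC ℚ}
  have hjK : jqModC ℚ ∈ K1 := Subfield.subset_closure rfl
  have hCK : ∀ a : ℚ, HahnSeries.C a ∈ K1 := fun a => by
    rw [eq_ratCast (HahnSeries.C : ℚ →+* LaurentSeries ℚ) a]
    exact SubfieldClass.ratCast_mem K1 a
  set u := castSeries ℚ D.u with hudef
  have huint : IsIntegral ↥K1 u := by
    let ψ : ℚ[X] →+* ↥K1 := Polynomial.eval₂RingHom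
      (RingHom.codRestrict (HahnSeries.C : ℚ →+* LaurentSeries ℚ) K1 hCK) ⟨jqModC ℚ, hjK⟩
    have hψ : ∀ p : ℚ[X], (ψ p : LaurentSeries ℚ) = p.eval₂ HahnSeries.C (jqModC ℚ) := fun p =>
      hom_eval₂ p _ K1.subtype _
    refine ⟨(D.poly.map (mapRingHom (algebraMap Zl ℚ))).map ψ, (D.poly_monic.map _).map _, ?_⟩
    have h := congrArg (coeffMap (algebraMap Zl ℚ)) D.evalJU_poly
    rw [coeffMap_evalJU, coeffMap_castSeries, map_zero] at h
    rw [eval₂_map]
    rw [← h, evalJU, coe_eval₂RingHom]
    congr 1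
    exact RingHom.ext hψ
  let L : IntermediateField ↥K1 (LaurentSeries ℚ) := IntermediateField.adjoin ↥K1 {u}
  have hC : ∀ a : ℚ, HahnSeries.C a ∈ L.toSubfield := fun a => L.algebraMap_mem ⟨_, hCK a⟩
  have hj : jqModC ℚ ∈ L.toSubfield := L.algebraMap_mem ⟨jqModC ℚ, hjK⟩
  have hu : u ∈ L.toSubfield := IntermediateField.mem_adjoin_simple_self ↥K1 u
  have hgen : ∀ y ∈ divisorExpansions N, y ∈ L.toSubfield := by
    rintro y ⟨d, hne, hd, rfl⟩
    obtain ⟨R, hR⟩ := D.interpolation d hd
    set A : ℂ[X][X] := derivative D.polyC with hA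
    have hA0 : evalJU (castSeries ℂ D.u) A ≠ 0 := by
      intro h0
      have hAdeg : A.natDegree < D.n := by
        have := natDegree_derivative_le D.polyC
        rw [natDegree_polyC] at this
        have := D.n_pos
        rw [hA]; omega
      have hc := congrArg (fun p : ℂ[X][X] => p.coeff (D.n - 1))
        (D.eq_zero_of_evalJU_complex hAdeg h0)
      simp only [hA, coeff_derivative, coeff_zero] at hc
      rw [Nat.sub_add_cancel D.n_pos, ← natDegree_polyC D, D.polyC_monic.coeff_natDegree,
        one_mul] at hc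
      exact Nat.cast_add_one_ne_zero _ hc
    obtain ⟨k, hk⟩ : ∃ k, (evalJU (castSeries ℂ D.u) A).coeff k ≠ 0 := by
      by_contra hcon
      exact hA0 (HahnSeries.ext (funext fun k => by_contra fun h => hcon ⟨k, h⟩))
    obtain ⟨π, hπ⟩ := exists_functional hk
    obtain ⟨A', -, hA'⟩ := exists_coeffFunctional_evalJU π D.u A
    obtain ⟨R', -, hR'⟩ := exists_coeffFunctional_evalJU π D.u R
    have hA'0 : evalJU u A' ≠ 0 := by
      intro h
      have h1 := hA' 1
      rw [map_one, one_mul, one_mul, ← hudef, h] at h1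
      have h2 := congrArg (fun z : LaurentSeries ℚ => z.coeff k) h1
      simp [coeffFunctional, hπ] at h2
    have hy : qExpand ℚ d jq * evalJU u A' = evalJU u R' := by
      rw [hudef, ← hA', ← one_mul (evalJU (castSeries ℚ D.u) R'), ← hR', map_one, one_mul, ← hR]
      congr 2
      rw [coeffEmb, coeffMap_qExpand]
      exact congrArg (qExpand ℂ d) (coeffMap_jqModC _).symm.symm
    have hmem : evalJU u R' / evalJU u A' ∈ L.toSubfield :=
      div_mem (evalJU_mem _ hu hj hC R') (evalJU_mem _ hu hj hC A')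
    rwa [← hy, mul_div_cancel_right₀ _ hA'0] at hmem
  have hxL : x ∈ L.toSubfield := by
    induction hx using IntermediateField.adjoin_induction with
    | mem z hz => exact hgen z hz
    | algebraMap a =>
      rw [eq_ratCast (algebraMap ℚ (LaurentSeries ℚ)) a]
      exact SubfieldClass.ratCast_mem _ a
    | add z w _ _ hz hw => exact add_mem hz hw
    | inv z _ hz => exact inv_mem hz
    | mul z w _ _ hz hw => exact mul_mem hz hw
  have hxalg : x ∈ Algebra.adjoin ↥K1 {u} := by
    rw [← IntermediateField.adjoin_simple_toSubalgebra_of_isAlgebraic huint.isAlgebraic]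
    exact hxL
  rw [Algebra.adjoin_singleton_eq_range_aeval] at hxalg
  obtain ⟨f, rfl⟩ := hxalg
  clear hx hxL
  induction f using Polynomial.induction_on' with
  | add p q hp hq =>
    simp only [map_add]
    exact IsSpanned.add D hp hq
  | monomial i c =>
    obtain ⟨y, hy, z, hz, hyz⟩ := Subfield.mem_closure_iff.mp c.2
    obtain ⟨p, rfl⟩ := exists_intPoly_of_mem_closure hy
    obtain ⟨q, rfl⟩ := exists_intPoly_of_mem_closure hz
    show D.IsSpanned (aeval u (monomial i c))
    rw [aeval_monomial]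
    change D.IsSpanned ((c : LaurentSeries ℚ) * u ^ i)
    rcases eq_or_ne (q.eval₂ (Int.castRingHom _) (jqModC ℚ)) 0 with hq | hq
    · exact ⟨1, 0, one_ne_zero, by simp [← hyz, hq]⟩
    · rw [← hyz]
      exact D.mul_pow_isSpanned hq i

end UnitPolyData

end Fermat.Agent.Igusa
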