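import Mathlib.NumberTheory.ModularForms.Discriminant
import Fermat.Agent.Modular.QExp
import Mathlib.NumberTheory.ModularForms.CongruenceSubgroups
import Mathlib.Algebra.BigOperators.Ring.Finset
import Mathlib.Data.Nat.PrimeFin

/-!
# A modular unit on `Γ₀(N)` with a single zero

For `S ⊆ primes(N)` put `δ_S = N / ∏ S` and `r_S = (-1)^|S| ∏_{p ∉ S} p`. The unit
`u = ∏_S (δ_S^12 Δ(δ_S τ) / Δ(τ)) ^ r_S` is `Γ₀(N)`-invariant, and at every cusp
other than `∞` its order is `-W`, where `W = ∏_{p ∣ N} (p - 1)`.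
-/

set_option autoImplicit false

noncomputable section

open scoped MatrixGroups
open UpperHalfPlane Finset
open Fermat.Agent.Modular (affineH coe_affineH mulH coe_mulH)

namespace Fermat.Agent.Igusa

variable (N : ℕ)

/-- The dilation index `N / ∏ S`. -/
def etaLevel (S : Finset ℕ) : ℕ := N / ∏ p ∈ S, p

/-- The exponent attached to `S`. -/
def etaExp (S : Finset ℕ) : ℤ := (-1) ^ S.card * ∏ p ∈ N.primeFactors \ S, (p : ℤ)

/-- The pole order of the unit at the cusps different from `∞`. -/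
def etaWeight : ℕ := ∏ p ∈ N.primeFactors, (p - 1)

theorem etaWeight_pos : 0 < etaWeight N :=
  Finset.prod_pos fun _ hp => Nat.sub_pos_of_lt (Nat.prime_of_mem_primeFactors hp).one_lt

theorem sum_etaExp : ∑ S ∈ N.primeFactors.powerset, etaExp N S = (etaWeight N : ℤ) := by
  have h := Finset.prod_add (fun _ : ℕ => (-1 : ℤ)) (fun p : ℕ => (p : ℤ)) N.primeFactors
  simp only [prod_const] at h
  rw [etaWeight, Nat.cast_prod]
  refine h.symm.trans (Finset.prod_congr rfl fun p hp => ?_)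
  rw [Nat.cast_sub (Nat.prime_of_mem_primeFactors hp).one_le, Nat.cast_one]
  ring

theorem prod_dvd_of_subset {S : Finset ℕ} (hS : S ⊆ N.primeFactors) : ∏ p ∈ S, p ∣ N :=
  (Finset.prod_dvd_prod_of_subset _ _ _ hS).trans (Nat.prod_primeFactors_dvd N)

theorem etaLevel_dvd {S : Finset ℕ} (hS : S ⊆ N.primeFactors) : etaLevel N S ∣ N :=
  Nat.div_dvd_of_dvd (prod_dvd_of_subset N hS)

theorem etaLevel_pos [NeZero N] {S : Finset ℕ} (hS : S ⊆ N.primeFactors) : 0 < etaLevel N S :=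
  Nat.pos_of_dvd_of_pos (etaLevel_dvd N hS) (NeZero.pos N)

theorem div_etaLevel [NeZero N] {S : Finset ℕ} (hS : S ⊆ N.primeFactors) :
    N / etaLevel N S = ∏ p ∈ S, p :=
  Nat.div_div_self (prod_dvd_of_subset N hS) (NeZero.ne N)

/-- If `N ∤ c`, the contributions of the `S` cancel in pairs. -/
theorem sum_gcd_sq_eq_zero [NeZero N] {c : ℕ} (hc : ¬ N ∣ c) :
    ∑ S ∈ N.primeFactors.powerset, etaExp N S * ((∏ p ∈ S, p : ℕ) : ℤ)
      * ((Nat.gcd (etaLevel N S) c : ℕ) : ℤ) ^ 2 = 0 := by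
  set G := Nat.gcd N c with hG
  have hG1 : N / G ≠ 1 := fun h => hc (by
    have : G = N := by
      have := Nat.div_mul_cancel (Nat.gcd_dvd_left N c : G ∣ N)
      rwa [h, one_mul] at this
    exact this ▸ Nat.gcd_dvd_right N c)
  obtain ⟨p, hp, hpd⟩ := Nat.exists_prime_and_dvd hG1
  have hpGN : G * p ∣ N := by
    conv_rhs => rw [← Nat.mul_div_cancel' (Nat.gcd_dvd_left N c : G ∣ N)]
    exact mul_dvd_mul_left G hpd
  have hpN : p ∈ N.primeFactors :=
    Nat.mem_primeFactors.mpr ⟨hp, (dvd_mul_left p G).trans hpGN, NeZero.ne N⟩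
  conv_lhs => rw [← Finset.insert_erase hpN]
  rw [Finset.sum_powerset_insert (Finset.notMem_erase _ _), ← Finset.sum_add_distrib]
  refine Finset.sum_eq_zero fun T hT => ?_
  rw [Finset.mem_powerset] at hT
  have hTs : T ⊆ N.primeFactors := hT.trans (Finset.erase_subset _ _)
  have hpT : p ∉ T := fun h => Finset.notMem_erase p _ (hT h)
  have hTins : insert p T ⊆ N.primeFactors := Finset.insert_subset hpN hTs
  have hgcd : Nat.gcd (etaLevel N T) c = Nat.gcd (etaLevel N (insert p T)) c := by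
    apply Nat.dvd_antisymm
    · refine Nat.dvd_gcd ?_ (Nat.gcd_dvd_right _ _)
      set g := Nat.gcd (etaLevel N T) c
      have hgG : g ∣ G :=
        Nat.dvd_gcd ((Nat.gcd_dvd_left _ _).trans (etaLevel_dvd N hTs)) (Nat.gcd_dvd_right _ _)
      obtain ⟨k, hk⟩ : g ∣ N := hgG.trans (Nat.gcd_dvd_left N c)
      have hg0 : g ≠ 0 := fun h => NeZero.ne N (by rw [hk, h, zero_mul])
      have hpk : p ∣ k := Nat.dvd_of_mul_dvd_mul_left (Nat.pos_of_ne_zero hg0)
        (hk ▸ (mul_dvd_mul_right hgG p).trans hpGN)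
      have hmk : (∏ q ∈ T, q) ∣ k := Nat.dvd_of_mul_dvd_mul_left (Nat.pos_of_ne_zero hg0) (by
        rw [← hk, ← Nat.mul_div_cancel' (prod_dvd_of_subset N hTs), mul_comm g]
        exact mul_dvd_mul_left _ (Nat.gcd_dvd_left _ _))
      have hcop : Nat.Coprime p (∏ q ∈ T, q) := Nat.Coprime.prod_right fun q hq =>
        (Nat.coprime_primes hp (Nat.prime_of_mem_primeFactors (hTs hq))).mpr
          (fun h => hpT (h ▸ hq))
      rw [etaLevel, Nat.dvd_div_iff_mul_dvd (prod_dvd_of_subset N hTins), Finset.prod_insert hpT,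
        hk, mul_comm g k]
      exact mul_dvd_mul_right (hcop.mul_dvd_of_dvd_of_dvd hpk hmk) g
    · refine Nat.gcd_dvd_gcd_of_dvd_left c ?_
      rw [etaLevel, etaLevel, Finset.prod_insert hpT, mul_comm, ← Nat.div_div_eq_div_mul]
      refine Nat.div_dvd_of_dvd ?_
      rw [Nat.dvd_div_iff_mul_dvd (prod_dvd_of_subset N hTs), mul_comm]
      have := prod_dvd_of_subset N hTins
      rwa [Finset.prod_insert hpT] at this
  rw [← hgcd]
  have hsd : N.primeFactors \ T = insert p (N.primeFactors \ insert p T) := by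
    ext q
    simp only [Finset.mem_sdiff, Finset.mem_insert]
    by_cases hq : q = p <;> simp_all
  rw [etaExp, etaExp, hsd, Finset.prod_insert (by simp), Finset.card_insert_of_notMem hpT,
    Finset.prod_insert hpT, pow_succ]
  push_cast
  ring

/-! ### Transport of `Δ(δ τ)` along `SL(2, ℤ)` -/

/-- `δ (g τ) = g' ((a τ + b) / d)` with `a = gcd(δ, g₁₀)` and `a d = δ`. -/
theorem exists_decomposition (g : SL(2, ℤ)) (δ : ℕ) [NeZero δ] :
    ∃ (a d : ℕ) (b : ℤ) (g' : SL(2, ℤ)) (_ : NeZero a) (_ : NeZero d),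
      a = Nat.gcd δ (g 1 0).natAbs ∧ a * d = δ ∧
      (∀ τ : ℍ, mulH δ (g • τ) = g' • affineH a b d τ) ∧
      (∀ τ : ℍ, denom (Matrix.SpecialLinearGroup.mapGL ℝ g') (affineH a b d τ) * d
        = denom (Matrix.SpecialLinearGroup.mapGL ℝ g) τ) := by
  set x := g 0 0
  set y := g 0 1
  set c := g 1 0 with hc
  set w := g 1 1
  have hdet : x * w - y * c = 1 := by
    have := g.det_coe
    rwa [Matrix.det_fin_two] at this
  have hδ : 0 < δ := NeZero.pos δ
  set a := Nat.gcd δ c.natAbs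
  have ha : 0 < a := Nat.gcd_pos_of_pos_left _ hδ
  obtain ⟨d, hd'⟩ : a ∣ δ := Nat.gcd_dvd_left _ _
  obtain ⟨c', hc'⟩ : (a : ℤ) ∣ c := Int.natCast_dvd.mpr (Nat.gcd_dvd_right _ _)
  have hd : 0 < d := Nat.pos_of_mul_pos_left (hd' ▸ hδ)
  have hcop : IsCoprime c' (d : ℤ) := by
    rw [Int.isCoprime_iff_gcd_eq_one, Int.gcd, Int.natAbs_natCast]
    refine Nat.eq_of_mul_eq_mul_left ha ?_
    rw [← Nat.gcd_mul_left, ← hd', Nat.gcd_comm, mul_one]
    show Nat.gcd δ (a * c'.natAbs) = a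
    have : c.natAbs = a * c'.natAbs := by rw [hc', Int.natAbs_mul, Int.natAbs_natCast]
    rw [← this]
  obtain ⟨u, v, huv⟩ := hcop
  set b : ℤ := w * u
  set e : ℤ := w * v
  have hwe : c' * b + e * d = w := by linear_combination w * huv
  let g' : SL(2, ℤ) := ⟨!![(d : ℤ) * x, (a : ℤ) * y - x * b; c', e], by
    rw [Matrix.det_fin_two_of]
    linear_combination x * hwe + hdet - y * hc'.symm⟩
  have hden : ∀ τ : ℍ, ((c' : ℂ) * (((a : ℂ) * τ + b) / d) + e) * d = c * τ + w := fun τ => by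
    have hd0 : (d : ℂ) ≠ 0 := by exact_mod_cast hd.ne'
    have h1 : (c : ℂ) = a * c' := by exact_mod_cast hc'
    have h2 : (c' : ℂ) * b + e * d = w := by exact_mod_cast hwe
    field_simp
    linear_combination h2 - (τ : ℂ) * h1
  refine ⟨a, d, b, g', ⟨ha.ne'⟩, ⟨hd.ne'⟩, rfl, hd'.symm, fun τ => ?_, fun τ => ?_⟩
  · ext1
    rw [coe_mulH, coe_specialLinearGroup_apply, coe_specialLinearGroup_apply]
    simp only [algebraMap_int_eq, eq_intCast, Complex.ofReal_intCast, coe_affineH, g',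
      Matrix.cons_val_zero, Matrix.cons_val_one, Matrix.cons_val', Matrix.of_apply]
    have hd0 : (d : ℂ) ≠ 0 := by exact_mod_cast hd.ne'
    have hδ' : (δ : ℂ) = a * d := by exact_mod_cast hd'
    have hg0 : (c : ℂ) * τ + w ≠ 0 := by
      have := denom_ne_zero (Matrix.SpecialLinearGroup.mapGL ℝ g) τ
      simpa [denom] using this
    have hden0 : (c' : ℂ) * (((a : ℂ) * τ + b) / d) + e ≠ 0 := fun h =>
      hg0 (by rw [← hden τ, h, zero_mul])
    rw [mul_div_assoc', div_eq_div_iff hg0 hden0, ← hden τ, hδ']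
    push_cast
    field_simp
    ring
  · simp only [denom, coe_affineH]
    have h1 := hden τ
    convert! h1 using 1

/-- The function `δ¹² Δ(δ τ) / Δ(τ)`. -/
def discRatio (δ : ℕ) [NeZero δ] (τ : ℍ) : ℂ :=
  (δ : ℂ) ^ 12 * ModularForm.discriminant (mulH δ τ) / ModularForm.discriminant τ

theorem discriminant_smul (g : SL(2, ℤ)) (τ : ℍ) :
    ModularForm.discriminant (g • τ)
      = denom (Matrix.SpecialLinearGroup.mapGL ℝ g) τ ^ 12 * ModularForm.discriminant τ := by
  have h := SlashInvariantForm.slash_action_eqn''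
    (CuspForm.discriminant) (Γ := 𝒮ℒ) (k := 12) ⟨g, rfl⟩ τ
  rw [CuspForm.coe_discriminant] at h
  exact_mod_cast h

theorem discRatio_smul_eq (g : SL(2, ℤ)) (δ : ℕ) [NeZero δ] :
    ∃ (a d : ℕ) (b : ℤ) (_ : NeZero a) (_ : NeZero d),
      a = Nat.gcd δ (g 1 0).natAbs ∧ a * d = δ ∧
      ∀ τ : ℍ, discRatio δ (g • τ) = (a : ℂ) ^ 12 *
        ModularForm.discriminant (affineH a b d τ) / ModularForm.discriminant τ := by
  obtain ⟨a, d, b, g', ha, hd, hag, had, hpt, hden⟩ := exists_decomposition g δ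
  refine ⟨a, d, b, ha, hd, hag, had, fun τ => ?_⟩
  rw [discRatio, hpt, discriminant_smul, discriminant_smul, ← hden τ]
  have hd0 : (d : ℂ) ≠ 0 := NeZero.ne _
  have hδ' : (δ : ℂ) = a * d := by exact_mod_cast had.symm
  have h0 := denom_ne_zero (Matrix.SpecialLinearGroup.mapGL ℝ g') (affineH a b d τ)
  have h1 := ModularForm.discriminant_ne_zero τ
  rw [hδ']
  field_simp

theorem discRatio_smul_of_dvd (g : SL(2, ℤ)) (δ : ℕ) [NeZero δ] (hg : (δ : ℤ) ∣ g 1 0)
    (τ : ℍ) : discRatio δ (g • τ) = discRatio δ τ := by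
  obtain ⟨a, d, b, ha, hd, hag, had, h⟩ := discRatio_smul_eq g δ
  have haδ : a = δ := by
    rw [hag]
    exact Nat.gcd_eq_left (Int.natCast_dvd.mp hg)
  subst haδ
  obtain rfl : d = 1 := Nat.eq_of_mul_eq_mul_left (NeZero.pos a) (by rw [mul_one]; exact had)
  set k : SL(2, ℤ) := ModularGroup.T ^ b with hk
  have hk0 : k 1 0 = 0 := by rw [hk]; simp [ModularGroup.coe_T_zpow]
  have hk1 : k 1 1 = 1 := by rw [hk]; simp [ModularGroup.coe_T_zpow]
  have hk00 : k 0 0 = 1 := by rw [hk]; simp [ModularGroup.coe_T_zpow]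
  have hk01 : k 0 1 = b := by rw [hk]; simp [ModularGroup.coe_T_zpow]
  have hpt : affineH a b 1 τ = k • mulH a τ := by
    ext1
    rw [coe_affineH, coe_specialLinearGroup_apply, hk0, hk1, hk00, hk01]
    simp
  have hT : ModularForm.discriminant (k • mulH a τ)
      = ModularForm.discriminant (mulH a τ) := by
    rw [discriminant_smul]
    simp [denom, hk0, hk1]
  rw [h τ, discRatio, hpt, hT]

instance [NeZero N] (S : {S // S ∈ N.primeFactors.powerset}) : NeZero (etaLevel N S) :=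
  ⟨(etaLevel_pos N (Finset.mem_powerset.mp S.2)).ne'⟩

/-- The modular unit. -/
def etaUnit [NeZero N] (τ : ℍ) : ℂ :=
  ∏ S ∈ N.primeFactors.powerset.attach, discRatio (etaLevel N S) τ ^ etaExp N S

theorem etaUnit_ne_zero [NeZero N] (τ : ℍ) : etaUnit N τ ≠ 0 := by
  refine Finset.prod_ne_zero_iff.mpr fun S _ => zpow_ne_zero _ ?_
  exact div_ne_zero (mul_ne_zero (pow_ne_zero _ (NeZero.ne _))
    (ModularForm.discriminant_ne_zero _)) (ModularForm.discriminant_ne_zero _)

theorem etaUnit_smul_of_mem [NeZero N] {g : SL(2, ℤ)} (hg : g ∈ CongruenceSubgroup.Gamma0 N)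
    (τ : ℍ) : etaUnit N (g • τ) = etaUnit N τ := by
  refine Finset.prod_congr rfl fun S _ => ?_
  rw [discRatio_smul_of_dvd g _ ?_]
  refine (Int.natCast_dvd_natCast.mpr (etaLevel_dvd N (Finset.mem_powerset.mp S.2))).trans ?_
  rw [← ZMod.intCast_zmod_eq_zero_iff_dvd]
  exact CongruenceSubgroup.Gamma0_mem.mp hg

end Fermat.Agent.Igusa
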