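import Mathlib
import Fermat.Prelude.Def_ModularCurve_IgusaScheme
import Fermat.Prelude.Def_ModularCurve_X0ModL

/-!
Basic definitions for the proof of Igusa's theorem (S28): evaluation of bivariate polynomials at
`(j, u)` in Laurent series, and the ring of coefficients.
-/

set_option autoImplicit false

noncomputable section

open ModularCurve Polynomial

namespace Fermat.Agent.Igusa

/-- Evaluation of a bivariate polynomial (inner variable at `j`, outer one at `u`). -/
def evalJU {R : Type*} [CommRing R] (u : LaurentSeries R) : R[X][X] →+* LaurentSeries R :=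
  Polynomial.eval₂RingHom (Polynomial.eval₂RingHom HahnSeries.C (jqModC R)) u

@[simp] theorem evalJU_X {R : Type*} [CommRing R] (u : LaurentSeries R) :
    evalJU u Polynomial.X = u := by
  simp [evalJU]

@[simp] theorem evalJU_C {R : Type*} [CommRing R] (u : LaurentSeries R) (p : R[X]) :
    evalJU u (Polynomial.C p) = p.eval₂ HahnSeries.C (jqModC R) := by
  simp [evalJU]

theorem evalJU_C_X {R : Type*} [CommRing R] (u : LaurentSeries R) :
    evalJU u (Polynomial.C Polynomial.X) = jqModC R := by
  simp

theorem evalJU_C_C {R : Type*} [CommRing R] (u : LaurentSeries R) (r : R) :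
    evalJU u (Polynomial.C (Polynomial.C r)) = HahnSeries.C r := by
  simp

theorem coeffMap_C {R S : Type*} [CommRing R] [CommRing S] (f : R →+* S) (r : R) :
    coeffMap f (HahnSeries.C r) = HahnSeries.C (f r) :=
  coeffMap_single f 0 r

theorem coeffMap_injective {R S : Type*} [CommRing R] [CommRing S] {f : R →+* S}
    (hf : Function.Injective f) : Function.Injective (coeffMap f) := fun x y h => by
  ext k
  exact hf (by simpa using congrArg (fun z : LaurentSeries S => z.coeff k) h)

/-- Naturality of `evalJU` in the coefficient ring. -/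
theorem coeffMap_evalJU {R S : Type*} [CommRing R] [CommRing S] (f : R →+* S)
    (u : LaurentSeries R) (P : R[X][X]) :
    coeffMap f (evalJU u P) = evalJU (coeffMap f u) (P.map (Polynomial.mapRingHom f)) := by
  have h : (coeffMap f).comp (evalJU u) =
      (evalJU (coeffMap f u)).comp (Polynomial.mapRingHom (Polynomial.mapRingHom f)) := by
    refine Polynomial.ringHom_ext' (Polynomial.ringHom_ext' (RingHom.ext fun r => ?_) ?_) ?_
    · simp
    · simp [coeffMap_jqModC]
    · simp
  exact DFunLike.congr_fun h P

/-- An integral Laurent series read in any ring. -/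
abbrev castSeries (R : Type*) [CommRing R] (u : LaurentSeries ℤ) : LaurentSeries R :=
  coeffMap (Int.castRingHom R) u

theorem coeffMap_castSeries {R S : Type*} [CommRing R] [CommRing S] (f : R →+* S)
    (u : LaurentSeries ℤ) : coeffMap f (castSeries R u) = castSeries S u := by
  rw [coeffMap_coeffMap]
  exact coeffMap_congr (RingHom.ext_int _ _) u

/-- The complex numbers that are integral over `ℤ_(ℓ)`. -/
abbrev coeffRing (ℓ : ℕ) : Subalgebra ↥(GaloisRep.ratLocalizedAt ℓ) ℂ :=
  integralClosure ↥(GaloisRep.ratLocalizedAt ℓ) ℂ

theorem mem_coeffRing_iff {ℓ : ℕ} {z : ℂ} :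
    z ∈ coeffRing ℓ ↔ IsIntegral ↥(GaloisRep.ratLocalizedAt ℓ) z :=
  Iff.rfl

end Fermat.Agent.Igusa
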