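import Mathlib.NumberTheory.ModularForms.LevelOne.DimensionFormula
import Fermat.Prelude.Def_ModularCurve_JqCoeff
import Fermat.Prelude.Def_ModularCurve_LaurentCoeff
import Fermat.Prelude.Thm_ModularCurve_coeff_jqModC_pow_self
import Fermat.Prelude.Thm_ModularCurve_coeff_jqModC_pow_of_lt
import Fermat.Prelude.Thm_ModularCurve_coeffMap_qExpand
import Fermat.Agent.Igusa.Base
import Fermat.Agent.Modular.QExp

/-!
# The level-one principle with coefficients

An `SL₂(ℤ)`-invariant function given on `ℍ` by a Laurent series in `exp(2πiτ/N)` with coefficients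
in a subring `S ⊆ ℂ` is a polynomial in `j` with coefficients in `S`, of degree at most the pole
order divided by `N`. The function `j` is abstracted: any invariant `J` with expansion `jqModC ℂ`.
-/

set_option autoImplicit false

noncomputable section

open scoped Manifold MatrixGroups ModularForm
open UpperHalfPlane Polynomial

namespace Fermat.Agent.Igusa

open Fermat.Agent.Modular

/-- Invariance of a function under `SL₂(ℤ)`. -/
def IsSLInvariant (f : ℍ → ℂ) : Prop := ∀ (γ : SL(2, ℤ)) (τ : ℍ), f (γ • τ) = f τ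

theorem eq_zero_of_isSLInvariant {f : ℍ → ℂ} {x : LaurentSeries ℂ} {h : ℝ} (hh : 0 < h)
    (hinv : IsSLInvariant f) (hf : HasQExp h f x) (hx : ∀ n ≤ 0, x.coeff n = 0) : f = 0 := by
  let F : ModularForm 𝒮ℒ (0 : ℤ) :=
    { toFun := f
      slash_action_eq' := fun _ ⟨γ, hγ⟩ => by
        subst hγ
        change f ∣[(0 : ℤ)] γ = f
        refine _root_.funext fun τ => ?_
        rw [ModularForm.SL_slash_apply, hinv γ τ]; simp
      holo' := hf.mdifferentiable hh
      bdd_at_cusps' := fun {c} hc => by
        rw [Subgroup.IsArithmetic.isCusp_iff_isCusp_SL2Z] at hc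
        rw [OnePoint.isBoundedAt_iff_forall_SL2Z hc]
        intro γ _
        have : f ∣[(0 : ℤ)] γ = f := _root_.funext fun τ => by
          rw [ModularForm.SL_slash_apply, hinv γ τ]; simp
        rw [this]
        exact hf.isBoundedAtImInfty hh fun n hn => hx n hn.le }
  obtain ⟨c, hc⟩ := ModularFormClass.levelOne_weight_zero_const F
  have hfc : f = fun _ => c := hc
  have hxC : x = HahnSeries.C c := hf.unique (hfc ▸ HasQExp.const h c) hh
  have h0 := hx 0 le_rfl
  rw [hxC, HahnSeries.C_apply, HahnSeries.coeff_single_same] at h0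
  rw [hfc, h0]
  rfl

/-- For a function invariant under `τ ↦ τ + 1` only exponents divisible by the period occur. -/
theorem coeff_eq_zero_of_periodic {N : ℕ} [NeZero N] {f : ℍ → ℂ} {x : LaurentSeries ℂ}
    (hinv : IsSLInvariant f) (hf : HasQExp (N : ℝ) f x) {k : ℤ} (hk : ¬ (N : ℤ) ∣ k) :
    x.coeff k = 0 := by
  have hN : (0 : ℝ) < N := by exact_mod_cast Nat.pos_of_ne_zero (NeZero.ne N)
  set c : ℂˣ := Units.mk0 (Function.Periodic.qParam (N : ℝ) 1)
    (Function.Periodic.qParam_ne_zero _) with hc
  have h1 := hf.comp_of_qParam_eq (h' := (N : ℝ)) (fun τ => ModularGroup.T • τ) 1 c fun τ => by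
    rw [modular_T_smul, coe_vadd, hc, Units.val_mk0, pow_one, Function.Periodic.qParam,
      Function.Periodic.qParam, Function.Periodic.qParam, ← Complex.exp_add]
    congr 1
    push_cast
    ring
  have h2 : ModularCurve.qExpand ℂ 1 (twistSeries c x) = x :=
    (h1.congr fun τ => hinv _ τ).unique hf hN
  rw [ModularCurve.qExpand_one_apply] at h2
  have h3 := congrArg (fun y : LaurentSeries ℂ => y.coeff k) h2
  simp only [twistSeries_coeff, Units.val_zpow_eq_zpow_val] at h3
  by_contra hne
  have h4 : (c : ℂ) ^ k = 1 := mul_right_cancel₀ hne (h3.trans (one_mul _).symm)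
  rw [hc, Units.val_mk0, Function.Periodic.qParam, ← Complex.exp_int_mul,
    Complex.exp_eq_one_iff] at h4
  obtain ⟨n, hn⟩ := h4
  have hN' : (N : ℂ) ≠ 0 := Nat.cast_ne_zero.2 (NeZero.ne N)
  push_cast at hn
  field_simp at hn
  have hk' : k = N * n := by exact_mod_cast (show (k : ℂ) = (N : ℂ) * n by linear_combination hn)
  exact hk ⟨n, hk'⟩

/-- `p ↦ p(j)` as a series in `exp(2πiτ/N)`. -/
def evalJ (R : Type*) [CommRing R] (N : ℕ) [NeZero N] : R[X] →+* LaurentSeries R :=
  Polynomial.eval₂RingHom HahnSeries.C (ModularCurve.qExpand R N (ModularCurve.jqModC R))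

@[simp]
theorem evalJ_C (R : Type*) [CommRing R] (N : ℕ) [NeZero N] (r : R) :
    evalJ R N (C r) = HahnSeries.C r := by simp [evalJ]

@[simp]
theorem evalJ_X (R : Type*) [CommRing R] (N : ℕ) [NeZero N] :
    evalJ R N X = ModularCurve.qExpand R N (ModularCurve.jqModC R) := by simp [evalJ]

theorem coeffMap_evalJ {R R' : Type*} [CommRing R] [CommRing R'] (g : R →+* R') (N : ℕ) [NeZero N]
    (p : R[X]) : ModularCurve.coeffMap g (evalJ R N p) = evalJ R' N (p.map g) := by
  induction p using Polynomial.induction_on' with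
  | add p q hp hq => simp [hp, hq]
  | monomial n r =>
    rw [← C_mul_X_pow_eq_monomial, Polynomial.map_mul, Polynomial.map_pow, map_C, map_X]
    simp only [map_mul, map_pow, evalJ_C, evalJ_X, coeffMap_C, ModularCurve.coeffMap_qExpand,
      ModularCurve.coeffMap_jqModC]

theorem coeff_evalJ_pow_of_lt (R : Type*) [CommRing R] (N : ℕ) [NeZero N] {b : ℕ} {k : ℤ}
    (hk : k < -((N : ℤ) * b)) :
    (ModularCurve.qExpand R N (ModularCurve.jqModC R) ^ b).coeff k = 0 := by
  rw [← map_pow]
  by_cases hd : (N : ℤ) ∣ k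
  · obtain ⟨m, rfl⟩ := hd
    rw [ModularCurve.qExpand_coeff_mul]
    refine ModularCurve.coeff_jqModC_pow_of_lt R ?_
    have hN : (0 : ℤ) < N := by exact_mod_cast Nat.pos_of_ne_zero (NeZero.ne N)
    nlinarith
  · exact ModularCurve.qExpand_coeff_of_not_dvd N _ hd

theorem coeff_evalJ_pow_self (R : Type*) [CommRing R] (N : ℕ) [NeZero N] (b : ℕ) :
    (ModularCurve.qExpand R N (ModularCurve.jqModC R) ^ b).coeff (-((N : ℤ) * b)) = 1 := by
  rw [← map_pow, ← mul_neg, ModularCurve.qExpand_coeff_mul, ModularCurve.coeff_jqModC_pow_self]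

theorem hasQExp_evalJ {J : ℍ → ℂ} (hJ : HasQExp 1 J (ModularCurve.jqModC ℂ)) (N : ℕ) [NeZero N]
    (p : ℂ[X]) : HasQExp (N : ℝ) (fun τ => p.eval (J τ)) (evalJ ℂ N p) := by
  induction p using Polynomial.induction_on' with
  | add p q hp hq => simpa [eval_add, Pi.add_def] using hp.add hq
  | monomial n r =>
    have h := ((hJ.dilate_period one_ne_zero N).pow n).const_mul r
    rw [one_mul] at h
    rw [← C_mul_X_pow_eq_monomial, map_mul, map_pow, evalJ_C, evalJ_X]
    exact h.congr fun τ => by simp

variable {J : ℍ → ℂ}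

/-- Level one principle: invariant functions with coefficients in `S` and pole order at most `N m`
are polynomials in `j` over `S` of degree at most `m`. -/
theorem exists_poly_of_isSLInvariant (hJinv : IsSLInvariant J)
    (hJ : HasQExp 1 J (ModularCurve.jqModC ℂ)) (S : Subring ℂ) (N : ℕ) [NeZero N] (m : ℕ) :
    ∀ (f : ℍ → ℂ) (x : LaurentSeries S), IsSLInvariant f →
      HasQExp (N : ℝ) f (ModularCurve.coeffMap S.subtype x) →
      (∀ k < -((N : ℤ) * m), x.coeff k = 0) →
      ∃ p : S[X], p.natDegree ≤ m ∧ p.coeff m = x.coeff (-((N : ℤ) * m)) ∧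
        (∀ τ, f τ = (p.map S.subtype).eval (J τ)) ∧ evalJ S N p = x := by
  have hN : (0 : ℝ) < N := by exact_mod_cast Nat.pos_of_ne_zero (NeZero.ne N)
  have hNZ : (0 : ℤ) < N := by exact_mod_cast Nat.pos_of_ne_zero (NeZero.ne N)
  induction m with
  | zero =>
    intro f x hinv hf hx
    refine ⟨C (x.coeff 0), by simp, by simp, ?_, ?_⟩ <;>
    have hg : f - (fun _ => (x.coeff 0 : ℂ)) = 0 := by
      refine eq_zero_of_isSLInvariant hN (fun γ τ => ?_) (hf.sub (HasQExp.const _ _)) fun n hn => ?_
      · simp only [Pi.sub_apply, hinv γ τ]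
      · rw [HahnSeries.coeff_sub, ModularCurve.coeffMap_coeff, HahnSeries.C_apply]
        rcases hn.lt_or_eq with hn | rfl
        · rw [hx n (by simpa using hn), HahnSeries.coeff_single_of_ne hn.ne]
          simp
        · simp
    · intro τ
      simpa using sub_eq_zero.mp (congrFun hg τ)
    · apply coeffMap_injective (f := S.subtype) Subtype.val_injective
      rw [evalJ_C, coeffMap_C]
      exact ((sub_eq_zero.mp hg) ▸ HasQExp.const (N : ℝ) _).unique hf hN
  | succ m ih =>
    intro f x hinv hf hx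
    set c := x.coeff (-((N : ℤ) * (m + 1 : ℕ))) with hc
    set x' := x - HahnSeries.C c * ModularCurve.qExpand S N (ModularCurve.jqModC S) ^ (m + 1)
      with hx'
    let f' : ℍ → ℂ := fun τ => f τ - (c : ℂ) * J τ ^ (m + 1)
    have hinv' : IsSLInvariant f' := fun γ τ => by simp only [f', hinv γ τ, hJinv γ τ]
    have hf' : HasQExp (N : ℝ) f' (ModularCurve.coeffMap S.subtype x') := by
      have h := ((hJ.dilate_period one_ne_zero N).pow (m + 1)).const_mul (c : ℂ)
      rw [one_mul] at h
      simp only [hx', map_sub, map_mul, map_pow, coeffMap_C, ModularCurve.coeffMap_qExpand,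
        ModularCurve.coeffMap_jqModC]
      exact hf.sub h
    have hx0 : ∀ k < -((N : ℤ) * m), x'.coeff k = 0 := by
      intro k hk
      rcases lt_trichotomy k (-((N : ℤ) * (m + 1 : ℕ))) with h | h | h
      · rw [hx', HahnSeries.coeff_sub, hx k h, HahnSeries.C_apply, HahnSeries.coeff_single_mul,
          sub_zero, coeff_evalJ_pow_of_lt _ _ h, mul_zero, sub_zero]
      · rw [hx', HahnSeries.coeff_sub, h, ← hc, HahnSeries.C_apply, HahnSeries.coeff_single_mul,
          sub_zero, coeff_evalJ_pow_self, mul_one, sub_self]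
      · have hd : ¬ (N : ℤ) ∣ k := by
          rintro ⟨n, rfl⟩
          push_cast at h
          have h1 : -(n : ℤ) < m + 1 := by nlinarith
          have h2 : (m : ℤ) < -n := by nlinarith
          omega
        exact Subtype.ext (by simpa using coeff_eq_zero_of_periodic hinv' hf' hd)
    obtain ⟨p, hpdeg, -, hpf, hpx⟩ := ih f' x' hinv' hf' hx0
    refine ⟨p + C c * X ^ (m + 1), ?_, ?_, ?_, ?_⟩
    · exact (natDegree_add_le _ _).trans (max_le (hpdeg.trans (Nat.le_succ m))
        ((natDegree_C_mul_X_pow_le c (m + 1))))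
    · rw [coeff_add, coeff_eq_zero_of_natDegree_lt (Nat.lt_succ_of_le hpdeg), coeff_C_mul,
        coeff_X_pow, if_pos rfl, zero_add, mul_one]
    · intro τ
      simp only [Polynomial.map_add, Polynomial.map_mul, map_C, Polynomial.map_pow, map_X,
        eval_add, eval_mul, eval_C, eval_pow, eval_X, ← hpf τ, f', Subring.coe_subtype]
      ring
    · rw [map_add, hpx, map_mul, evalJ_C, map_pow, evalJ_X, hx', sub_add_cancel]

end Fermat.Agent.Igusa
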