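import Fermat.Agent.Igusa.Base
import Fermat.Agent.Igusa.LevelOne

/-!
# Polynomials attached to finite families of functions permuted by `SL₂(ℤ)`

For a finite family `f i` with expansions `x i` over `S ⊆ ℂ` permuted by `SL₂(ℤ)`, the polynomial
`∏ (X - f i)` and the interpolation polynomial `∑ g i ∏_{k ≠ i} (X - f k)` have coefficients in
`S[j]`, with degree bounds from the orders of the expansions.
-/

set_option autoImplicit false

noncomputable section

open scoped MatrixGroups
open UpperHalfPlane Polynomial Finset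

namespace Fermat.Agent.Igusa

open Fermat.Agent.Modular

section Order

variable {R : Type*} [CommRing R]

/-- All coefficients below `m` vanish. -/
def CoeffBound (x : LaurentSeries R) (m : ℤ) : Prop := ∀ k < m, x.coeff k = 0

theorem CoeffBound.mono {x : LaurentSeries R} {m m' : ℤ} (h : CoeffBound x m) (hle : m' ≤ m) :
    CoeffBound x m' := fun k hk => h k (lt_of_lt_of_le hk hle)

theorem coeffBound_zero (m : ℤ) : CoeffBound (0 : LaurentSeries R) m := fun _ _ => by simp

theorem coeffBound_one {m : ℤ} (hm : m ≤ 0) : CoeffBound (1 : LaurentSeries R) m := fun k hk => by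
  rw [HahnSeries.coeff_one, if_neg]
  omega

theorem CoeffBound.sub {x y : LaurentSeries R} {m : ℤ} (hx : CoeffBound x m)
    (hy : CoeffBound y m) : CoeffBound (x - y) m := fun k hk => by
  rw [HahnSeries.coeff_sub, hx k hk, hy k hk, sub_zero]

theorem CoeffBound.neg {x : LaurentSeries R} {m : ℤ} (hx : CoeffBound x m) :
    CoeffBound (-x) m := fun k hk => by rw [HahnSeries.coeff_neg, hx k hk, neg_zero]

theorem CoeffBound.mul {x y : LaurentSeries R} {m n : ℤ} (hx : CoeffBound x m)
    (hy : CoeffBound y n) :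
    CoeffBound (x * y) (m + n) ∧ (x * y).coeff (m + n) = x.coeff m * y.coeff n := by
  constructor
  · intro k hk
    rw [HahnSeries.coeff_mul]
    refine Finset.sum_eq_zero fun ij hij => ?_
    obtain ⟨-, -, hs⟩ := Finset.mem_antidiagonal.1 hij
    rcases lt_or_ge ij.1 m with h | h
    · rw [hx _ h, zero_mul]
    · rw [hy _ (by omega), mul_zero]
  · rw [HahnSeries.coeff_mul]
    refine Finset.sum_eq_single (m, n) (fun ij hij hne => ?_) fun hnot => ?_
    · obtain ⟨-, -, hs⟩ := Finset.mem_antidiagonal.1 hij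
      rcases lt_trichotomy ij.1 m with h | h | h
      · rw [hx _ h, zero_mul]
      · exact absurd (Prod.ext h (show ij.2 = n by omega)) hne
      · rw [hy _ (by omega), mul_zero]
    · by_contra hne
      exact hnot (Finset.mem_antidiagonal.2
        ⟨left_ne_zero_of_mul hne, right_ne_zero_of_mul hne, rfl⟩)

variable {ι : Type*}

theorem coeffBound_prod {s : Finset ι} {x : ι → LaurentSeries R} {m : ℤ}
    (hx : ∀ i ∈ s, CoeffBound (x i) m) :
    CoeffBound (∏ i ∈ s, x i) (s.card * m) ∧
      (∏ i ∈ s, x i).coeff (s.card * m) = ∏ i ∈ s, (x i).coeff m := by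
  classical
  induction s using Finset.induction with
  | empty => simpa using coeffBound_one (R := R) le_rfl
  | insert a s ha ih =>
    obtain ⟨h1, h2⟩ := ih fun i hi => hx i (Finset.mem_insert_of_mem hi)
    have h := (hx a (Finset.mem_insert_self a s)).mul h1
    rw [Finset.prod_insert ha, Finset.prod_insert ha, Finset.card_insert_of_notMem ha,
      show ((s.card + 1 : ℕ) : ℤ) * m = m + s.card * m by push_cast; ring, h.2, h2]
    exact ⟨h.1, rfl⟩

theorem coeffBound_coeff_prod_X_sub_C {s : Finset ι} {x : ι → LaurentSeries R} {M : ℕ}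
    (hx : ∀ i ∈ s, CoeffBound (x i) (-(M : ℤ))) (i : ℕ) :
    CoeffBound ((∏ j ∈ s, (X - C (x j))).coeff i) (-(((s.card - i) * M : ℕ) : ℤ)) := by
  classical
  induction s using Finset.induction generalizing i with
  | empty =>
    rw [Finset.prod_empty, Polynomial.coeff_one]
    split_ifs with h
    · exact coeffBound_one (by omega)
    · exact coeffBound_zero _
  | insert a s ha ih =>
    have hs := fun k => ih (fun j hj => hx j (Finset.mem_insert_of_mem hj)) k
    have hxa := hx a (Finset.mem_insert_self a s)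
    rw [Finset.prod_insert ha, Finset.card_insert_of_notMem ha, sub_mul]
    cases i with
    | zero =>
      rw [coeff_sub, coeff_C_mul, coeff_X_mul_zero, zero_sub]
      refine ((hxa.mul (hs 0)).1.mono ?_).neg
      push_cast [Nat.sub_zero]
      linarith
    | succ i =>
      rw [coeff_sub, coeff_C_mul, coeff_X_mul, Nat.add_sub_add_right]
      refine CoeffBound.sub (hs i) ?_
      rcases Nat.lt_or_ge i s.card with h | h
      · refine (hxa.mul (hs (i + 1))).1.mono ?_
        obtain ⟨t, ht⟩ := Nat.exists_eq_add_of_lt h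
        rw [ht, show i + t + 1 - i = t + 1 by omega, show i + t + 1 - (i + 1) = t by omega]
        push_cast
        linarith
      · have hz : (∏ j ∈ s, (X - C (x j))).coeff (i + 1) = 0 := coeff_eq_zero_of_natDegree_lt (by
          nontriviality LaurentSeries R
          rw [natDegree_finsetProd_X_sub_C_eq_card]; omega)
        rw [hz, mul_zero]
        exact coeffBound_zero _

theorem coeff_prod_X_sub_C_one [Fintype ι] {x : ι → LaurentSeries R} {M : ℕ}
    (hx : ∀ i, CoeffBound (x i) (-(M : ℤ))) (i₀ : ι) (hx₀ : CoeffBound (x i₀) (-(M : ℤ) + 1))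
    (hn : 2 ≤ Fintype.card ι) [DecidableEq ι] :
    ((∏ j, (X - C (x j))).coeff 1).coeff (-(((Fintype.card ι - 1) * M : ℕ) : ℤ))
      = (-1) ^ (Fintype.card ι - 1) * ∏ j ∈ Finset.univ.erase i₀, (x j).coeff (-(M : ℤ)) := by
  have hcard : (Finset.univ.erase i₀).card = Fintype.card ι - 1 := by
    rw [Finset.card_erase_of_mem (Finset.mem_univ _), Finset.card_univ]
  rw [← Finset.mul_prod_erase _ _ (Finset.mem_univ i₀), sub_mul, coeff_sub, coeff_C_mul,
    show (1 : ℕ) = 0 + 1 from rfl, coeff_X_mul, HahnSeries.coeff_sub]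
  have h1 := coeffBound_coeff_prod_X_sub_C (s := Finset.univ.erase i₀) (fun j _ => hx j) (0 + 1)
  rw [hcard] at h1
  obtain ⟨t, ht⟩ : ∃ t, Fintype.card ι = t + 2 := ⟨Fintype.card ι - 2, by omega⟩
  rw [ht, show t + 2 - 1 = t + 1 by omega] at hcard ⊢
  rw [ht, show t + 2 - 1 - (0 + 1) = t by omega] at h1
  rw [(hx₀.mul h1).1 _ (by push_cast; linarith), sub_zero, coeff_zero_eq_eval_zero, eval_prod]
  have h2 := coeffBound_prod (s := Finset.univ.erase i₀) (x := fun j => -x j)
    (fun j _ => (hx j).neg)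
  rw [hcard] at h2
  simp only [eval_sub, eval_X, eval_C, zero_sub]
  rw [show (-(((t + 1) * M : ℕ) : ℤ)) = ((t + 1 : ℕ) : ℤ) * (-(M : ℤ)) by push_cast; ring, h2.2]
  simp only [HahnSeries.coeff_neg, Finset.prod_neg, hcard]

end Order

theorem evalJ_injective (R : Type*) [CommRing R] (N : ℕ) [NeZero N] :
    Function.Injective (evalJ R N) := by
  rw [injective_iff_map_eq_zero]
  intro r h0
  by_contra hr
  have h1 := congrArg (fun y : LaurentSeries R => y.coeff (-((N : ℤ) * r.natDegree))) h0
  simp only [HahnSeries.coeff_zero] at h1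
  rw [evalJ, coe_eval₂RingHom, eval₂_eq_sum_range, HahnSeries.coeff_sum,
    Finset.sum_eq_single r.natDegree] at h1
  · rw [HahnSeries.C_apply, HahnSeries.coeff_single_mul, sub_zero, coeff_evalJ_pow_self, mul_one]
      at h1
    exact hr (leadingCoeff_eq_zero.1 h1)
  · intro i hi hne'
    rw [HahnSeries.C_apply, HahnSeries.coeff_single_mul, sub_zero, coeff_evalJ_pow_of_lt,
      mul_zero]
    have : i < r.natDegree := by
      have := Finset.mem_range.1 hi
      omega
    have : (i : ℤ) < r.natDegree := by exact_mod_cast this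
    have hN : (1 : ℤ) ≤ N := by exact_mod_cast Nat.pos_of_ne_zero (NeZero.ne N)
    nlinarith
  · intro h; simp at h

section Pairs

/-- Pairs of a function and its expansion with coefficients in `S`. -/
def expPairs (S : Subring ℂ) (h : ℝ) : Subring ((ℍ → ℂ) × LaurentSeries S) where
  carrier := {p | HasQExp h p.1 (ModularCurve.coeffMap S.subtype p.2)}
  mul_mem' {a b} ha hb := by simpa using HasQExp.mul ha hb
  one_mem' := by simpa using HasQExp.one h
  add_mem' {a b} ha hb := by simpa using HasQExp.add ha hb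
  zero_mem' := by simpa using HasQExp.zero h
  neg_mem' {a} ha := by
    show HasQExp h (-a.1) (ModularCurve.coeffMap S.subtype (-a.2))
    rw [map_neg]
    exact HasQExp.neg ha

/-- The function component. -/
def expFst (S : Subring ℂ) (h : ℝ) : expPairs S h →+* (ℍ → ℂ) :=
  (RingHom.fst _ _).comp (expPairs S h).subtype

/-- The series component. -/
def expSnd (S : Subring ℂ) (h : ℝ) : expPairs S h →+* LaurentSeries S :=
  (RingHom.snd _ _).comp (expPairs S h).subtype

/-- Translation of functions by `γ`. -/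
def translateHom (γ : SL(2, ℤ)) : (ℍ → ℂ) →+* (ℍ → ℂ) :=
  RingHom.pi fun τ => Pi.evalRingHom (fun _ => ℂ) (γ • τ)

/-- Evaluation of `p ∈ S[X]` at `J τ`. -/
def evalAt (S : Subring ℂ) (J : ℍ → ℂ) (τ : ℍ) : S[X] →+* ℂ :=
  (Polynomial.evalRingHom (J τ)).comp (Polynomial.mapRingHom S.subtype)

theorem evalAt_apply (S : Subring ℂ) (J : ℍ → ℂ) (τ : ℍ) (p : S[X]) :
    evalAt S J τ p = (p.map S.subtype).eval (J τ) := rfl

variable {J : ℍ → ℂ} (hJinv : IsSLInvariant J) (hJ : HasQExp 1 J (ModularCurve.jqModC ℂ))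
  (S : Subring ℂ) (N : ℕ) [NeZero N]

include hJinv hJ in
/-- An invariant pair comes from a polynomial in `j`, of degree bounded by the pole order. -/
theorem exists_poly_of_expPairs (p : expPairs S N) (hinv : IsSLInvariant (expFst S N p)) :
    ∃ q : S[X], evalJ S N q = expSnd S N p ∧ (∀ τ, evalAt S J τ q = expFst S N p τ) ∧
      ∀ m : ℕ, CoeffBound (expSnd S N p) (-((N : ℤ) * m)) →
        q.natDegree ≤ m ∧ q.coeff m = (expSnd S N p).coeff (-((N : ℤ) * m)) := by
  have hN : (1 : ℤ) ≤ N := by exact_mod_cast Nat.pos_of_ne_zero (NeZero.ne N)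
  obtain ⟨m₀, hm₀⟩ : ∃ m : ℕ, CoeffBound (expSnd S N p) (-((N : ℤ) * m)) := by
    refine ⟨((expSnd S N p).order).natAbs,
      fun k hk => HahnSeries.coeff_eq_zero_of_lt_order (lt_of_lt_of_le hk ?_)⟩
    rw [Int.natCast_natAbs]
    nlinarith [neg_abs_le (expSnd S N p).order, abs_nonneg (expSnd S N p).order]
  have key : ∀ m : ℕ, CoeffBound (expSnd S N p) (-((N : ℤ) * m)) → _ := fun m hm =>
    exists_poly_of_isSLInvariant hJinv hJ S N m (expFst S N p) (expSnd S N p) hinv p.2 hm
  obtain ⟨q, -, -, hqf, hqx⟩ := key m₀ hm₀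
  refine ⟨q, hqx, fun τ => (hqf τ).symm, fun m hm => ?_⟩
  obtain ⟨q', h1, h2, -, hqx'⟩ := key m hm
  suffices q = q' by subst this; exact ⟨h1, h2⟩
  exact evalJ_injective S N (hqx.trans hqx'.symm)

include hJinv hJ in
/-- A polynomial over pairs with invariant function part descends to `S[j]`. -/
theorem exists_poly_map_eq (Q : Polynomial (expPairs S N))
    (hinv : ∀ γ : SL(2, ℤ), (Q.map (expFst S N)).map (translateHom γ) = Q.map (expFst S N)) :
    ∃ P : S[X][X], P.map (evalJ S N) = Q.map (expSnd S N) ∧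
      (∀ τ, P.map (evalAt S J τ) =
        (Q.map (expFst S N)).map (Pi.evalRingHom (fun _ => ℂ) τ)) ∧
      ∀ (i m : ℕ), CoeffBound ((Q.map (expSnd S N)).coeff i) (-((N : ℤ) * m)) →
        (P.coeff i).natDegree ≤ m ∧
          (P.coeff i).coeff m = ((Q.map (expSnd S N)).coeff i).coeff (-((N : ℤ) * m)) := by
  classical
  have hc : ∀ i, IsSLInvariant (expFst S N (Q.coeff i)) := by
    intro i γ τ
    have h := congrArg (fun p : Polynomial (ℍ → ℂ) => p.coeff i τ) (hinv γ)
    rw [coeff_map, coeff_map] at h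
    exact h
  choose q hq1 hq2 hq3 using fun i => exists_poly_of_expPairs hJinv hJ S N (Q.coeff i) (hc i)
  let P : S[X][X] := ∑ i ∈ Finset.range (Q.natDegree + 1), C (q i) * X ^ i
  have hP : ∀ i, evalJ S N (P.coeff i) = expSnd S N (Q.coeff i) ∧
      (∀ τ, evalAt S J τ (P.coeff i) = expFst S N (Q.coeff i) τ) ∧
      ∀ m : ℕ, CoeffBound (expSnd S N (Q.coeff i)) (-((N : ℤ) * m)) →
        (P.coeff i).natDegree ≤ m ∧
          (P.coeff i).coeff m = (expSnd S N (Q.coeff i)).coeff (-((N : ℤ) * m)) := by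
    intro i
    simp only [P, finsetSum_coeff, coeff_C_mul_X_pow, Finset.sum_ite_eq, Finset.mem_range]
    split_ifs with h
    · exact ⟨hq1 i, hq2 i, hq3 i⟩
    · rw [coeff_eq_zero_of_natDegree_lt (by omega : Q.natDegree < i)]
      simp
  refine ⟨P, ?_, fun τ => ?_, fun i m hm => ?_⟩
  · ext1 i
    rw [coeff_map, coeff_map, (hP i).1]
  · ext1 i
    rw [coeff_map, coeff_map, coeff_map, (hP i).2.1 τ]
    rfl
  · rw [coeff_map] at hm ⊢
    exact (hP i).2.2 m hm

variable {ι : Type*} [Fintype ι] (f : ι → ℍ → ℂ) (x : ι → LaurentSeries S)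

include hJinv hJ in
/-- The coset polynomial. -/
theorem exists_cosetPoly (hx : ∀ i, HasQExp (N : ℝ) (f i) (ModularCurve.coeffMap S.subtype (x i)))
    (hperm : ∀ γ : SL(2, ℤ), ∃ σ : Equiv.Perm ι, ∀ i τ, f i (γ • τ) = f (σ i) τ) :
    ∃ P : S[X][X], P.Monic ∧ P.natDegree = Fintype.card ι ∧
      P.map (evalJ S N) = ∏ i, (X - C (x i)) ∧
      (∀ τ, P.map (evalAt S J τ) = ∏ i, (X - C (f i τ))) ∧
      ∀ W : ℕ, (∀ i, CoeffBound (x i) (-((N : ℤ) * W))) → ∀ i : ℕ,
        (P.coeff i).natDegree ≤ (Fintype.card ι - i) * W ∧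
          (P.coeff i).coeff ((Fintype.card ι - i) * W) =
            ((∏ k, (X - C (x k))).coeff i).coeff
              (-((N : ℤ) * (((Fintype.card ι - i) * W : ℕ) : ℤ))) := by
  classical
  let F : ι → expPairs S N := fun i => ⟨(f i, x i), hx i⟩
  set Q : Polynomial (expPairs S N) := ∏ i, (X - C (F i)) with hQdef
  have hmap : ∀ {T : Type} [CommRing T] (φ : expPairs S N →+* T),
      Q.map φ = ∏ i, (X - C (φ (F i))) := fun φ => by simp [hQdef, Polynomial.map_prod]
  have hinv : ∀ γ : SL(2, ℤ),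
      (Q.map (expFst S N)).map (translateHom γ) = Q.map (expFst S N) := by
    intro γ
    obtain ⟨σ, hσ⟩ := hperm γ
    rw [hmap, Polynomial.map_prod]
    refine Fintype.prod_equiv σ _ _ fun i => ?_
    have : translateHom γ (expFst S N (F i)) = expFst S N (F (σ i)) := _root_.funext fun τ => hσ i τ
    simp [this]
  obtain ⟨P, hP1, hP2, hP3⟩ := exists_poly_map_eq hJinv hJ S N Q hinv
  have hsnd : Q.map (expSnd S N) = ∏ i, (X - C (x i)) := hmap _
  have hfst : ∀ τ, P.map (evalAt S J τ) = ∏ i, (X - C (f i τ)) := fun τ => by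
    rw [hP2, Polynomial.map_map, hmap]
    rfl
  have hcoe : ∀ i, (P.coeff i = 0 ↔ (∏ k, (X - C (x k))).coeff i = 0) := by
    intro i
    rw [← hsnd, ← hP1, coeff_map, map_eq_zero_iff _ (evalJ_injective S N)]
  have hprodmonic : (∏ i, (X - C (x i))).Monic := monic_prod_of_monic _ _ fun i _ => monic_X_sub_C _
  have hdegprod : (∏ i, (X - C (x i))).natDegree = Fintype.card ι := by
    rw [natDegree_finsetProd_X_sub_C_eq_card, Finset.card_univ]
  have hdeg : P.natDegree = Fintype.card ι := by
    nontriviality S[X]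
    refine le_antisymm ?_ ?_
    · refine natDegree_le_iff_coeff_eq_zero.2 fun i hi => (hcoe i).2 ?_
      exact coeff_eq_zero_of_natDegree_lt (hdegprod.trans_lt hi)
    · refine le_natDegree_of_ne_zero fun h => ?_
      have := (hcoe (Fintype.card ι)).1 h
      rw [← hdegprod, hprodmonic.coeff_natDegree] at this
      exact one_ne_zero this
  have hmonic : P.Monic := by
    rw [Monic, leadingCoeff, hdeg]
    have h1 : (∏ k, (X - C (x k))).coeff (Fintype.card ι) = 1 := by
      rw [← hdegprod, hprodmonic.coeff_natDegree]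
    have hb : CoeffBound ((Q.map (expSnd S N)).coeff (Fintype.card ι)) (-((N : ℤ) * (0 : ℕ))) := by
      rw [hsnd, h1]; exact coeffBound_one (by simp)
    obtain ⟨hd, hc⟩ := hP3 (Fintype.card ι) 0 hb
    rw [eq_C_of_natDegree_le_zero hd, hc, hsnd, h1]
    simp
  refine ⟨P, hmonic, hdeg, hP1.trans hsnd, hfst, fun W hW i => ?_⟩
  rw [← hsnd]
  refine hP3 i _ ?_
  rw [hsnd]
  refine (coeffBound_coeff_prod_X_sub_C (s := Finset.univ) (M := N * W) (fun k _ => ?_) i).mono ?_
  · exact_mod_cast hW k
  · rw [Finset.card_univ]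
    push_cast
    linarith

include hJinv hJ in
/-- The interpolation polynomial. -/
theorem exists_interpolation [DecidableEq ι] (g : ι → ℍ → ℂ) (y : ι → LaurentSeries S)
    (hx : ∀ i, HasQExp (N : ℝ) (f i) (ModularCurve.coeffMap S.subtype (x i)))
    (hy : ∀ i, HasQExp (N : ℝ) (g i) (ModularCurve.coeffMap S.subtype (y i)))
    (hperm : ∀ γ : SL(2, ℤ), ∃ σ : Equiv.Perm ι,
      ∀ i τ, f i (γ • τ) = f (σ i) τ ∧ g i (γ • τ) = g (σ i) τ) :
    ∃ R : S[X][X], R.map (evalJ S N) = ∑ i, C (y i) * ∏ k ∈ univ.erase i, (X - C (x k)) ∧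
      (∀ i, (R.map (evalJ S N)).eval (x i) =
        y i * (derivative (∏ k, (X - C (x k)))).eval (x i)) := by
  let F : ι → expPairs S N := fun i => ⟨(f i, x i), hx i⟩
  let G : ι → expPairs S N := fun i => ⟨(g i, y i), hy i⟩
  set Q : Polynomial (expPairs S N) := ∑ i, C (G i) * ∏ k ∈ univ.erase i, (X - C (F k)) with hQdef
  have hmap : ∀ {T : Type} [CommRing T] (φ : expPairs S N →+* T),
      Q.map φ = ∑ i, C (φ (G i)) * ∏ k ∈ univ.erase i, (X - C (φ (F k))) := fun φ => by
    simp [hQdef, Polynomial.map_sum, Polynomial.map_prod]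
  have hinv : ∀ γ : SL(2, ℤ),
      (Q.map (expFst S N)).map (translateHom γ) = Q.map (expFst S N) := by
    intro γ
    obtain ⟨σ, hσ⟩ := hperm γ
    rw [hmap, Polynomial.map_sum]
    refine Fintype.sum_equiv σ _ _ fun i => ?_
    have hG : translateHom γ (expFst S N (G i)) = expFst S N (G (σ i)) :=
      _root_.funext fun τ => (hσ i τ).2
    have hF : ∀ k, translateHom γ (expFst S N (F k)) = expFst S N (F (σ k)) :=
      fun k => _root_.funext fun τ => (hσ k τ).1
    rw [Polynomial.map_mul, map_C, hG, Polynomial.map_prod]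
    congr 1
    refine Finset.prod_equiv σ (by simp) fun k _ => ?_
    rw [Polynomial.map_sub, map_X, map_C, hF]
  obtain ⟨R, hR, -, -⟩ := exists_poly_map_eq hJinv hJ S N Q hinv
  have hsnd : R.map (evalJ S N) = ∑ i, C (y i) * ∏ k ∈ univ.erase i, (X - C (x k)) :=
    hR.trans (hmap _)
  refine ⟨R, hsnd, fun i => ?_⟩
  have hz : ∀ k, k ≠ i → (∏ l ∈ univ.erase k, (x i - x l)) = 0 := fun k hk =>
    Finset.prod_eq_zero (Finset.mem_erase.2 ⟨hk.symm, Finset.mem_univ i⟩) (sub_self _)
  rw [hsnd, derivative_prod_finset]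
  simp only [eval_finsetSum, eval_mul, eval_C, eval_prod, eval_sub, eval_X, derivative_X_sub_C,
    mul_one]
  rw [Finset.sum_eq_single i (fun k _ hk => by rw [hz k hk, mul_zero]) (by simp),
    Finset.sum_eq_single i (fun k _ hk => hz k hk) (by simp)]

include hJinv hJ in
/-- If the family is invertible, the constant coefficient of the coset polynomial is a unit. -/
theorem isUnit_coeff_zero (g : ι → ℍ → ℂ) (y : ι → LaurentSeries S)
    (hx : ∀ i, HasQExp (N : ℝ) (f i) (ModularCurve.coeffMap S.subtype (x i)))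
    (hy : ∀ i, HasQExp (N : ℝ) (g i) (ModularCurve.coeffMap S.subtype (y i)))
    (hfg : ∀ i τ, f i τ * g i τ = 1)
    (hperm : ∀ γ : SL(2, ℤ), ∃ σ : Equiv.Perm ι, ∀ i τ, f i (γ • τ) = f (σ i) τ)
    {P : S[X][X]} (hP : P.map (evalJ S N) = ∏ i, (X - C (x i))) : IsUnit (P.coeff 0) := by
  have hN : (0 : ℝ) < N := by exact_mod_cast Nat.pos_of_ne_zero (NeZero.ne N)
  let G : expPairs S N := ∏ i, ⟨(g i, y i), hy i⟩
  let F : expPairs S N := ∏ i, ⟨(f i, x i), hx i⟩
  have hfF : ∀ τ, expFst S N F τ = ∏ i, f i τ := fun τ => by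
    simp only [F, map_prod, Finset.prod_apply]; rfl
  have hgG : ∀ τ, expFst S N G τ = ∏ i, g i τ := fun τ => by
    simp only [G, map_prod, Finset.prod_apply]; rfl
  have hFG : ∀ τ, expFst S N F τ * expFst S N G τ = 1 := fun τ => by
    rw [hfF, hgG, ← Finset.prod_mul_distrib]
    exact Finset.prod_eq_one fun i _ => hfg i τ
  have hF : IsSLInvariant (expFst S N F) := by
    intro γ τ
    obtain ⟨σ, hσ⟩ := hperm γ
    rw [hfF, hfF]
    exact Fintype.prod_equiv σ _ _ fun i => hσ i τ
  have hG : IsSLInvariant (expFst S N G) := by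
    intro γ τ
    have hne : expFst S N F τ ≠ 0 := left_ne_zero_of_mul_eq_one (hFG τ)
    apply mul_left_cancel₀ hne
    rw [hFG τ]
    nth_rewrite 1 [← hF γ τ]
    exact hFG _
  obtain ⟨q, hq, -, -⟩ := exists_poly_of_expPairs hJinv hJ S N G hG
  have h1 : expSnd S N F * expSnd S N G = 1 := by
    apply coeffMap_injective (f := S.subtype) Subtype.val_injective
    rw [map_mul, map_one]
    exact ((HasQExp.mul F.2 G.2).congr fun τ => hFG τ).unique (HasQExp.one _) hN
  have hP0 : evalJ S N (P.coeff 0) = (-1) ^ Fintype.card ι * expSnd S N F := by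
    rw [← coeff_map, hP, coeff_zero_eq_eval_zero, eval_prod]
    simp only [eval_sub, eval_X, eval_C, zero_sub, Finset.prod_neg, F, map_prod]
    rfl
  refine IsUnit.of_mul_eq_one ((-1) ^ Fintype.card ι * q) ?_
  have h2 : evalJ S N (P.coeff 0 * ((-1) ^ Fintype.card ι * q)) = evalJ S N 1 := by
    rw [map_mul, map_mul, map_pow, map_neg, map_one, hP0, hq, mul_mul_mul_comm, h1, ← mul_pow,
      neg_one_mul, neg_neg, one_pow, mul_one]
  exact evalJ_injective S N h2

/-- At period `N`, evaluation at `(j, u)` is the dilation of evaluation at period one. -/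
theorem qExpand_evalJU {R : Type*} [CommRing R] (M : ℕ) [NeZero M] (u : LaurentSeries R)
    (p : R[X][X]) :
    ModularCurve.qExpand R M (evalJU u p) =
      (p.map (evalJ R M)).eval (ModularCurve.qExpand R M u) := by
  have h : (ModularCurve.qExpand R M).comp (evalJU u) =
      (Polynomial.evalRingHom (ModularCurve.qExpand R M u)).comp
        (Polynomial.mapRingHom (evalJ R M)) := by
    refine Polynomial.ringHom_ext' (Polynomial.ringHom_ext' (RingHom.ext fun r => ?_) ?_) ?_ <;>
      simp
  exact DFunLike.congr_fun h p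

/-- The member whose expansion has period one is a root of the coset polynomial at `(j, u)`. -/
theorem evalJU_eq_zero_of_map_eq {R : Type*} [CommRing R] {ι : Type*} [Fintype ι] (M : ℕ) [NeZero M]
    {P : R[X][X]} {x : ι → LaurentSeries R} (hP : P.map (evalJ R M) = ∏ i, (X - C (x i)))
    {i₀ : ι} {u : LaurentSeries R} (hu : x i₀ = ModularCurve.qExpand R M u) : evalJU u P = 0 := by
  apply ModularCurve.qExpand_injective M
  rw [qExpand_evalJU, hP, map_zero, eval_prod]
  exact Finset.prod_eq_zero (Finset.mem_univ i₀) (by simp [hu])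

/-- The interpolation identity at `(j, u)`. -/
theorem evalJU_interpolation {R : Type*} [CommRing R] {ι : Type*} [Fintype ι] [DecidableEq ι]
    (M : ℕ) [NeZero M] {P Q : R[X][X]} {x y : ι → LaurentSeries R}
    (hP : P.map (evalJ R M) = ∏ i, (X - C (x i)))
    (hQ : ∀ i, (Q.map (evalJ R M)).eval (x i) =
      y i * (derivative (∏ k, (X - C (x k)))).eval (x i))
    {i₀ : ι} {u v : LaurentSeries R} (hu : x i₀ = ModularCurve.qExpand R M u)
    (hv : y i₀ = ModularCurve.qExpand R M v) : v * evalJU u P.derivative = evalJU u Q := by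
  apply ModularCurve.qExpand_injective M
  rw [map_mul, qExpand_evalJU, qExpand_evalJU, ← hu, hQ i₀, hv, ← hP, derivative_map]

end Pairs

end Fermat.Agent.Igusa
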