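import Mathlib.FieldTheory.Minpoly.IsIntegrallyClosed
import Mathlib.RingTheory.Polynomial.ScaleRoots
import Mathlib.RingTheory.IntegralClosure.IntegralRestrict
import Mathlib.RingTheory.UniqueFactorizationDomain.Multiplicity
import Mathlib.LinearAlgebra.Dimension.Finite

/-!
# Reduction of a normal order modulo a prime of full residue degree

`R` is an integrally closed domain with fraction field `K`, `F` a finite extension of `K`,
`ℓ` a prime element of `R`.

* `isIntegral_of_smul_of_smul`: integrality can be tested after multiplying by `ℓ` and by an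
  element prime to `ℓ` (so `B/ℓB` is torsion free over `R/ℓR` for the integral closure `B`).
* `exists_ringHom_integralClosure`: if a subalgebra `A` has a ring map `ψ` to a field with kernel
  `ℓR` on `R`, and contains `[F:K]` elements whose images are independent over `R/ℓR`, then
  `ψ` extends to the integral closure `B`, with kernel exactly `ℓB`.
-/

set_option autoImplicit false

noncomputable section

open Polynomial

namespace Fermat.Agent.Igusa.NormalReduction

/-- Minimal polynomial of a scalar multiple. -/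
theorem minpoly_algebraMap_mul {K F : Type*} [Field K] [Field F] [Algebra K F] {a : F} {c : K}
    (ha : IsIntegral K a) (hc : c ≠ 0) :
    minpoly K (algebraMap K F c * a) = (minpoly K a).scaleRoots c := by
  have hca : IsIntegral K (algebraMap K F c * a) := isIntegral_algebraMap.mul ha
  have hdvd : minpoly K (algebraMap K F c * a) ∣ (minpoly K a).scaleRoots c :=
    minpoly.dvd _ _ (scaleRoots_aeval_eq_zero (minpoly.aeval K a))
  have h0 : aeval a ((minpoly K (algebraMap K F c * a)).scaleRoots c⁻¹) = 0 := by
    have h := scaleRoots_aeval_eq_zero (r := c⁻¹) (minpoly.aeval K (algebraMap K F c * a))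
    rwa [← mul_assoc, ← map_mul, inv_mul_cancel₀ hc, map_one, one_mul] at h
  have hdeg : ((minpoly K a).scaleRoots c).natDegree
      ≤ (minpoly K (algebraMap K F c * a)).natDegree := by
    rw [natDegree_scaleRoots]
    refine le_trans (natDegree_le_of_dvd (minpoly.dvd K a h0)
      (scaleRoots_ne_zero (minpoly.ne_zero hca) _)) ?_
    rw [natDegree_scaleRoots]
  exact (eq_of_monic_of_dvd_of_natDegree_le (minpoly.monic hca)
    ((monic_scaleRoots_iff c).mpr (minpoly.monic ha)) hdvd hdeg).symm

variable {R : Type*} [CommRing R] [IsDomain R]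
variable (K : Type*) [Field K] [Algebra R K] [IsFractionRing R K]
variable {F : Type*} [Field F] [Algebra R F] [Algebra K F] [IsScalarTower R K F]

include K in
/-- For a prime `ℓ` and `x` prime to `ℓ`, integrality of `ℓ y` and of `x y` gives
integrality of `y`. -/
theorem isIntegral_of_smul_of_smul [IsIntegrallyClosed R] {ℓ x : R} (hℓ : Prime ℓ)
    (hx : ¬ ℓ ∣ x) {y : F} (hℓy : IsIntegral R (ℓ • y)) (hxy : IsIntegral R (x • y)) :
    IsIntegral R y := by
  have hinj : Function.Injective (algebraMap R K) := IsFractionRing.injective R K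
  have hℓK : algebraMap R K ℓ ≠ 0 := (map_ne_zero_iff _ hinj).mpr hℓ.ne_zero
  have hxK : algebraMap R K x ≠ 0 :=
    (map_ne_zero_iff _ hinj).mpr (fun h => hx (h ▸ dvd_zero ℓ))
  have hy : IsIntegral K y := by
    have h := (hℓy.tower_top (A := K)).smul (algebraMap R K ℓ)⁻¹
    rwa [← algebraMap_smul K ℓ y, smul_smul, inv_mul_cancel₀ hℓK, one_smul] at h
  set P := minpoly R (ℓ • y) with hPdef
  set Q := minpoly R (x • y) with hQdef
  have hP : (minpoly K y).scaleRoots (algebraMap R K ℓ) = P.map (algebraMap R K) := by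
    rw [← minpoly_algebraMap_mul hy hℓK, ← IsScalarTower.algebraMap_apply, ← Algebra.smul_def,
      minpoly.isIntegrallyClosed_eq_field_fractions' K hℓy]
  have hQ : (minpoly K y).scaleRoots (algebraMap R K x) = Q.map (algebraMap R K) := by
    rw [← minpoly_algebraMap_mul hy hxK, ← IsScalarTower.algebraMap_apply, ← Algebra.smul_def,
      minpoly.isIntegrallyClosed_eq_field_fractions' K hxy]
  set n := (minpoly K y).natDegree with hn
  have hlift : minpoly K y ∈ Polynomial.lifts (algebraMap R K) := by
    refine (Polynomial.lifts_iff_coeff_lifts _).mpr fun i => ?_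
    have hPi := congrArg (fun p : K[X] => p.coeff i) hP
    have hQi := congrArg (fun p : K[X] => p.coeff i) hQ
    simp only [coeff_scaleRoots, coeff_map] at hPi hQi
    rw [← hn] at hPi hQi
    have hR : P.coeff i * x ^ (n - i) = Q.coeff i * ℓ ^ (n - i) := by
      apply hinj
      rw [map_mul, map_mul, map_pow, map_pow, ← hPi, ← hQi]
      ring
    have hdvd : ℓ ^ (n - i) ∣ x ^ (n - i) * P.coeff i :=
      ⟨Q.coeff i, by rw [mul_comm _ (P.coeff i), hR, mul_comm]⟩
    obtain ⟨r, hr⟩ := hℓ.pow_dvd_of_dvd_mul_left (n - i)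
      (fun h => hx (hℓ.dvd_of_dvd_pow h)) hdvd
    refine ⟨r, ?_⟩
    rw [hr, map_mul, map_pow, mul_comm ((minpoly K y).coeff i)] at hPi
    exact (mul_left_cancel₀ (pow_ne_zero _ hℓK) hPi).symm
  obtain ⟨q, hq, -, hqm⟩ :=
    Polynomial.lifts_and_natDegree_eq_and_monic hlift (minpoly.monic hy)
  refine ⟨q, hqm, ?_⟩
  rw [← aeval_def, ← aeval_map_algebraMap K, hq, minpoly.aeval]

omit [IsDomain R] in
/-- A monic relation of `y` scaled by `ℓ` shows that a ring map killing `ℓ` kills `ℓ • y`. -/
theorem map_eq_zero_of_eq_smul {A : Subalgebra R F} {L : Type*} [CommRing L] [IsReduced L]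
    (ψ : A →+* L) {ℓ : R} (hψ : ψ (algebraMap R A ℓ) = 0) (a : A) {y : F} (hy : IsIntegral R y)
    (ha : (a : F) = ℓ • y) : ψ a = 0 := by
  obtain ⟨p, hpm, hp⟩ := hy
  have h : eval₂ (algebraMap R A) a (p.scaleRoots ℓ) = 0 := by
    apply Subtype.val_injective
    have h1 := scaleRoots_eval₂_eq_zero (algebraMap R F) (s := ℓ) hp
    rw [← Algebra.smul_def, ← ha] at h1
    rw [ZeroMemClass.coe_zero, ← h1]
    exact Polynomial.hom_eval₂ _ _ A.val.toRingHom a
  have h2 := congrArg ψ h
  rw [Polynomial.hom_eval₂, map_zero] at h2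
  have h3 : (p.scaleRoots ℓ).map (ψ.comp (algebraMap R A)) =
      (p.map (ψ.comp (algebraMap R A))).scaleRoots 0 := by
    nontriviality L
    rw [map_scaleRoots _ _ _ (by rw [hpm.leadingCoeff, map_one]; exact one_ne_zero)]
    simp [hψ]
  rw [← eval_map, h3, scaleRoots_zero, (hpm.map _).leadingCoeff, one_smul, eval_pow, eval_X] at h2
  exact IsReduced.eq_zero _ ⟨_, h2⟩

variable [WfDvdMonoid R]

include K in
/-- Every element of `F` times a scalar prime to `ℓ` lies in the span of `[F:K]` elements of `A`
whose images are independent modulo `ℓ`, provided that element is integral. -/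
theorem exists_smul_eq_sum [FiniteDimensional K F] {ℓ : R} (hℓ : Prime ℓ)
    {A : Subalgebra R F} {L : Type*} [CommRing L] [IsReduced L] (ψ : A →+* L)
    (hψ : ψ (algebraMap R A ℓ) = 0)
    {ι : Type*} [Fintype ι] (b : ι → A) (hcard : Fintype.card ι = Module.finrank K F)
    (hind : ∀ c : ι → R, (∑ i, ψ (algebraMap R A (c i)) * ψ (b i)) = 0 → ∀ i, ℓ ∣ c i)
    (s : F) (hs : IsIntegral R s) :
    ∃ (d : R) (c : ι → R), ¬ ℓ ∣ d ∧ d • s = ∑ i, c i • (b i : F) := by
  have hinjK : Function.Injective (algebraMap R K) := IsFractionRing.injective R K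
  have hinj : Function.Injective (algebraMap R F) := by
    rw [IsScalarTower.algebraMap_eq R K F]
    exact (algebraMap K F).injective.comp hinjK
  have hℓF : algebraMap R F ℓ ≠ 0 := (map_ne_zero_iff _ hinj).mpr hℓ.ne_zero
  have hval : ∀ c : ι → R, (((∑ i, algebraMap R A (c i) * b i : A)) : F)
      = ∑ i, c i • (b i : F) := by
    intro c
    rw [AddSubmonoidClass.coe_finsetSum]
    exact Finset.sum_congr rfl fun i _ => by rw [Algebra.smul_def]; rfl
  have key : ∀ (c : ι → R) (z : F), IsIntegral R z → ∑ i, c i • (b i : F) = ℓ • z →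
      ∃ c' : ι → R, (∀ i, c i = ℓ * c' i) ∧ ∑ i, c' i • (b i : F) = z := by
    intro c z hz h
    have h0 := map_eq_zero_of_eq_smul ψ hψ (∑ i, algebraMap R A (c i) * b i) hz
      (by rw [hval c, h])
    rw [map_sum] at h0
    simp only [map_mul] at h0
    choose c' hc' using hind c h0
    refine ⟨c', hc', ?_⟩
    have : ℓ • ∑ i, c' i • (b i : F) = ℓ • z := by
      rw [← h, Finset.smul_sum]
      exact Finset.sum_congr rfl fun i _ => by rw [hc' i, mul_smul]
    simp only [Algebra.smul_def] at this ⊢
    exact mul_left_cancel₀ hℓF this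
  -- independence over `R`
  have hindR : LinearIndependent R (fun i => (b i : F)) := by
    refine Fintype.linearIndependent_iff.mpr fun c hc i => ?_
    by_contra hne
    obtain ⟨m, a, hma, hci⟩ := WfDvdMonoid.max_power_factor hne hℓ.irreducible
    induction m generalizing c a with
    | zero =>
      obtain ⟨c', hc', -⟩ := key c 0 isIntegral_zero (by rw [hc, smul_zero])
      exact hma (by simpa [hci] using (Dvd.intro _ (hc' i).symm))
    | succ m ih =>
      obtain ⟨c', hc', hsum⟩ := key c 0 isIntegral_zero (by rw [hc, smul_zero])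
      have h : c' i = ℓ ^ m * a := by
        have := hc' i
        rw [hci, pow_succ', mul_assoc] at this
        exact (mul_left_cancel₀ hℓ.ne_zero this).symm
      exact ih c' hsum (fun h0 => hne (by rw [hc' i, h0, mul_zero])) a hma h
  have hindK : LinearIndependent K (fun i => (b i : F)) :=
    (LinearIndependent.iff_fractionRing R K).mp hindR
  have hspan : Submodule.span K (Set.range fun i => (b i : F)) = ⊤ := by
    apply hindK.span_eq_top_of_card_eq_finrank' hcard
  obtain ⟨f, hf⟩ := (Submodule.mem_span_range_iff_exists_fun K).mp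
    (hspan.ge (Submodule.mem_top (x := s)))
  classical
  obtain ⟨⟨d, hd⟩, hint⟩ :=
    IsLocalization.exist_integer_multiples (nonZeroDivisors R) Finset.univ f
  choose c hc using fun i => hint i (Finset.mem_univ i)
  have hds : d • s = ∑ i, c i • (b i : F) := by
    rw [← hf, Finset.smul_sum]
    refine Finset.sum_congr rfl fun i _ => ?_
    rw [← smul_assoc, ← algebraMap_smul K (c i) (b i : F), hc i]
  obtain ⟨m, d', hd', rfl⟩ :=
    WfDvdMonoid.max_power_factor (nonZeroDivisors.ne_zero hd) hℓ.irreducible
  clear hd hint hc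
  induction m generalizing c with
  | zero => exact ⟨d', c, hd', by simpa using hds⟩
  | succ m ih =>
    rw [pow_succ', mul_assoc, mul_smul] at hds
    obtain ⟨c', -, hsum⟩ := key c ((ℓ ^ m * d') • s) (hs.smul _) hds.symm
    exact ih c' hsum.symm

include K in
/-- A ring map on `A` with kernel `ℓR` on `R` and full residue degree extends to the integral
closure, and the kernel of the extension is exactly `ℓB`. -/
theorem exists_ringHom_integralClosure [IsIntegrallyClosed R] [FiniteDimensional K F] {ℓ : R} (hℓ : Prime ℓ)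
    {A : Subalgebra R F} {L : Type*} [Field L] (ψ : A →+* L)
    (hψ : ∀ r : R, ψ (algebraMap R A r) = 0 ↔ ℓ ∣ r)
    {ι : Type*} [Fintype ι] (b : ι → A) (hbint : ∀ i, IsIntegral R (b i : F))
    (hcard : Fintype.card ι = Module.finrank K F)
    (hind : ∀ c : ι → R, (∑ i, ψ (algebraMap R A (c i)) * ψ (b i)) = 0 → ∀ i, ℓ ∣ c i) :
    ∃ Ψ : integralClosure R F →+* L,
      (∀ (a : A) (s : integralClosure R F) (d : R),
        d • (s : F) = (a : F) → ψ (algebraMap R A d) * Ψ s = ψ a) ∧
      RingHom.ker Ψ = Ideal.span {algebraMap R (integralClosure R F) ℓ} := by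
  have hψℓ : ψ (algebraMap R A ℓ) = 0 := (hψ ℓ).mpr dvd_rfl
  have hex : ∀ s : integralClosure R F, ∃ (d : R) (a : A), ¬ ℓ ∣ d ∧ d • (s : F) = (a : F) := by
    intro s
    obtain ⟨d, c, hd, h⟩ := exists_smul_eq_sum K hℓ ψ hψℓ b hcard hind (s : F) s.2
    refine ⟨d, ∑ i, algebraMap R A (c i) * b i, hd, h.trans ?_⟩
    rw [AddSubmonoidClass.coe_finsetSum]
    exact Finset.sum_congr rfl fun i _ => by rw [Algebra.smul_def]; rfl
  choose d a hd hda using hex
  let g : integralClosure R F → L := fun s => ψ (a s) / ψ (algebraMap R A (d s))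
  have hdne : ∀ s, ψ (algebraMap R A (d s)) ≠ 0 := fun s h => hd s ((hψ _).mp h)
  have hg : ∀ (a' : A) (s : integralClosure R F) (d' : R), d' • (s : F) = (a' : F) →
      ψ (algebraMap R A d') * g s = ψ a' := by
    intro a' s d' h
    have : algebraMap R A d' * a s = algebraMap R A (d s) * a' := by
      apply Subtype.val_injective
      show algebraMap R F d' * (a s : F) = algebraMap R F (d s) * (a' : F)
      rw [← hda, ← h, Algebra.smul_def, Algebra.smul_def]
      ring
    have h2 := congrArg ψ this
    rw [map_mul, map_mul] at h2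
    rw [mul_div, h2, mul_comm, mul_div_assoc, div_self (hdne s), mul_one]
  have hcancel : ∀ (a' : A) (s : integralClosure R F) (d' : R) (v : L), ¬ ℓ ∣ d' →
      d' • (s : F) = (a' : F) → ψ (algebraMap R A d') * v = ψ a' → g s = v := by
    intro a' s d' v hd' h hv
    exact mul_left_cancel₀ (fun h0 => hd' ((hψ _).mp h0)) ((hg a' s d' h).trans hv.symm)
  refine ⟨{ toFun := g
            map_one' := ?_
            map_mul' := ?_
            map_zero' := ?_
            map_add' := ?_ }, hg, ?_⟩
  · exact hcancel 1 1 1 1 (fun h => hℓ.not_isUnit (isUnit_of_dvd_one h)) (by simp) (by simp)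
  · intro x y
    refine hcancel (a x * a y) (x * y) (d x * d y) _
      (fun h => (hℓ.dvd_or_dvd h).elim (hd x) (hd y)) ?_ ?_
    · show _ = (a x : F) * (a y : F)
      rw [← hda, ← hda, Subalgebra.coe_mul, Algebra.smul_def, Algebra.smul_def, Algebra.smul_def,
        map_mul]
      ring
    · rw [map_mul, map_mul, map_mul, ← hg (a x) x _ (hda x), ← hg (a y) y _ (hda y)]
      ring
  · exact hcancel 0 0 1 0 (fun h => hℓ.not_isUnit (isUnit_of_dvd_one h)) (by simp) (by simp)
  · intro x y
    refine hcancel (algebraMap R A (d y) * a x + algebraMap R A (d x) * a y) (x + y) (d x * d y) _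
      (fun h => (hℓ.dvd_or_dvd h).elim (hd x) (hd y)) ?_ ?_
    · show _ = algebraMap R F (d y) * (a x : F) + algebraMap R F (d x) * (a y : F)
      rw [← hda, ← hda, Subalgebra.coe_add, Algebra.smul_def, Algebra.smul_def, Algebra.smul_def,
        map_mul]
      ring
    · simp only [map_add, map_mul]
      rw [← hg (a x) x _ (hda x), ← hg (a y) y _ (hda y)]
      ring
  · apply le_antisymm
    · intro s hs
      rw [RingHom.mem_ker] at hs
      replace hs : g s = 0 := hs
      obtain ⟨d', c, hd', h⟩ := exists_smul_eq_sum K hℓ ψ hψℓ b hcard hind (s : F) s.2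
      have h0 : ψ (∑ i, algebraMap R A (c i) * b i) = 0 := by
        rw [← hg (∑ i, algebraMap R A (c i) * b i) s d' ?_, hs, mul_zero]
        rw [h, AddSubmonoidClass.coe_finsetSum]
        exact Finset.sum_congr rfl fun i _ => by rw [Algebra.smul_def]; rfl
      rw [map_sum] at h0
      simp only [map_mul] at h0
      choose c' hc' using hind c h0
      have hℓ0 : algebraMap R F ℓ ≠ 0 := by
        rw [IsScalarTower.algebraMap_apply R K F]
        exact (_root_.map_ne_zero _).mpr
          ((map_ne_zero_iff _ (IsFractionRing.injective R K)).mpr hℓ.ne_zero)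
      set y : F := (algebraMap R F ℓ)⁻¹ * (s : F) with hy
      have hℓy : ℓ • y = (s : F) := by
        rw [hy, Algebra.smul_def, ← mul_assoc, mul_inv_cancel₀ hℓ0, one_mul]
      have hy' : d' • y = ((∑ i, algebraMap R A (c' i) * b i : A) : F) := by
        apply mul_left_cancel₀ hℓ0
        rw [← Algebra.smul_def, ← Algebra.smul_def, smul_comm, hℓy, h,
          AddSubmonoidClass.coe_finsetSum, Finset.smul_sum]
        exact Finset.sum_congr rfl fun i _ => by
          rw [hc' i, mul_smul]; simp only [Algebra.smul_def]; rfl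
      have hsum : IsIntegral R (d' • y) := by
        rw [hy']
        rw [AddSubmonoidClass.coe_finsetSum]
        exact IsIntegral.sum _ fun i _ => isIntegral_algebraMap.mul (hbint i)
      have hyint : IsIntegral R y :=
        isIntegral_of_smul_of_smul K hℓ hd' (by rw [hℓy]; exact s.2) hsum
      refine Ideal.mem_span_singleton.mpr ⟨⟨y, hyint⟩, Subtype.ext ?_⟩
      show (s : F) = algebraMap R F ℓ * y
      rw [← hℓy, Algebra.smul_def]
    · rw [Ideal.span_singleton_le_iff_mem, RingHom.mem_ker]
      refine hcancel (algebraMap R A ℓ) _ 1 0 (fun h => hℓ.not_isUnit (isUnit_of_dvd_one h)) ?_ ?_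
      · rw [one_smul]; rfl
      · rw [mul_zero, hψℓ]

end Fermat.Agent.Igusa.NormalReduction
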