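import Fermat.Agent.Igusa.Base

/-!
Saturation of a chart: the elements have `ℤ_(ℓ)`-integral `q`-expansions and the ones that
vanish modulo `ℓ` are divisible by `ℓ` in the chart.
-/

set_option autoImplicit false

noncomputable section

open ModularCurve ModularCurve.IgusaScheme

namespace Fermat.Agent.Igusa

/-- Every element of the chart has an integral expansion, and the chart is `ℓ`-saturated in the
ring of integral expansions. -/
def ChartSaturated (N ℓ : ℕ) [NeZero N] [Fact ℓ.Prime]
    (S : Set ↥(modularFunctionFieldFull N)) : Prop :=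
  ∀ x : chartAlg N ℓ S, ∃ y : LaurentSeries ↥(GaloisRep.ratLocalizedAt ℓ),
    coeffMap (algebraMap ↥(GaloisRep.ratLocalizedAt ℓ) ℚ) y =
        ((x : ↥(modularFunctionFieldFull N)) : LaurentSeries ℚ) ∧
      ((∀ i, (ℓ : ↥(GaloisRep.ratLocalizedAt ℓ)) ∣ y.coeff i) →
        ∃ z : chartAlg N ℓ S, x = (ℓ : chartAlg N ℓ S) * z)

end Fermat.Agent.Igusa
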