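import Mathlib
import Fermat.Prelude.Def_ModularCurve_LaurentCoeff
import Fermat.Agent.Igusa.NormalReduction

/-!
# The saturation argument, abstractly

`Z` is a principal ideal domain with fraction field `Q`, `ℓ` a prime of `Z`, `π : Z → k` a map to a
field killing `ℓ`, and `φ₀ : Z[X] → Z((q))`.  If finitely many series `b i` are integral over
`Z[X]` and have reductions independent over `Z[X]/ℓ`, then every element `x` of `Q((q))` that is
integral over `Z[X]` and lies in the fraction-span of the `b i` has coefficients in `Z`, and if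
these are all divisible by `ℓ` then `x / ℓ` is integral too.
-/

set_option autoImplicit false

noncomputable section

open Polynomial ModularCurve

namespace Fermat.Agent.Igusa.SaturationCore

theorem isIntegrallyClosed_laurentSeries (Z : Type*) [CommRing Z] [IsDomain Z]
    [IsPrincipalIdealRing Z] : IsIntegrallyClosed (LaurentSeries Z) :=
  isIntegrallyClosed_of_isLocalization (R := PowerSeries Z) (LaurentSeries Z)
    (Submonoid.powers (PowerSeries.X : PowerSeries Z))
    (powers_le_nonZeroDivisors_of_noZeroDivisors PowerSeries.X_ne_zero)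

/-- An element of a field that is integral over an integrally closed subring and is a quotient of
two of its elements lies in it. -/
theorem exists_map_eq_of_isIntegralElem {R F : Type*} [CommRing R] [IsDomain R]
    [IsIntegrallyClosed R] [Field F] {g : R →+* F} (hg : Function.Injective g) {x : F} {a d : R}
    (hd : d ≠ 0) (h : g d * x = g a) (hx : g.IsIntegralElem x) : ∃ y, g y = x := by
  let f : FractionRing R →+* F := IsFractionRing.lift hg
  have hgd : g d ≠ 0 := (map_ne_zero_iff _ hg).mpr hd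
  have hf : f.comp (algebraMap R (FractionRing R)) = g :=
    RingHom.ext fun z => IsFractionRing.lift_algebraMap hg z
  have hfe : f (algebraMap R (FractionRing R) a / algebraMap R (FractionRing R) d) = x := by
    rw [map_div₀, ← RingHom.comp_apply, ← RingHom.comp_apply, hf, ← h, mul_div_cancel_left₀ _ hgd]
  obtain ⟨p, hpm, hp⟩ := hx
  have hint : IsIntegral R (algebraMap R (FractionRing R) a / algebraMap R (FractionRing R) d) := by
    refine ⟨p, hpm, f.injective ?_⟩
    rw [hom_eval₂, map_zero, hfe, hf, hp]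
  obtain ⟨y, hy⟩ := IsIntegrallyClosed.isIntegral_iff.mp hint
  exact ⟨y, by rw [← hfe, ← hy, ← RingHom.comp_apply, hf]⟩

variable {Z : Type*} [CommRing Z] [IsDomain Z]
variable {Q : Type*} [Field Q] [Algebra Z Q] [IsFractionRing Z Q]
variable {k : Type*} [Field k] (π : Z →+* k)
variable (φ₀ : Z[X] →+* LaurentSeries Z)

variable (Q) in
/-- Laurent series with coefficients in `Z`, read in the fraction field. -/
abbrev toQ : LaurentSeries Z →+* LaurentSeries Q :=
  coeffMap (algebraMap Z Q)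

variable (Q) in
theorem toQ_injective : Function.Injective (toQ (Z := Z) Q) := fun x y h => by
  ext i
  exact IsFractionRing.injective Z Q
    (by simpa using congrArg (fun z : LaurentSeries Q => z.coeff i) h)

variable {π φ₀}

theorem red_eq_zero_of_eq_mul {l : Z[X]} (hl : coeffMap π (φ₀ l) = 0) {a : LaurentSeries Z}
    {w : LaurentSeries Q} (hw : ((toQ Q).comp φ₀).IsIntegralElem w)
    (h : toQ Q a = toQ Q (φ₀ l) * w) : coeffMap π a = 0 := by
  obtain ⟨p, hpm, hp⟩ := hw
  have h1 : eval₂ φ₀ a (p.scaleRoots l) = 0 := by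
    apply toQ_injective (Z := Z) Q
    rw [map_zero, hom_eval₂, h]
    exact scaleRoots_eval₂_eq_zero ((toQ Q).comp φ₀) hp
  have h2 : eval₂ ((coeffMap π).comp φ₀) (coeffMap π a) (p.scaleRoots l) = 0 := by
    rw [← hom_eval₂, h1, map_zero]
  rw [eval₂_eq_sum_range, natDegree_scaleRoots, Finset.sum_range_succ,
    coeff_scaleRoots_natDegree, hpm.leadingCoeff, map_one, one_mul,
    Finset.sum_eq_zero, zero_add] at h2
  · exact eq_zero_of_pow_eq_zero h2
  · intro i hi
    rw [Finset.mem_range] at hi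
    rw [coeff_scaleRoots, map_mul, map_pow, RingHom.comp_apply, RingHom.comp_apply, hl,
      zero_pow (by omega), mul_zero, zero_mul]

variable {n : ℕ} {ℓ : Z} {b : Fin n → LaurentSeries Z}

theorem exists_primitive [UniqueFactorizationMonoid Z] (hℓ : Prime ℓ)
    (hl : coeffMap π (φ₀ (C ℓ)) = 0) (hinj : Function.Injective φ₀)
    (hind : ∀ c : Fin n → Z[X], coeffMap π (∑ i, φ₀ (c i) * b i) = 0 → ∀ i, C ℓ ∣ c i)
    {x : LaurentSeries Q} (hx : ((toQ Q).comp φ₀).IsIntegralElem x)
    (hgen : ∃ (d : Z[X]) (c : Fin n → Z[X]), d ≠ 0 ∧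
      toQ Q (φ₀ d) * x = toQ Q (∑ i, φ₀ (c i) * b i)) :
    ∃ (d : Z[X]) (c : Fin n → Z[X]), ¬ C ℓ ∣ d ∧
      toQ Q (φ₀ d) * x = toQ Q (∑ i, φ₀ (c i) * b i) := by
  have hCℓ : Prime (C ℓ) := prime_C_iff.mpr hℓ
  obtain ⟨d, c, hd, hds⟩ := hgen
  obtain ⟨m, d', hd', rfl⟩ := WfDvdMonoid.max_power_factor hd hCℓ.irreducible
  clear hd
  induction m generalizing c with
  | zero => exact ⟨d', c, hd', by simpa using hds⟩
  | succ m ih =>
    rw [pow_succ', mul_assoc, map_mul, map_mul, mul_assoc] at hds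
    have hz : coeffMap π (∑ i, φ₀ (c i) * b i) = 0 :=
      red_eq_zero_of_eq_mul hl (RingHom.IsIntegralElem.mul _
        ((toQ Q).comp φ₀).isIntegralElem_map hx) hds.symm
    choose c' hc' using hind c hz
    refine ih c' (mul_left_cancel₀ ?_ (hds.trans ?_))
    · exact (map_ne_zero_iff _ (toQ_injective (Z := Z) Q)).mpr ((map_ne_zero_iff _ hinj).mpr hCℓ.ne_zero)
    · rw [← map_mul, Finset.mul_sum]
      simp only [hc', map_mul, mul_assoc]

theorem exists_series [IsPrincipalIdealRing Z] (hinj : Function.Injective φ₀) {d : Z[X]}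
    (hd : d ≠ 0) {x : LaurentSeries Q} (hx : ((toQ Q).comp φ₀).IsIntegralElem x)
    {a : LaurentSeries Z} (hda : toQ Q (φ₀ d) * x = toQ Q a) :
    ∃ y : LaurentSeries Z, toQ Q y = x := by
  have := isIntegrallyClosed_laurentSeries Z
  obtain ⟨p, hpm, hp⟩ := hx
  refine exists_map_eq_of_isIntegralElem (toQ_injective (Z := Z) Q)
    ((map_ne_zero_iff _ hinj).mpr hd) hda ⟨p.map φ₀, hpm.map _, ?_⟩
  rw [eval₂_map]
  exact hp

/-- The saturation statement. -/
theorem saturated [IsPrincipalIdealRing Z] (hℓ : Prime ℓ) (hπ : π ℓ = 0)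
    (hl : coeffMap π (φ₀ (C ℓ)) = 0) (hinj : Function.Injective φ₀)
    (hb : ∀ i, ((toQ Q).comp φ₀).IsIntegralElem (toQ Q (b i)))
    (hind : ∀ c : Fin n → Z[X], coeffMap π (∑ i, φ₀ (c i) * b i) = 0 → ∀ i, C ℓ ∣ c i)
    {x : LaurentSeries Q} (hx : ((toQ Q).comp φ₀).IsIntegralElem x)
    (hgen : ∃ (d : Z[X]) (c : Fin n → Z[X]), d ≠ 0 ∧
      toQ Q (φ₀ d) * x = toQ Q (∑ i, φ₀ (c i) * b i)) :
    ∃ y : LaurentSeries Z, toQ Q y = x ∧ ((∀ i, ℓ ∣ y.coeff i) →
      ∃ w, ((toQ Q).comp φ₀).IsIntegralElem w ∧ toQ Q (φ₀ (C ℓ)) * w = x) := by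
  have hCℓ : Prime (C ℓ) := prime_C_iff.mpr hℓ
  obtain ⟨d, c, hd, hdx⟩ := exists_primitive hℓ hl hinj hind hx hgen
  have hd0 : d ≠ 0 := fun h => hd (h ▸ dvd_zero _)
  obtain ⟨y, hy⟩ := exists_series hinj hd0 hx hdx
  refine ⟨y, hy, fun hdvd => ?_⟩
  have hy0 : coeffMap π y = 0 := by
    ext i
    obtain ⟨m, hm⟩ := hdvd i
    simp [hm, hπ]
  have hz : coeffMap π (∑ i, φ₀ (c i) * b i) = 0 := by
    have h : φ₀ d * y = ∑ i, φ₀ (c i) * b i := toQ_injective (Z := Z) Q (by rw [map_mul, hy, hdx])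
    rw [← h, map_mul, hy0, mul_zero]
  choose c' hc' using hind c hz
  set L := toQ Q (φ₀ (C ℓ)) with hL
  have hL0 : L ≠ 0 :=
    (map_ne_zero_iff _ (toQ_injective (Z := Z) Q)).mpr ((map_ne_zero_iff _ hinj).mpr hCℓ.ne_zero)
  set w := L⁻¹ * x with hw
  have hLw : L * w = x := by rw [hw, ← mul_assoc, mul_inv_cancel₀ hL0, one_mul]
  refine ⟨w, ?_, hLw⟩
  have hdw : toQ Q (φ₀ d) * w = ∑ i, toQ Q (φ₀ (c' i)) * toQ Q (b i) := by
    apply mul_left_cancel₀ hL0
    rw [← mul_assoc, mul_comm L, mul_assoc, hLw, hdx, map_sum, Finset.mul_sum]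
    simp only [hc', map_mul, mul_assoc, hL]
  let _ : Algebra Z[X] (LaurentSeries Q) := ((toQ Q).comp φ₀).toAlgebra
  have hfaith : FaithfulSMul Z[X] (LaurentSeries Q) :=
    (faithfulSMul_iff_algebraMap_injective _ _).mpr ((toQ_injective (Z := Z) Q).comp hinj)
  let _ := FractionRing.liftAlgebra Z[X] (LaurentSeries Q)
  refine NormalReduction.isIntegral_of_smul_of_smul (R := Z[X]) (FractionRing Z[X]) hCℓ hd
    (y := w) ?_ ?_
  · rw [Algebra.smul_def]
    exact (show ((toQ Q).comp φ₀).IsIntegralElem (L * w) by rw [hLw]; exact hx)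
  · rw [Algebra.smul_def]
    show IsIntegral Z[X] (toQ Q (φ₀ d) * w)
    rw [hdw]
    exact IsIntegral.sum _ fun i _ => isIntegral_algebraMap.mul (hb i)

end Fermat.Agent.Igusa.SaturationCore
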