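import Fermat.Agent.Igusa.UnitPolyData
import Fermat.Agent.Igusa.Saturated
import Fermat.Agent.Igusa.Descent
import Fermat.Agent.Igusa.SaturationCore

/-!
`UnitPolyData` implies saturation of both charts.
-/

set_option autoImplicit false

noncomputable section

open ModularCurve ModularCurve.IgusaScheme Polynomial

namespace Fermat.Agent.Igusa

/-- The series of `1 / j`. -/
def jInvSeries (R : Type*) [CommRing R] : LaurentSeries R :=
  HahnSeries.single 1 1 *
    HahnSeries.ofPowerSeries ℤ R ((jNum.invOfUnit 1).map (Int.castRingHom R))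

theorem jqModC_mul_jInvSeries (R : Type*) [CommRing R] : jqModC R * jInvSeries R = 1 := by
  rw [jqModC, jInvSeries, mul_mul_mul_comm, HahnSeries.single_mul_single, ← map_mul, ← map_mul,
    PowerSeries.mul_invOfUnit _ _ (by rw [constantCoeff_jNum]; rfl)]
  simp

theorem jInvSeries_mul_jqModC (R : Type*) [CommRing R] : jInvSeries R * jqModC R = 1 := by
  rw [mul_comm, jqModC_mul_jInvSeries]

theorem coeffMap_jInvSeries {R S : Type*} [CommRing R] [CommRing S] (f : R →+* S) :
    coeffMap f (jInvSeries R) = jInvSeries S := by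
  calc coeffMap f (jInvSeries R)
      = coeffMap f (jInvSeries R) * (jqModC S * jInvSeries S) := by
        rw [jqModC_mul_jInvSeries, mul_one]
    _ = coeffMap f (jInvSeries R * jqModC R) * jInvSeries S := by
        rw [map_mul, coeffMap_jqModC, mul_assoc]
    _ = jInvSeries S := by rw [jInvSeries_mul_jqModC, map_one, one_mul]

/-- Reversal of a polynomial evaluated at an inverse. -/
theorem eval₂_reflect_of_mul_eq_one {R L : Type*} [CommRing R] [CommRing L] (f : R →+* L)
    {a b : L} (hab : a * b = 1) {p : R[X]} {M : ℕ} (hp : p.natDegree ≤ M) :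
    (p.reflect M).eval₂ f b = p.eval₂ f a * b ^ M := by
  let _ : Invertible a := invertibleOfRightInverse a b hab
  have h := eval₂_reflect_mul_pow f a M p hp
  have hb : (⅟a : L) = b := rfl
  rw [hb] at h
  rw [← h, mul_assoc, ← mul_pow, hab, one_pow, mul_one]

theorem coeffMap_eval₂_C {R S : Type*} [CommRing R] [CommRing S] (f : R →+* S)
    (s : LaurentSeries R) (p : R[X]) :
    coeffMap f (p.eval₂ HahnSeries.C s) = (p.map f).eval₂ HahnSeries.C (coeffMap f s) := by
  rw [hom_eval₂, eval₂_map]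
  congr 1
  exact RingHom.ext fun r => coeffMap_C f r

theorem evalJU_sum {R : Type*} [CommRing R] (u : LaurentSeries R) {n : ℕ} (c : Fin n → R[X]) :
    evalJU u (∑ i, C (c i) * X ^ (i : ℕ)) =
      ∑ i, (c i).eval₂ HahnSeries.C (jqModC R) * u ^ (i : ℕ) := by
  simp [map_sum]

theorem exists_sum_eq_evalJU {R : Type*} [CommRing R] [Nontrivial R] (u : LaurentSeries R)
    {P : R[X][X]} (hP : P.Monic) {n : ℕ} (hn : P.natDegree = n) (hn0 : 0 < n)
    (hu : evalJU u P = 0) (Q : R[X][X]) :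
    ∃ c : Fin n → R[X], evalJU u Q = ∑ i, (c i).eval₂ HahnSeries.C (jqModC R) * u ^ (i : ℕ) := by
  refine ⟨fun i => (Q %ₘ P).coeff i, ?_⟩
  have hP1 : P ≠ 1 := fun h => by simp [h] at hn; omega
  conv_lhs => rw [← modByMonic_add_div Q P, map_add, map_mul, hu, zero_mul, add_zero, evalJU,
    coe_eval₂RingHom,
    eval₂_eq_sum_range' _ (lt_of_lt_of_eq (natDegree_modByMonic_lt Q hP hP1) hn)]
  rw [← Fin.sum_univ_eq_sum_range]
  rfl

variable {N ℓ : ℕ} [NeZero N] [Fact ℓ.Prime]

set_option quotPrecheck false in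
local notation "Zl" => ↥(GaloisRep.ratLocalizedAt ℓ)

theorem C_natCast_dvd_of_map_eq_zero {p : (Zl)[X]} (h : p.map (redMod ℓ) = 0) :
    C (ℓ : Zl) ∣ p :=
  (C_dvd_iff_dvd_coeff _ _).mpr fun i => (redMod_eq_zero_iff ℓ _).mp (by
    rw [← coeff_map, h, coeff_zero])

/-- Saturation of the chart of a single element `s`, given an integral series `s₀` for `s` and a
series `v` integral over `ℤ_(ℓ)[s]` whose powers span and are independent modulo `ℓ`. -/
theorem chartSaturated_of (s : ↥(modularFunctionFieldFull N)) (s₀ v : LaurentSeries Zl) (n : ℕ)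
    (hs : coeffMap (algebraMap Zl ℚ) s₀ = (s : LaurentSeries ℚ))
    (hinj : Function.Injective (eval₂RingHom (HahnSeries.C : Zl →+* LaurentSeries Zl) s₀))
    (hv : ((coeffMap (algebraMap Zl ℚ)).comp (eval₂RingHom HahnSeries.C s₀)).IsIntegralElem
      (coeffMap (algebraMap Zl ℚ) v))
    (hind : ∀ c : Fin n → (Zl)[X],
      ∑ i, ((c i).map (redMod ℓ)).eval₂ HahnSeries.C (coeffMap (redMod ℓ) s₀) *
        coeffMap (redMod ℓ) v ^ (i : ℕ) = 0 → ∀ i, (c i).map (redMod ℓ) = 0)
    (hgen : ∀ x ∈ modularFunctionFieldFull N, ∃ (d : (Zl)[X]) (c : Fin n → (Zl)[X]), d ≠ 0 ∧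
      coeffMap (algebraMap Zl ℚ) (d.eval₂ HahnSeries.C s₀) * x =
        coeffMap (algebraMap Zl ℚ) (∑ i, (c i).eval₂ HahnSeries.C s₀ * v ^ (i : ℕ))) :
    ChartSaturated N ℓ {s} := by
  intro x
  set φ₀ := eval₂RingHom (HahnSeries.C : Zl →+* LaurentSeries Zl) s₀ with hφ₀
  set φ := (coeffMap (algebraMap Zl ℚ)).comp φ₀ with hφ
  set A := Algebra.adjoin Zl ({s} : Set ↥(modularFunctionFieldFull N)) with hA
  let g : (Zl)[X] →+* ↥A := (Polynomial.aeval
    (⟨s, Algebra.subset_adjoin rfl⟩ : ↥A)).toRingHom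
  let e : ↥A →+* LaurentSeries ℚ :=
    (modularFunctionFieldFull N).toSubfield.subtype.comp A.val.toRingHom
  have hge : e.comp g = φ := by
    refine Polynomial.ringHom_ext (fun a => ?_) ?_
    · show e (g (C a)) = coeffMap (algebraMap Zl ℚ) (φ₀ (C a))
      rw [hφ₀, coe_eval₂RingHom, eval₂_C, coeffMap_C, HahnSeries.C_apply,
        ← algebraMap_laurentSeries_eq_single]
      simp only [g, AlgHom.toRingHom_eq_coe, RingHom.coe_coe, aeval_C]
      exact RingHom.congr_fun (Subsingleton.elim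
        ((modularFunctionFieldFull N).toSubfield.subtype.comp
          (algebraMap ℚ ↥(modularFunctionFieldFull N))) (algebraMap ℚ (LaurentSeries ℚ)))
        (algebraMap Zl ℚ a)
    · simp [e, g, hφ, hφ₀, hs]
      rfl
  have hg : Function.Surjective g := by
    rintro ⟨y, hy⟩
    rw [hA, Algebra.adjoin_singleton_eq_range_aeval] at hy
    obtain ⟨p, rfl⟩ := hy
    refine ⟨p, Subtype.ext ?_⟩
    show A.val (aeval _ p) = _
    rw [← aeval_algHom_apply]
    rfl
  have hx : φ.IsIntegralElem ((x : ↥(modularFunctionFieldFull N)) : LaurentSeries ℚ) := by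
    obtain ⟨p, hpm, hp⟩ := (mem_chartAlg_iff N ℓ).mp x.2
    obtain ⟨p', hp', -, hp'm⟩ :=
      lifts_and_degree_eq_and_monic ((mem_lifts p).mpr (map_surjective g hg p)) hpm
    refine ⟨p', hp'm, ?_⟩
    rw [← hge, ← eval₂_map, hp']
    have h := congrArg (fun z : ↥(modularFunctionFieldFull N) => (z : LaurentSeries ℚ)) hp
    simp only [ZeroMemClass.coe_zero] at h
    rw [← h]
    exact (hom_eval₂ p A.val.toRingHom (modularFunctionFieldFull N).toSubfield.subtype _).symm
  have hℓC : φ₀ (C (ℓ : Zl)) = (ℓ : LaurentSeries Zl) := by simp [hφ₀]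
  obtain ⟨y, hy, hdiv⟩ := SaturationCore.saturated (Q := ℚ) (π := redMod ℓ) (φ₀ := φ₀)
    (b := fun i : Fin n => v ^ (i : ℕ)) (prime_natCast_zl ℓ) (redMod_natCast_self ℓ)
    (by rw [hℓC, map_natCast, ← map_natCast (HahnSeries.C : ZMod ℓ →+* LaurentSeries (ZMod ℓ)),
      ZMod.natCast_self, map_zero])
    hinj
    (fun i => by
      rw [map_pow]
      let _ : Algebra (Zl)[X] (LaurentSeries ℚ) := φ.toAlgebra
      exact IsIntegral.pow hv _)
    (fun c hc i => C_natCast_dvd_of_map_eq_zero (hind c (by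
      rw [map_sum] at hc
      simpa [map_mul, map_pow, hφ₀, coeffMap_eval₂_C] using hc) i))
    hx (hgen _ (x : ↥(modularFunctionFieldFull N)).2)
  refine ⟨y, hy, fun hd => ?_⟩
  obtain ⟨w, hw, hwx⟩ := hdiv hd
  rw [SaturationCore.toQ, hℓC, map_natCast] at hwx
  set z : ↥(modularFunctionFieldFull N) := (x : ↥(modularFunctionFieldFull N)) / (ℓ : ℕ) with hz
  have hℓ0 : (ℓ : LaurentSeries ℚ) ≠ 0 := by
    rw [← map_natCast (HahnSeries.C : ℚ →+* LaurentSeries ℚ)]
    exact (_root_.map_ne_zero _).mpr (Nat.cast_ne_zero.mpr (Fact.out : ℓ.Prime).ne_zero)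
  have hzw : (z : LaurentSeries ℚ) = w := by
    rw [hz]
    push_cast
    rw [← hwx, mul_div_cancel_left₀ _ hℓ0]
  obtain ⟨p, hpm, hp⟩ := hw
  have hzmem : z ∈ chartAlg N ℓ {s} := by
    refine (mem_chartAlg_iff N ℓ).mpr ⟨p.map g, hpm.map g, Subtype.ext ?_⟩
    rw [eval₂_map, ZeroMemClass.coe_zero, ← hp]
    refine (hom_eval₂ p _ (modularFunctionFieldFull N).toSubfield.subtype z).trans ?_
    congr 1
  refine ⟨⟨z, hzmem⟩, Subtype.ext ?_⟩
  show (x : ↥(modularFunctionFieldFull N)) = ((ℓ : chartAlg N ℓ {s}) : ↥(modularFunctionFieldFull N)) * z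
  apply Subtype.coe_injective
  push_cast
  rw [hzw, hwx]

theorem chartSaturated_fin (D : UnitPolyData N ℓ) : ChartSaturated N ℓ {jFull N} := by
  refine chartSaturated_of (jFull N) (jqModC Zl) (castSeries Zl D.u) D.n ?_
    (eval₂_jqModC_injective Zl) ?_ ?_ ?_
  · rw [coeffMap_jqModC, coe_jFull]; rfl
  · refine ⟨D.poly, D.poly_monic, ?_⟩
    rw [← hom_eval₂]
    show coeffMap _ (evalJU (castSeries Zl D.u) D.poly) = 0
    rw [D.evalJU_poly, map_zero]
  · intro c hc i
    rw [coeffMap_jqModC, coeffMap_castSeries, ← evalJU_sum] at hc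
    have h := D.eq_zero_of_evalJU_zmod ?_ hc
    · simpa [coeff_C_mul_X_pow, Fin.val_inj] using congrArg (fun p => p.coeff (i : ℕ)) h
    · rcases eq_or_ne (∑ i, C ((c i).map (redMod ℓ)) * X ^ (i : ℕ)) 0 with h | h
      · rw [h, natDegree_zero]; exact D.n_pos
      · exact (natDegree_lt_iff_degree_lt h).mpr (degree_sum_fin_lt _)
  · intro x hx
    obtain ⟨d, Q, hd, h⟩ := D.isSpanned_of_mem hx
    obtain ⟨c, hc⟩ := exists_sum_eq_evalJU _ D.poly_monic D.natDegree_poly D.n_pos D.evalJU_poly Q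
    refine ⟨d, c, hd, ?_⟩
    rwa [evalJU_C, hc] at h

theorem chartSaturated_inf (D : UnitPolyData N ℓ) : ChartSaturated N ℓ {(jFull N)⁻¹} := by
  have hinvL : ∀ (R : Type) [CommRing R], jqModC R * jInvSeries R = 1 :=
    fun R _ => jqModC_mul_jInvSeries R
  refine chartSaturated_of (jFull N)⁻¹ (jInvSeries Zl)
    (castSeries Zl D.u * jInvSeries Zl ^ D.W) D.n ?_ ?_ ?_ ?_ ?_
  · push_cast
    rw [coeffMap_jInvSeries, coe_jFull]
    exact (inv_eq_of_mul_eq_one_right (jqModC_mul_jInvSeries ℚ)).symm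
  · rw [injective_iff_map_eq_zero]
    intro p hp
    rw [coe_eval₂RingHom] at hp
    have h := eval₂_reflect_of_mul_eq_one HahnSeries.C (jInvSeries_mul_jqModC Zl)
      (p := p) (M := p.natDegree) le_rfl
    rw [hp, zero_mul] at h
    exact reflect_eq_zero_iff.mp (eval₂_jqModC_injective Zl (h.trans (map_zero _).symm))
  · refine ⟨∑ i ∈ Finset.range (D.n + 1),
      C ((D.poly.coeff i).reflect ((D.n - i) * D.W)) * X ^ i, ?_, ?_⟩
    · refine monic_of_natDegree_le_of_coeff_eq_one D.n (natDegree_sum_le_of_forall_le _ _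
        fun i hi => (natDegree_C_mul_X_pow_le _ _).trans
          (Nat.lt_succ_iff.mp (Finset.mem_range.mp hi))) ?_
      rw [finsetSum_coeff, Finset.sum_eq_single D.n]
      · rw [coeff_C_mul_X_pow, if_pos rfl, Nat.sub_self, zero_mul, ← D.natDegree_poly,
          D.poly_monic.coeff_natDegree, reflect_one]
        simp
      · intro i _ hi; rw [coeff_C_mul_X_pow, if_neg (Ne.symm hi)]
      · intro h; simp at h
    · rw [← hom_eval₂]
      refine (congrArg (coeffMap (algebraMap Zl ℚ)) ?_).trans (map_zero _)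
      have h0 := congrArg (fun z => z * jInvSeries Zl ^ (D.n * D.W)) D.evalJU_poly
      simp only [zero_mul, evalJU, coe_eval₂RingHom] at h0
      rw [eval₂_eq_sum_range, D.natDegree_poly, Finset.sum_mul] at h0
      rw [← h0, eval₂_finsetSum]
      refine Finset.sum_congr rfl fun i hi => ?_
      rw [eval₂_mul, eval₂_C, eval₂_X_pow, coe_eval₂RingHom,
        eval₂_reflect_of_mul_eq_one HahnSeries.C (jqModC_mul_jInvSeries Zl)
          (D.natDegree_coeff_poly_le i), coe_eval₂RingHom, mul_pow, ← pow_mul]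
      have hin : i ≤ D.n := Nat.lt_succ_iff.mp (Finset.mem_range.mp hi)
      have hexp : (D.n - i) * D.W + D.W * i = D.n * D.W := by
        rw [mul_comm D.W i, ← add_mul, Nat.sub_add_cancel hin]
      rw [← hexp, pow_add]
      ring
  · intro c hc
    set k := ZMod ℓ with hk
    set E := ∑ i, ((c i).map (redMod ℓ)).natDegree + D.n * D.W with hE
    have hEi : ∀ i : Fin D.n,
        ((c i).map (redMod ℓ)).natDegree ≤ E - i * D.W ∧ (i : ℕ) * D.W ≤ E := fun i => by
      have h1 : ((c i).map (redMod ℓ)).natDegree ≤ ∑ i, ((c i).map (redMod ℓ)).natDegree :=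
        Finset.single_le_sum (f := fun i => ((c i).map (redMod ℓ)).natDegree)
          (fun _ _ => Nat.zero_le _) (Finset.mem_univ i)
      have h2 : (i : ℕ) * D.W ≤ D.n * D.W := Nat.mul_le_mul_right _ i.2.le
      omega
    have hsum : ∑ i, (((c i).map (redMod ℓ)).reflect (E - i * D.W)).eval₂ HahnSeries.C
        (jqModC (ZMod ℓ)) * castSeries (ZMod ℓ) D.u ^ (i : ℕ) = 0 := by
      have h := congrArg (fun z => z * jqModC (ZMod ℓ) ^ E) hc
      simp only [zero_mul, Finset.sum_mul] at h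
      rw [← h]
      refine Finset.sum_congr rfl fun i _ => ?_
      rw [eval₂_reflect_of_mul_eq_one HahnSeries.C (jInvSeries_mul_jqModC (ZMod ℓ)) (hEi i).1,
        map_mul, map_pow, coeffMap_jInvSeries, coeffMap_castSeries, mul_pow, ← pow_mul]
      have hexp : D.W * (i : ℕ) + (E - i * D.W) = E := by
        have := (hEi i).2
        rw [mul_comm]; omega
      conv_rhs => rw [← hexp, pow_add]
      calc _ = eval₂ HahnSeries.C (jInvSeries (ZMod ℓ)) ((c i).map (redMod ℓ)) *
            castSeries (ZMod ℓ) D.u ^ (i : ℕ) *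
            (jInvSeries (ZMod ℓ) * jqModC (ZMod ℓ)) ^ (D.W * (i : ℕ)) *
            jqModC (ZMod ℓ) ^ (E - i * D.W) := by
              rw [jInvSeries_mul_jqModC, one_pow]; ring
        _ = _ := by rw [mul_pow]; ring
    rw [← evalJU_sum] at hsum
    have h := D.eq_zero_of_evalJU_zmod ?_ hsum
    · intro i
      refine (reflect_eq_zero_iff (N := E - i * D.W)).mp ?_
      simpa [coeff_C_mul_X_pow, Fin.val_inj] using congrArg (fun p => p.coeff (i : ℕ)) h
    · rcases eq_or_ne (∑ i : Fin D.n,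
        C (((c i).map (redMod ℓ)).reflect (E - i * D.W)) * X ^ (i : ℕ)) 0 with h | h
      · rw [h, natDegree_zero]; exact D.n_pos
      · exact (natDegree_lt_iff_degree_lt h).mpr (degree_sum_fin_lt _)
  · intro x hx
    obtain ⟨d, Q, hd, h⟩ := D.isSpanned_of_mem hx
    obtain ⟨c, hc⟩ := exists_sum_eq_evalJU _ D.poly_monic D.natDegree_poly D.n_pos D.evalJU_poly Q
    rw [evalJU_C, hc] at h
    set E := d.natDegree + ∑ i, (c i).natDegree + D.n * D.W with hE
    have hEi : ∀ i : Fin D.n, (c i).natDegree ≤ E - i * D.W ∧ (i : ℕ) * D.W ≤ E := fun i => by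
      have h1 : (c i).natDegree ≤ ∑ i, (c i).natDegree :=
        Finset.single_le_sum (f := fun i => (c i).natDegree) (fun _ _ => Nat.zero_le _)
          (Finset.mem_univ i)
      have h2 : (i : ℕ) * D.W ≤ D.n * D.W := Nat.mul_le_mul_right _ i.2.le
      omega
    refine ⟨d.reflect E, fun i => (c i).reflect (E - i * D.W),
      fun h0 => hd (reflect_eq_zero_iff.mp h0), ?_⟩
    rw [eval₂_reflect_of_mul_eq_one HahnSeries.C (jqModC_mul_jInvSeries Zl) (by omega),
      map_mul, mul_right_comm, h, ← map_mul, Finset.sum_mul]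
    refine congrArg _ (Finset.sum_congr rfl fun i _ => ?_)
    rw [eval₂_reflect_of_mul_eq_one HahnSeries.C (jqModC_mul_jInvSeries Zl) (hEi i).1, mul_pow,
      ← pow_mul]
    have hexp : E - i * D.W + D.W * i = E := by
      have := (hEi i).2
      rw [mul_comm D.W]; omega
    conv_lhs => rw [← hexp, pow_add]
    ring

end Fermat.Agent.Igusa
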