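import Mathlib.AlgebraicGeometry.Properties
import Mathlib.AlgebraicGeometry.PullbackCarrier
import Mathlib.AlgebraicGeometry.Pullbacks

/-!
# Integrality of schemes from two charts

A scheme covered by two integral open subschemes that meet is integral; this is applied to a
base change of a scheme covered by two charts.
-/

set_option autoImplicit false

noncomputable section

universe u

open AlgebraicGeometry CategoryTheory CategoryTheory.Limits TopologicalSpace

namespace Fermat.Agent.Igusa

/-- Two integral open charts which cover and meet make a scheme integral. -/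
theorem isIntegral_of_two_charts {Y A B : Scheme.{u}} (a : A ⟶ Y) (b : B ⟶ Y)
    [IsOpenImmersion a] [IsOpenImmersion b]
    [AlgebraicGeometry.IsIntegral A] [AlgebraicGeometry.IsIntegral B]
    (hcov : ∀ y : Y, y ∈ Set.range a ∨ y ∈ Set.range b)
    (hmeet : (Set.range a ∩ Set.range b).Nonempty) : AlgebraicGeometry.IsIntegral Y := by
  have hred : AlgebraicGeometry.IsReduced Y := by
    have : ∀ y : Y, _root_.IsReduced (Y.presheaf.stalk y) := fun y => by
      rcases hcov y with ⟨x, rfl⟩ | ⟨x, rfl⟩
      · exact isReduced_of_injective _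
          (asIso <| a.stalkMap x).commRingCatIsoToRingEquiv.injective
      · exact isReduced_of_injective _
          (asIso <| b.stalkMap x).commRingCatIsoToRingEquiv.injective
    exact isReduced_of_isReduced_stalk _
  have hirr : ∀ {C : Scheme.{u}} (c : C ⟶ Y) [AlgebraicGeometry.IsIntegral C],
      IsPreirreducible (Set.range c) := fun {C} c _ => by
    rw [← Set.image_univ]
    exact (PreirreducibleSpace.isPreirreducible_univ (X := C)).image c c.continuous.continuousOn
  have ha : IsOpen (Set.range a) := a.isOpenEmbedding.isOpen_range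
  have hb : IsOpen (Set.range b) := b.isOpenEmbedding.isOpen_range
  have hI : IsPreirreducible (Set.range a ∩ Set.range b) :=
    (hirr a).open_subset (ha.inter hb) Set.inter_subset_left
  have huniv : closure (Set.range a ∩ Set.range b) = Set.univ := by
    refine Set.eq_univ_of_forall fun y => ?_
    rcases hcov y with h | h
    · exact subset_closure_inter_of_isPreirreducible_of_isOpen (hirr a) hb hmeet h
    · have := subset_closure_inter_of_isPreirreducible_of_isOpen (hirr b) ha
        (by rwa [Set.inter_comm]) h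
      rwa [Set.inter_comm] at this
  have hpre : PreirreducibleSpace Y := ⟨by rw [← huniv]; exact hI.closure⟩
  have : IrreducibleSpace Y :=
    { toPreirreducibleSpace := hpre, toNonempty := hmeet.to_type }
  exact isIntegral_of_irreducibleSpace_of_isReduced Y

/-- Base change of a scheme covered by two charts. -/
theorem isIntegral_pullback_of_two_charts {X Z T XA XB : Scheme.{u}} (ιA : XA ⟶ X)
    (ιB : XB ⟶ X) [IsOpenImmersion ιA] [IsOpenImmersion ιB] (g : X ⟶ Z) (f : T ⟶ Z)
    (gA : XA ⟶ Z) (gB : XB ⟶ Z) (hA : ιA ≫ g = gA) (hB : ιB ≫ g = gB)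
    (hcov : ∀ x : X, x ∈ Set.range ιA ∨ x ∈ Set.range ιB)
    [AlgebraicGeometry.IsIntegral (pullback gA f)] [AlgebraicGeometry.IsIntegral (pullback gB f)]
    {P : Scheme.{u}} [Nonempty P] (pA : P ⟶ XA) (pB : P ⟶ XB) (pT : P ⟶ T)
    (hPX : pA ≫ ιA = pB ≫ ιB) (hPZ : pA ≫ gA = pT ≫ f) :
    AlgebraicGeometry.IsIntegral (pullback g f) := by
  subst hA hB
  let a := pullback.map (ιA ≫ g) f g f ιA (𝟙 T) (𝟙 Z) (by simp) (by simp)
  let b := pullback.map (ιB ≫ g) f g f ιB (𝟙 T) (𝟙 Z) (by simp) (by simp)
  have hrange : ∀ {C : Scheme.{u}} (ι : C ⟶ X),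
      Set.range (pullback.map (ι ≫ g) f g f ι (𝟙 T) (𝟙 Z) (by simp) (by simp)) =
        pullback.fst g f ⁻¹' Set.range ι := fun {C} ι => by
    rw [AlgebraicGeometry.Scheme.Pullback.range_map]
    simp
  refine isIntegral_of_two_charts a b (fun y => ?_) ?_
  · simpa only [a, b, hrange, Set.mem_preimage] using hcov (pullback.fst g f y)
  · obtain ⟨p⟩ := (inferInstance : Nonempty P)
    let m := pullback.lift (f := g) (g := f) (pA ≫ ιA) pT (by rw [Category.assoc, hPZ])
    have hm : m ≫ pullback.fst g f = pA ≫ ιA := pullback.lift_fst _ _ _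
    have hx : pullback.fst g f (m p) = ιA (pA p) := by
      rw [← Scheme.Hom.comp_apply, hm, Scheme.Hom.comp_apply]
    have hx' : pullback.fst g f (m p) = ιB (pB p) := by
      rw [← Scheme.Hom.comp_apply, hm, hPX, Scheme.Hom.comp_apply]
    refine ⟨m p, ?_, ?_⟩
    · rw [hrange]; exact ⟨pA p, hx.symm⟩
    · rw [hrange]; exact ⟨pB p, hx'.symm⟩

end Fermat.Agent.Igusa
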