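import Fermat.Prelude.Def_GaloisRep_Flat
import Fermat.Prelude.Def_ModularCurve_LaurentCoeff
import Mathlib.RingTheory.TensorProduct.Basic
import Mathlib.LinearAlgebra.Basis.VectorSpace
import Mathlib.Algebra.Algebra.ZMod
import Mathlib.RingTheory.HahnSeries.Summable

/-!
# Base change of saturated rings of Laurent series to characteristic `ℓ`

Let `φ : B → (ℤ_(ℓ))((q))` be a map of `ℤ_(ℓ)`-algebras such that `φ b ≡ 0 mod ℓ` forces
`b ∈ ℓ B`.  Then `B ⊗ K → K((q))` is injective for every field `K` of characteristic `ℓ`,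
so `B ⊗ K` is a domain.
-/

set_option autoImplicit false

noncomputable section

open scoped TensorProduct

namespace Fermat.Agent.Igusa.BaseChange

variable {ℓ : ℕ} [hℓ : Fact ℓ.Prime]

variable {K : Type*} [Field K] [CharP K ℓ] [Algebra ↥(GaloisRep.ratLocalizedAt ℓ) K]

omit hℓ [CharP K ℓ] in
/-- The structure map sends an element of `ℤ_(ℓ)` to numerator over denominator. -/
theorem algebraMap_mul_den (r : ↥(GaloisRep.ratLocalizedAt ℓ)) :
    algebraMap ↥(GaloisRep.ratLocalizedAt ℓ) K r * ((r : ℚ).den : K) = ((r : ℚ).num : K) := by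
  rw [← map_natCast (algebraMap ↥(GaloisRep.ratLocalizedAt ℓ) K), ← map_intCast (algebraMap ↥(GaloisRep.ratLocalizedAt ℓ) K), ← map_mul]
  congr 1
  exact Subtype.ext (by push_cast; exact Rat.mul_den_eq_num _)

omit [Algebra ↥(GaloisRep.ratLocalizedAt ℓ) K] in
theorem den_cast_ne_zero (r : ↥(GaloisRep.ratLocalizedAt ℓ)) : ((r : ℚ).den : K) ≠ 0 := by
  rw [Ne, CharP.cast_eq_zero_iff K ℓ]
  intro h
  exact hℓ.out.ne_one (Nat.eq_one_of_dvd_coprimes r.2 h dvd_rfl)

/-- The value in `ZMod ℓ` of an element of `ℤ_(ℓ)`. -/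
def residue (r : ↥(GaloisRep.ratLocalizedAt ℓ)) : ZMod ℓ := ((r : ℚ).num : ZMod ℓ) / ((r : ℚ).den : ZMod ℓ)

theorem algebraMap_eq_residue (r : ↥(GaloisRep.ratLocalizedAt ℓ)) :
    algebraMap ↥(GaloisRep.ratLocalizedAt ℓ) K r = ZMod.castHom (dvd_refl ℓ) K (residue r) := by
  rw [residue, map_div₀, map_intCast, map_natCast, eq_div_iff (den_cast_ne_zero r)]
  exact algebraMap_mul_den r

omit hℓ in
/-- The kernel of `ℤ_(ℓ) → K` consists of multiples of `ℓ`. -/
theorem exists_eq_mul_of_algebraMap_eq_zero (r : ↥(GaloisRep.ratLocalizedAt ℓ)) (h : algebraMap ↥(GaloisRep.ratLocalizedAt ℓ) K r = 0) :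
    ∃ c : ↥(GaloisRep.ratLocalizedAt ℓ), r = (ℓ : ↥(GaloisRep.ratLocalizedAt ℓ)) * c := by
  have hn : ((r : ℚ).num : K) = 0 := by rw [← algebraMap_mul_den r, h, zero_mul]
  obtain ⟨m, hm⟩ := (CharP.intCast_eq_zero_iff K ℓ _).mp hn
  have hc : ((m : ℚ) / (r : ℚ).den) ∈ GaloisRep.ratLocalizedAt ℓ := by
    refine Nat.Coprime.coprime_dvd_left ?_ r.2
    have := Rat.den_dvd m ((r : ℚ).den : ℤ)
    rw [Rat.divInt_eq_div] at this
    exact_mod_cast this
  refine ⟨⟨_, hc⟩, Subtype.ext ?_⟩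
  push_cast
  conv_lhs => rw [← Rat.num_div_den (r : ℚ), hm]
  push_cast
  ring

variable {B : Type*} [CommRing B] [Algebra ↥(GaloisRep.ratLocalizedAt ℓ) B]

omit hℓ [CharP K ℓ] in
theorem tmul_natCast_smul (m : ℕ) (b : B) (v : K) :
    b ⊗ₜ[↥(GaloisRep.ratLocalizedAt ℓ)] ((m : ↥(GaloisRep.ratLocalizedAt ℓ)) • v) = ((m : ↥(GaloisRep.ratLocalizedAt ℓ)) • b) ⊗ₜ[↥(GaloisRep.ratLocalizedAt ℓ)] v :=
  (TensorProduct.smul_tmul (m : ↥(GaloisRep.ratLocalizedAt ℓ)) b v).symm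

omit [CharP K ℓ] in
/-- Every element of `B ⊗ K` is a combination of a basis of `K` over the prime field. -/
theorem exists_finsupp_tmul {ι : Type*} [Algebra (ZMod ℓ) K] (v : Module.Basis ι (ZMod ℓ) K)
    (z : B ⊗[↥(GaloisRep.ratLocalizedAt ℓ)] K) : ∃ f : ι →₀ B, z = f.sum fun i b => b ⊗ₜ[↥(GaloisRep.ratLocalizedAt ℓ)] v i := by
  classical
  induction z with
  | zero => exact ⟨0, by simp⟩
  | add x y hx hy =>
    obtain ⟨f, rfl⟩ := hx
    obtain ⟨g, rfl⟩ := hy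
    refine ⟨f + g, (Finsupp.sum_add_index' (h := fun i b => b ⊗ₜ[↥(GaloisRep.ratLocalizedAt ℓ)] v i)
      (fun i => TensorProduct.zero_tmul B (v i)) (fun i a b => TensorProduct.add_tmul a b (v i))).symm⟩
  | tmul b c =>
    refine ⟨(v.repr c).mapRange (fun a => ((a.val : ℕ) : ↥(GaloisRep.ratLocalizedAt ℓ)) • b) (by simp), ?_⟩
    rw [Finsupp.sum_mapRange_index (h := fun i b => b ⊗ₜ[↥(GaloisRep.ratLocalizedAt ℓ)] v i)
      (fun i => TensorProduct.zero_tmul B (v i))]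
    conv_lhs => rw [← v.linearCombination_repr c, Finsupp.linearCombination_apply]
    rw [Finsupp.sum, TensorProduct.tmul_sum, Finsupp.sum]
    refine Finset.sum_congr rfl fun i _ => ?_
    rw [← tmul_natCast_smul]
    congr 1
    rw [Algebra.smul_def, Algebra.smul_def, map_natCast, ← map_natCast (algebraMap (ZMod ℓ) K),
      ZMod.natCast_zmod_val]

/-- **Injectivity**: if divisibility by `ℓ` is detected on coefficients, then base change to a
field of characteristic `ℓ` stays inside the Laurent series over that field. -/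
theorem injective_of_coeffs (c : ℤ → B →ₗ[↥(GaloisRep.ratLocalizedAt ℓ)] ↥(GaloisRep.ratLocalizedAt ℓ))
    (hsat : ∀ b : B, (∀ k, ∃ a : ↥(GaloisRep.ratLocalizedAt ℓ), c k b = (ℓ : ↥(GaloisRep.ratLocalizedAt ℓ)) * a) → ∃ y : B, b = (ℓ : ↥(GaloisRep.ratLocalizedAt ℓ)) • y)
    {L : Type*} [CommRing L] [Algebra ↥(GaloisRep.ratLocalizedAt ℓ) L] (Φ : B ⊗[↥(GaloisRep.ratLocalizedAt ℓ)] K →ₐ[↥(GaloisRep.ratLocalizedAt ℓ)] L)
    (coeffL : ℤ → L →+ K)
    (hΦ : ∀ k (b : B) (x : K), coeffL k (Φ (b ⊗ₜ[↥(GaloisRep.ratLocalizedAt ℓ)] x)) = algebraMap ↥(GaloisRep.ratLocalizedAt ℓ) K (c k b) * x) :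
    Function.Injective Φ := by
  classical
  refine (injective_iff_map_eq_zero Φ).mpr fun z hz => ?_
  let : Algebra (ZMod ℓ) K := ZMod.algebra K ℓ
  let v := Module.Basis.ofVectorSpace (ZMod ℓ) K
  obtain ⟨f, rfl⟩ := exists_finsupp_tmul (B := B) v z
  refine Finset.sum_eq_zero fun i hi => ?_
  have hdiv : ∀ k, ∃ a : ↥(GaloisRep.ratLocalizedAt ℓ), c k (f i) = (ℓ : ↥(GaloisRep.ratLocalizedAt ℓ)) * a := by
    intro k
    have h0 : coeffL k (Φ (f.sum fun i b => b ⊗ₜ[↥(GaloisRep.ratLocalizedAt ℓ)] v i)) = 0 := by rw [hz, map_zero]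
    rw [Finsupp.sum, map_sum, map_sum] at h0
    simp only [hΦ, algebraMap_eq_residue] at h0
    have hcomb : ∑ j ∈ f.support, residue (c k (f j)) • v j = 0 := by
      rw [← h0]
      exact Finset.sum_congr rfl fun j _ => by rw [Algebra.smul_def]; rfl
    have hres := linearIndependent_iff'.mp v.linearIndependent _ _ hcomb i hi
    refine exists_eq_mul_of_algebraMap_eq_zero (K := K) _ ?_
    rw [algebraMap_eq_residue, hres, map_zero]
  obtain ⟨y, hy⟩ := hsat _ hdiv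
  show f i ⊗ₜ[↥(GaloisRep.ratLocalizedAt ℓ)] v i = 0
  rw [hy, ← tmul_natCast_smul, Algebra.smul_def, map_natCast, CharP.cast_eq_zero, zero_mul,
    TensorProduct.tmul_zero]

section Laurent

/-- Lift of two algebra maps to the tensor product, for a commutative target. -/
def liftTensor {A L : Type*} [CommRing A] [Algebra ↥(GaloisRep.ratLocalizedAt ℓ) A] [CommRing L]
    [Algebra ↥(GaloisRep.ratLocalizedAt ℓ) L] (f : B →ₐ[↥(GaloisRep.ratLocalizedAt ℓ)] L) (g : A →ₐ[↥(GaloisRep.ratLocalizedAt ℓ)] L) :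
    B ⊗[↥(GaloisRep.ratLocalizedAt ℓ)] A →ₐ[↥(GaloisRep.ratLocalizedAt ℓ)] L :=
  Algebra.TensorProduct.lift f g fun _ _ => Commute.all _ _

omit hℓ in
theorem liftTensor_tmul {A L : Type*} [CommRing A] [Algebra ↥(GaloisRep.ratLocalizedAt ℓ) A] [CommRing L]
    [Algebra ↥(GaloisRep.ratLocalizedAt ℓ) L] (f : B →ₐ[↥(GaloisRep.ratLocalizedAt ℓ)] L) (g : A →ₐ[↥(GaloisRep.ratLocalizedAt ℓ)] L) (b : B) (a : A) :
    liftTensor f g (b ⊗ₜ a) = f b * g a :=
  Algebra.TensorProduct.lift_tmul f g (fun _ _ => Commute.all _ _) b a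


variable (ψ : B →+* LaurentSeries ↥(GaloisRep.ratLocalizedAt ℓ))

/-- The coefficients of an algebra map to Laurent series, as linear maps. -/
def coeffLinear (hψ : ∀ (a : ↥(GaloisRep.ratLocalizedAt ℓ)) (b : B), ψ (a • b) = HahnSeries.C a * ψ b) (k : ℤ) :
    B →ₗ[↥(GaloisRep.ratLocalizedAt ℓ)] ↥(GaloisRep.ratLocalizedAt ℓ) where
  toFun b := (ψ b).coeff k
  map_add' x y := by simp
  map_smul' a b := by simp [hψ]

/-- If divisibility by `ℓ` in `B` is detected on coefficients, `B ⊗ K` is a domain, mapped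
injectively to `K((q))`. -/
theorem isDomain_tensor (hψ : ∀ a : ↥(GaloisRep.ratLocalizedAt ℓ), ψ (algebraMap ↥(GaloisRep.ratLocalizedAt ℓ) B a) = HahnSeries.C a)
    (hsat : ∀ b : B, (∀ k, ∃ a : ↥(GaloisRep.ratLocalizedAt ℓ), (ψ b).coeff k = (ℓ : ↥(GaloisRep.ratLocalizedAt ℓ)) * a) →
      ∃ y : B, b = (ℓ : ↥(GaloisRep.ratLocalizedAt ℓ)) • y) :
    IsDomain (B ⊗[↥(GaloisRep.ratLocalizedAt ℓ)] K) := by
  have hC : ∀ a : ↥(GaloisRep.ratLocalizedAt ℓ), algebraMap ↥(GaloisRep.ratLocalizedAt ℓ) (LaurentSeries K) a =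
      HahnSeries.C (algebraMap ↥(GaloisRep.ratLocalizedAt ℓ) K a) := fun a => by
    rw [HahnSeries.algebraMap_apply', PowerSeries.algebraMap_apply, HahnSeries.ofPowerSeries_C]
  let φB : B →ₐ[↥(GaloisRep.ratLocalizedAt ℓ)] LaurentSeries K :=
    { (ModularCurve.coeffMap (algebraMap ↥(GaloisRep.ratLocalizedAt ℓ) K)).comp ψ with
      commutes' := fun a => by
        show ModularCurve.coeffMap (algebraMap ↥(GaloisRep.ratLocalizedAt ℓ) K) (ψ (algebraMap ↥(GaloisRep.ratLocalizedAt ℓ) B a)) = _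
        rw [hψ, hC, HahnSeries.C_apply, ModularCurve.coeffMap_single, HahnSeries.C_apply] }
  let φK : K →ₐ[↥(GaloisRep.ratLocalizedAt ℓ)] LaurentSeries K :=
    { (HahnSeries.C : K →+* LaurentSeries K) with commutes' := fun a => (hC a).symm }
  let Φ := liftTensor φB φK
  let coeffL : ℤ → LaurentSeries K →+ K := fun k =>
    { toFun := fun x => x.coeff k, map_zero' := rfl, map_add' := fun _ _ => rfl }
  have hlin : ∀ (a : ↥(GaloisRep.ratLocalizedAt ℓ)) (b : B), ψ (a • b) = HahnSeries.C a * ψ b := fun a b => by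
    rw [Algebra.smul_def, map_mul, hψ]
  have hinj : Function.Injective Φ := by
    refine injective_of_coeffs (coeffLinear ψ hlin) hsat Φ coeffL fun k b x => ?_
    show ((Φ (b ⊗ₜ x)) : LaurentSeries K).coeff k = _
    rw [liftTensor_tmul]
    show ((φB b) * HahnSeries.C x).coeff k = _
    rw [mul_comm, HahnSeries.C_mul_eq_smul, HahnSeries.coeff_smul, smul_eq_mul, mul_comm]
    rfl
  exact hinj.isDomain Φ.toRingHom

end Laurent

end Fermat.Agent.Igusa.BaseChange
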