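import Fermat.Agent.Igusa.Saturated
import Fermat.Agent.Igusa.SchemeGlue
import Fermat.Agent.Igusa.TensorInjective

/-!
Saturated charts give an integral special fibre.
-/

set_option autoImplicit false

noncomputable section

open AlgebraicGeometry CategoryTheory CategoryTheory.Limits ModularCurve ModularCurve.IgusaScheme
open scoped TensorProduct

namespace Fermat.Agent.Igusa

variable {N ℓ : ℕ} [NeZero N] [Fact ℓ.Prime]

/-- `q`-expansion of an element of the chart. -/
def chartQ (S : Set ↥(modularFunctionFieldFull N)) : chartAlg N ℓ S →+* LaurentSeries ℚ :=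
  (algebraMap ↥(modularFunctionFieldFull N) (LaurentSeries ℚ)).comp
    (chartAlg N ℓ S).val.toRingHom

omit [NeZero N] [Fact ℓ.Prime] in
theorem chartQ_apply (S : Set ↥(modularFunctionFieldFull N)) (x : chartAlg N ℓ S) :
    chartQ S x = ((x : ↥(modularFunctionFieldFull N)) : LaurentSeries ℚ) := rfl

omit [NeZero N] [Fact ℓ.Prime] in
theorem coeffMap_rat_injective : Function.Injective
    (coeffMap (algebraMap ↥(GaloisRep.ratLocalizedAt ℓ) ℚ)) :=
  coeffMap_injective Subtype.val_injective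

/-- A ring map to `ℚ((q))` with integral values, as a map to `ℤ_(ℓ)((q))`. -/
def integralLift {A : Type*} [CommRing A] (g : A →+* LaurentSeries ℚ)
    (h : ∀ a, g a ∈ (coeffMap (algebraMap ↥(GaloisRep.ratLocalizedAt ℓ) ℚ)).range) :
    A →+* LaurentSeries ↥(GaloisRep.ratLocalizedAt ℓ) :=
  (RingEquiv.ofBijective (coeffMap (algebraMap ↥(GaloisRep.ratLocalizedAt ℓ) ℚ)).rangeRestrict
      ⟨fun _ _ hxy => coeffMap_rat_injective (congrArg Subtype.val hxy),
        RingHom.rangeRestrict_surjective _⟩).symm.toRingHom.comp (g.codRestrict _ h)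

omit [NeZero N] [Fact ℓ.Prime] in
theorem coeffMap_integralLift {A : Type*} [CommRing A] (g : A →+* LaurentSeries ℚ)
    (h : ∀ a, g a ∈ (coeffMap (algebraMap ↥(GaloisRep.ratLocalizedAt ℓ) ℚ)).range) (a : A) :
    coeffMap (algebraMap ↥(GaloisRep.ratLocalizedAt ℓ) ℚ) (integralLift g h a) = g a :=
  congrArg Subtype.val ((RingEquiv.ofBijective
    (coeffMap (algebraMap ↥(GaloisRep.ratLocalizedAt ℓ) ℚ)).rangeRestrict
      ⟨fun _ _ hxy => coeffMap_rat_injective (congrArg Subtype.val hxy),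
        RingHom.rangeRestrict_surjective _⟩).apply_symm_apply (g.codRestrict _ h a))

omit [NeZero N] [Fact ℓ.Prime] in
theorem chartQ_algebraMap (S : Set ↥(modularFunctionFieldFull N))
    (a : ↥(GaloisRep.ratLocalizedAt ℓ)) :
    chartQ S (algebraMap ↥(GaloisRep.ratLocalizedAt ℓ) (chartAlg N ℓ S) a) =
      HahnSeries.C (a : ℚ) := by
  show algebraMap ↥(modularFunctionFieldFull N) (LaurentSeries ℚ)
    (algebraMap ℚ ↥(modularFunctionFieldFull N) (a : ℚ)) = _
  rw [RingHom.map_rat_algebraMap, algebraMap_apply_eq_single, HahnSeries.C_apply]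

omit [NeZero N] [Fact ℓ.Prime] in
theorem integralLift_chartQ_algebraMap (S : Set ↥(modularFunctionFieldFull N))
    (h : ∀ x, chartQ (ℓ := ℓ) S x ∈
      (coeffMap (algebraMap ↥(GaloisRep.ratLocalizedAt ℓ) ℚ)).range)
    (a : ↥(GaloisRep.ratLocalizedAt ℓ)) :
    integralLift (chartQ S) h (algebraMap ↥(GaloisRep.ratLocalizedAt ℓ) (chartAlg N ℓ S) a) =
      HahnSeries.C a := by
  refine coeffMap_rat_injective ?_
  rw [coeffMap_integralLift, chartQ_algebraMap, coeffMap_C]
  rfl

theorem ChartSaturated.range {S : Set ↥(modularFunctionFieldFull N)}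
    (h : ChartSaturated N ℓ S) (x : chartAlg N ℓ S) :
    chartQ S x ∈ (coeffMap (algebraMap ↥(GaloisRep.ratLocalizedAt ℓ) ℚ)).range := by
  obtain ⟨y, hy, -⟩ := h x
  exact ⟨y, hy⟩

/-- The special fibre of a saturated chart is a domain. -/
theorem ChartSaturated.isDomain_tensor {S : Set ↥(modularFunctionFieldFull N)}
    (h : ChartSaturated N ℓ S) (K : Type) [Field K] [CharP K ℓ]
    [Algebra ↥(GaloisRep.ratLocalizedAt ℓ) K] :
    IsDomain ((chartAlg N ℓ S) ⊗[↥(GaloisRep.ratLocalizedAt ℓ)] K) := by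
  refine BaseChange.isDomain_tensor (integralLift (chartQ S) h.range)
    (integralLift_chartQ_algebraMap S h.range) fun x hx => ?_
  obtain ⟨y, hy, hsat⟩ := h x
  have hyψ : y = integralLift (chartQ S) h.range x :=
    coeffMap_rat_injective (by rw [coeffMap_integralLift]; exact hy)
  obtain ⟨z, hz⟩ := hsat fun i => by rw [hyψ]; exact hx i
  exact ⟨z, by rw [hz, Algebra.smul_def, map_natCast]⟩

/-- Integrality of expansions on the overlap chart. -/
theorem range_chartQ_mid (hFin : ChartSaturated N ℓ {jFull N})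
    (hInf : ChartSaturated N ℓ {(jFull N)⁻¹}) (z : chartAlgMid N ℓ) :
    chartQ _ z ∈ (coeffMap (algebraMap ↥(GaloisRep.ratLocalizedAt ℓ) ℚ)).range := by
  have hmem : (z : ↥(modularFunctionFieldFull N)) ∈
      chartAlg N ℓ (insert (jFull N)⁻¹ {jFull N}) := by
    rw [show insert (jFull N)⁻¹ ({jFull N} : Set ↥(modularFunctionFieldFull N)) =
      {jFull N, (jFull N)⁻¹} from Set.pair_comm _ _]
    exact z.2
  obtain ⟨n, hn⟩ := exists_pow_mul_mem_chartAlg (Set.mem_singleton _) (jFull_ne_zero N) hmem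
  let y : chartAlgFin N ℓ := ⟨_, hn⟩
  have hz : (z : ↥(modularFunctionFieldFull N)) * jFull N ^ n = y := mul_comm _ _
  have hzy : chartQ _ z = chartQ _ y * chartQ _ (jInvChartInf N ℓ ^ n) := by
    rw [map_pow, chartQ_apply, chartQ_apply, chartQ_apply, coe_jInvChartInf, ← hz,
      MulMemClass.coe_mul, SubmonoidClass.coe_pow, mul_assoc, ← mul_pow, ← MulMemClass.coe_mul,
      mul_inv_cancel₀ (jFull_ne_zero N), OneMemClass.coe_one, one_pow, mul_one]
  rw [hzy]
  exact mul_mem (hFin.range y) (hInf.range _)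

theorem isIntegral_pullback_of_saturated (N : ℕ) [NeZero N] (ℓ : ℕ) [Fact ℓ.Prime]
    (hFin : ChartSaturated N ℓ {jFull N}) (hInf : ChartSaturated N ℓ {(jFull N)⁻¹})
    (K : Type) [Field K] [CharP K ℓ] [Algebra ↥(GaloisRep.ratLocalizedAt ℓ) K] :
    AlgebraicGeometry.IsIntegral ↑(pullback (igusaTo N ℓ)
      (Spec.map (CommRingCat.ofHom (algebraMap ↥(GaloisRep.ratLocalizedAt ℓ) K)))) := by
  have hdF := hFin.isDomain_tensor K
  have hdI := hInf.isDomain_tensor K
  have : AlgebraicGeometry.IsIntegral (pullback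
      (Spec.map (CommRingCat.ofHom (algebraMap ↥(GaloisRep.ratLocalizedAt ℓ) (chartAlgFin N ℓ))))
      (Spec.map (CommRingCat.ofHom (algebraMap ↥(GaloisRep.ratLocalizedAt ℓ) K)))) :=
    IsIntegral.of_isIso (pullbackSpecIso ↥(GaloisRep.ratLocalizedAt ℓ) (chartAlgFin N ℓ) K).inv
  have : AlgebraicGeometry.IsIntegral (pullback
      (Spec.map (CommRingCat.ofHom (algebraMap ↥(GaloisRep.ratLocalizedAt ℓ) (chartAlgInf N ℓ))))
      (Spec.map (CommRingCat.ofHom (algebraMap ↥(GaloisRep.ratLocalizedAt ℓ) K)))) :=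
    IsIntegral.of_isIso (pullbackSpecIso ↥(GaloisRep.ratLocalizedAt ℓ) (chartAlgInf N ℓ) K).inv
  -- a point of the overlap over `K`, with values in `K((q))`
  let ψ : chartAlgMid N ℓ →+* LaurentSeries K :=
    (coeffMap (algebraMap ↥(GaloisRep.ratLocalizedAt ℓ) K)).comp
      (integralLift (chartQ _) (range_chartQ_mid hFin hInf))
  let pM : Spec (CommRingCat.of (LaurentSeries K)) ⟶ XMid N ℓ := Spec.map (CommRingCat.ofHom ψ)
  have hψ : ψ.comp (algebraMap ↥(GaloisRep.ratLocalizedAt ℓ) (chartAlgMid N ℓ)) =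
      (HahnSeries.C).comp (algebraMap ↥(GaloisRep.ratLocalizedAt ℓ) K) := RingHom.ext fun a => by
    simp only [ψ, RingHom.comp_apply, integralLift_chartQ_algebraMap, coeffMap_C]
  refine isIntegral_pullback_of_two_charts (ιFin N ℓ) (ιInf N ℓ) _ _ _ _ (ιFin_igusaTo N ℓ)
    (ιInf_igusaTo N ℓ) (mem_range_ιFin_or_mem_range_ιInf N ℓ) (pM ≫ fFin N ℓ) (pM ≫ fInf N ℓ)
    (Spec.map (CommRingCat.ofHom (HahnSeries.C : K →+* LaurentSeries K))) ?_ ?_
  · rw [Category.assoc, Category.assoc, glue_condition]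
  · have hincl : (inclFin N ℓ).toRingHom.comp
        (algebraMap ↥(GaloisRep.ratLocalizedAt ℓ) (chartAlgFin N ℓ)) =
        algebraMap ↥(GaloisRep.ratLocalizedAt ℓ) (chartAlgMid N ℓ) :=
      RingHom.ext fun a => (inclFin N ℓ).commutes a
    rw [Category.assoc, ← Spec.map_comp, ← CommRingCat.ofHom_comp, hincl, ← Spec.map_comp,
      ← CommRingCat.ofHom_comp, ← Spec.map_comp, ← CommRingCat.ofHom_comp, hψ]

end Fermat.Agent.Igusa
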