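import Fermat.Agent.Igusa.CosetPoly
import Fermat.Agent.Igusa.UnitPolyData
import Fermat.Agent.Igusa.EtaUnit
import Fermat.Agent.Igusa.Expansions

/-!
# The unit polynomial data from a modular unit

From a nowhere vanishing `Γ₀(N)`-invariant function `U` with an integral expansion at infinity
and expansions of exact order `-N W` with unit lead at the other cosets, build `UnitPolyData`.
-/

set_option autoImplicit false

noncomputable section

open scoped MatrixGroups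
open UpperHalfPlane Polynomial ModularCurve CongruenceSubgroup

namespace Fermat.Agent.Igusa

open Fermat.Agent.Modular

variable {N : ℕ} [NeZero N] (ℓ : ℕ)

/-- The coefficient ring as a subring of `ℂ`. -/
abbrev coeffSubring : Subring ℂ := (coeffRing ℓ).toSubring

theorem mem_coeffSubring_of_pow_eq_one {d : ℕ} [NeZero d] {z : ℂ} (hz : z ^ d = 1) :
    z ∈ coeffSubring ℓ :=
  IsIntegral.of_pow (Nat.pos_of_ne_zero (NeZero.ne d)) (hz ▸ isIntegral_one)

/-- Expansions of `j(d τ)` at the translates. -/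
theorem exists_hasQExp_kleinJ_mulH_smul {δ : ℕ} [NeZero δ] (hδ : δ ∣ N) (g : SL(2, ℤ)) :
    ∃ y : LaurentSeries (coeffSubring ℓ), HasQExp (N : ℝ)
      (fun τ => kleinJ (mulH δ (g • τ))) (coeffMap (coeffSubring ℓ).subtype y) := by
  obtain ⟨a, d, b, g', ha, hd, -, had, hpt, -⟩ := exists_decomposition g δ
  obtain ⟨k, hk⟩ := hδ
  have hk0 : NeZero k := ⟨fun h => NeZero.ne N (by rw [hk, h, mul_zero])⟩
  have hkaa : NeZero (k * a * a) :=
    ⟨mul_ne_zero (mul_ne_zero (NeZero.ne k) (NeZero.ne a)) (NeZero.ne a)⟩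
  refine ⟨_, (hasQExp_kleinJ_affineH (N := N) (a := a) (d := d) (e := k * a * a) b
    (by rw [hk, ← had]; ring)
    (rootUnit (coeffSubring ℓ) d (fun z hz => mem_coeffSubring_of_pow_eq_one ℓ hz) b)
    (val_rootUnit _ _ _ _)).congr fun τ => ?_⟩
  rw [hpt, kleinJ_smul]

omit [NeZero N] in
theorem kleinJ_mulH_smul_of_mem {δ : ℕ} [NeZero δ] (hδ : δ ∣ N) {g : SL(2, ℤ)}
    (hg : g ∈ Gamma0 N) (τ : ℍ) : kleinJ (mulH δ (g • τ)) = kleinJ (mulH δ τ) := by
  obtain ⟨a, d, b, g', ha, hd, hag, had, hpt, -⟩ := exists_decomposition g δ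
  have haδ : a = δ := by
    rw [hag]
    refine Nat.gcd_eq_left (Int.natCast_dvd.mp ?_)
    refine (Int.natCast_dvd_natCast.mpr hδ).trans ?_
    rw [← ZMod.intCast_zmod_eq_zero_iff_dvd]
    exact Gamma0_mem.mp hg
  subst haδ
  obtain rfl : d = 1 := Nat.eq_of_mul_eq_mul_left (NeZero.pos a) (by rw [mul_one]; exact had)
  rw [hpt, kleinJ_smul]
  exact hasQExp_kleinJ.periodic one_ne_zero _ _ b (by simp)

omit [NeZero N] in
/-- The translates of a `Γ₀(N)`-invariant function are permuted by `SL₂(ℤ)`. -/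
theorem cosetFun_smul {U : ℍ → ℂ} (hU : ∀ g ∈ Gamma0 N, ∀ τ, U (g • τ) = U τ) (γ : SL(2, ℤ))
    (q : SL(2, ℤ) ⧸ Gamma0 N) (τ : ℍ) :
    U (q.out⁻¹ • γ • τ) = U ((γ⁻¹ • q).out⁻¹ • τ) := by
  obtain ⟨h, hh⟩ := QuotientGroup.mk_out_eq_mul (Gamma0 N) (γ⁻¹ * q.out)
  have hq : (γ⁻¹ • q) = ((γ⁻¹ * q.out : SL(2, ℤ)) : SL(2, ℤ) ⧸ Gamma0 N) := by
    conv_lhs => rw [← QuotientGroup.out_eq' q]
    rfl
  rw [hq, hh, mul_inv_rev, mul_inv_rev, inv_inv, mul_smul, mul_smul, hU _ (inv_mem h.2)]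

/-- `UnitPolyData` from a modular unit. -/
theorem nonempty_unitPolyData_of_unit (W : ℕ) (hW : 0 < W) (U : ℍ → ℂ) (hU0 : ∀ τ, U τ ≠ 0)
    (hU : ∀ g ∈ Gamma0 N, ∀ τ, U (g • τ) = U τ)
    (u : LaurentSeries ℤ) (hu : HasQExp 1 U (castSeries ℂ u))
    {m₀ : ℤ} (hm₀ : -(W : ℤ) < m₀) {c₀ : ℤ} (hc₀ : IsUnit ((c₀ : coeffSubring ℓ)))
    (hlead : HasLead u m₀ c₀)
    (hmem : ∀ (k : Type) [Field k], castSeries k u ∈ discQuotientField k N)
    (hother : ∀ g : SL(2, ℤ), g ∉ Gamma0 N →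
      ∃ (x : LaurentSeries (coeffSubring ℓ)) (c : coeffSubring ℓ), IsUnit c ∧
        HasQExp (N : ℝ) (fun τ => U (g • τ)) (coeffMap (coeffSubring ℓ).subtype x) ∧
        HasLead x (-((N : ℤ) * W)) c) :
    Nonempty (UnitPolyData N ℓ) := by
  classical
  let S := coeffSubring ℓ
  let ι := SL(2, ℤ) ⧸ Gamma0 N
  have : Fintype ι := Fintype.ofFinite _
  have hN : (1 : ℤ) ≤ N := by exact_mod_cast Nat.pos_of_ne_zero (NeZero.ne N)
  have hNR : (0 : ℝ) < N := by exact_mod_cast Nat.pos_of_ne_zero (NeZero.ne N)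
  let i₀ : ι := ((1 : SL(2, ℤ)) : ι)
  have hi₀ : i₀.out⁻¹ ∈ Gamma0 N := by
    obtain ⟨h, hh⟩ := QuotientGroup.mk_out_eq_mul (Gamma0 N) (1 : SL(2, ℤ))
    show ((1 : SL(2, ℤ)) : ι).out⁻¹ ∈ _
    rw [hh, one_mul]
    exact inv_mem h.2
  have hne : ∀ q : ι, q ≠ i₀ → q.out⁻¹ ∉ Gamma0 N := by
    intro q hq h
    refine hq ?_
    rw [← QuotientGroup.out_eq' q]
    exact QuotientGroup.eq.2 (by simpa using h)
  let f : ι → ℍ → ℂ := fun q τ => U (q.out⁻¹ • τ)
  let uS : LaurentSeries S := qExpand S N (castSeries S u)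
  have hdata : ∀ q : ι, ∃ (x : LaurentSeries S) (m : ℤ) (c : S), IsUnit c ∧ HasLead x m c ∧
      HasQExp (N : ℝ) (f q) (coeffMap S.subtype x) ∧ (q = i₀ → x = uS) ∧
      (q ≠ i₀ → m = -((N : ℤ) * W)) ∧ (q = i₀ → m = N * m₀) := by
    intro q
    rcases eq_or_ne q i₀ with rfl | hq
    · refine ⟨uS, N * m₀, ((c₀ : ℤ) : S), hc₀, (hlead.map (Int.castRingHom S)).qExpand N, ?_,
        fun _ => rfl, fun h => absurd rfl h, fun _ => rfl⟩
      have h := hu.dilate_period one_ne_zero N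
      rw [one_mul] at h
      refine HasQExp.congr ?_ fun τ => (hU _ hi₀ τ).symm
      rwa [coeffMap_qExpand, coeffMap_castSeries]
    · obtain ⟨x, c, hc, hx, hl⟩ := hother _ (hne q hq)
      exact ⟨x, _, c, hc, hl, hx, fun h => absurd h hq, fun _ => rfl, fun h => absurd h hq⟩
  choose x m c hc hl hx hx₀ hm hm₀' using hdata
  have hxu : x i₀ = uS := hx₀ i₀ rfl
  let xu : ι → (LaurentSeries S)ˣ := fun q => ((hl q).isUnit (hc q)).unit
  have hperm : ∀ γ : SL(2, ℤ), ∃ σ : Equiv.Perm ι, ∀ i τ, f i (γ • τ) = f (σ i) τ :=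
    fun γ => ⟨MulAction.toPerm γ⁻¹, fun i τ => cosetFun_smul hU γ i τ⟩
  obtain ⟨P, hmonic, hdeg, hmap, -, hbound⟩ :=
    exists_cosetPoly (fun g τ => kleinJ_smul g τ) hasQExp_kleinJ S N f x hx hperm
  have hW' : ∀ i, CoeffBound (x i) (-((N : ℤ) * W)) := by
    intro q k hk
    refine (hl q).below k (lt_of_lt_of_le hk ?_)
    rcases eq_or_ne q i₀ with h | h
    · rw [hm₀' q h]; nlinarith
    · rw [hm q h]
  have hn : 0 < Fintype.card ι := Fintype.card_pos_iff.2 ⟨i₀⟩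
  have hzero : IsUnit (P.coeff 0) := by
    refine isUnit_coeff_zero (fun g τ => kleinJ_smul g τ) hasQExp_kleinJ S N f x
      (fun q τ => f q τ ^ (-1 : ℤ)) (fun q => (↑((xu q) ^ (-1 : ℤ)) : LaurentSeries S)) hx
      (fun q => ?_) (fun q τ => ?_) hperm hmap
    · refine hasQExp_zpow_unit hNR (fun τ => hU0 _) ?_ (-1)
      rw [IsUnit.unit_spec]
      exact hx q
    · rw [zpow_neg_one, mul_inv_cancel₀ (hU0 _)]
  have hone : 2 ≤ Fintype.card ι → IsUnit ((P.coeff 1).coeff ((Fintype.card ι - 1) * W)) := by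
    intro h2
    rw [((hbound W hW' 1).2)]
    have h := coeff_prod_X_sub_C_one (M := N * W) (x := x)
      (fun q => by simpa using hW' q) i₀ (fun k hk => (hl i₀).below k (by
        rw [hm₀' i₀ rfl]; push_cast at hk; nlinarith)) h2
    rw [show (-((N : ℤ) * (((Fintype.card ι - 1) * W : ℕ) : ℤ))) =
      -(((Fintype.card ι - 1) * (N * W) : ℕ) : ℤ) by push_cast; ring, h]
    refine (isUnit_one.neg.pow _).mul (IsUnit.prod_iff.2 fun q hq => ?_)
    rw [show (-((N * W : ℕ) : ℤ)) = -((N : ℤ) * W) by push_cast; ring,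
      ← hm q (Finset.mem_erase.1 hq).1, (hl q).coeff_eq]
    exact hc q
  refine ⟨{
    u := u
    n := Fintype.card ι
    W := W
    P := P
    n_pos := hn
    W_pos := hW
    monic := hmonic
    natDegree_eq := hdeg
    natDegree_coeff_le := fun i => (hbound W hW' i).1
    isUnit_coeff_zero := hzero
    isUnit_coeff_one := hone
    u_mem := hmem
    eval_eq_zero := evalJU_eq_zero_of_map_eq N hmap hxu
    interpolation := ?_ }⟩
  intro d _ hd
  let g : ι → ℍ → ℂ := fun q τ => kleinJ (mulH d (q.out⁻¹ • τ))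
  let vS : LaurentSeries S := qExpand S d (jqModC S)
  have hgdata : ∀ q : ι, ∃ y : LaurentSeries S, HasQExp (N : ℝ) (g q) (coeffMap S.subtype y) ∧
      (q = i₀ → y = qExpand S N vS) := by
    intro q
    rcases eq_or_ne q i₀ with rfl | hq
    · refine ⟨_, ?_, fun _ => rfl⟩
      have h := (hasQExp_kleinJ_mulH d).dilate_period one_ne_zero N
      rw [one_mul] at h
      refine HasQExp.congr ?_ fun τ => (kleinJ_mulH_smul_of_mem hd hi₀ τ).symm
      rwa [coeffMap_qExpand, coeffMap_qExpand, coeffMap_jqModC]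
    · obtain ⟨y, hy⟩ := exists_hasQExp_kleinJ_mulH_smul ℓ hd q.out⁻¹
      exact ⟨y, hy, fun h => absurd h hq⟩
  choose y hy hy₀ using hgdata
  obtain ⟨R, -, hR⟩ := exists_interpolation (fun g τ => kleinJ_smul g τ) hasQExp_kleinJ S N f x g y
    hx hy (fun γ => ⟨MulAction.toPerm γ⁻¹, fun i τ => ⟨cosetFun_smul hU γ i τ,
      cosetFun_smul (U := fun τ => kleinJ (mulH d τ))
        (fun h hh τ => kleinJ_mulH_smul_of_mem hd hh τ) γ i τ⟩⟩)
  refine ⟨R.map (Polynomial.mapRingHom S.subtype), ?_⟩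
  have h := congrArg (coeffMap S.subtype) (evalJU_interpolation N hmap hR hxu (hy₀ i₀ rfl))
  rw [map_mul, coeffMap_qExpand, coeffMap_jqModC, coeffMap_evalJU, coeffMap_evalJU,
    coeffMap_castSeries] at h
  rw [derivative_map]
  exact h

end Fermat.Agent.Igusa
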